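import Fermat.Agent.DihedralQuartic.Kummer
import Fermat.Agent.QuarticFieldsCount.Main

/-!
# Quadratic extensions and square classes

A quadratic extension `ι : K → L` has one square class and is fixed by it; an automorphism of `K`
carries the classes along.
-/

set_option autoImplicit false
set_option linter.style.haveILetI false

noncomputable section

open NumberField Module
open scoped nonZeroDivisors Classical

namespace FA.DihedralQuartic

variable {K L M : Type} [Field K] [NumberField K] [Field L] [NumberField L] [Field M]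
  [NumberField M]

/-- `L` is `K(√b)` for some `b` of class `q`, inside `L` along `ι`. -/
def HasClass (ι : K →+* L) (q : SqClass K) : Prop :=
  finrank ℚ L = 2 * finrank ℚ K ∧ ∃ (b : (𝓞 K)⁰) (y : L),
    sqc b = q ∧ y ∉ Set.range ι ∧ y ^ 2 = ι (b.1 : K)

theorem finrank_two (ι : K →+* L) (h : finrank ℚ L = 2 * finrank ℚ K) :
    letI := ι.toAlgebra
    finrank K L = 2 := by
  letI := ι.toAlgebra
  have h1 := Module.finrank_mul_finrank ℚ K L
  rw [h, mul_comm 2] at h1
  exact Nat.eq_of_mul_eq_mul_left finrank_pos h1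

omit [NumberField K] in
theorem sqc_eq_one_iff {b : (𝓞 K)⁰} : sqc b = 1 ↔ IsSquare (b.1 : K) := by
  constructor
  · intro h
    obtain ⟨w, hw⟩ := (QuotientGroup.eq_one_iff _).mp h
    have hw' : (w : K) ^ 2 = (b.1 : K) := congrArg Units.val hw
    exact ⟨w, by rw [← hw', pow_two]⟩
  · rintro ⟨w, hw⟩
    have hw0 : w ≠ 0 := fun h0 => RingOfIntegers.coe_ne_zero_iff.mpr
      (nonZeroDivisors.coe_ne_zero b) (hw.trans (by rw [h0, mul_zero]))
    exact (QuotientGroup.eq_one_iff _).mpr ⟨Units.mk0 w hw0, Units.ext (by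
      show w ^ 2 = (b.1 : K); rw [hw, pow_two])⟩

omit [NumberField K] in
theorem sqc_eq_of_ratio {b b' : (𝓞 K)⁰} {w : K} (h : (b'.1 : K) = (b.1 : K) * w ^ 2) :
    sqc b = sqc b' := by
  have e : sqc (b * b') = 1 := sqc_eq_one_iff.mpr ⟨(b.1 : K) * w, by
    show ((b.1 * b'.1 : 𝓞 K) : K) = _
    simp only [map_mul]
    linear_combination (b.1 : K) * h⟩
  rw [map_mul] at e
  exact eq_of_mul_eq_one_two sqClass_mul_self e

theorem HasClass.ne_one {ι : K →+* L} {q : SqClass K} (h : HasClass ι q) : q ≠ 1 := by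
  obtain ⟨-, b, y, rfl, hy, hyb⟩ := h
  rintro h1
  obtain ⟨w, hw⟩ := sqc_eq_one_iff.mp h1
  rcases mul_eq_zero.mp (show (y - ι w) * (y + ι w) = 0 by
    rw [hw, map_mul] at hyb; linear_combination hyb) with e | e
  · exact hy ⟨w, by linear_combination -e⟩
  · exact hy ⟨-w, by rw [map_neg]; linear_combination -e⟩

/-- **Every quadratic extension has a class.** -/
theorem exists_hasClass (ι : K →+* L) (h : finrank ℚ L = 2 * finrank ℚ K) :
    ∃ q, HasClass ι q := by
  letI := ι.toAlgebra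
  obtain ⟨y, hy, α, hα, hyα⟩ :=
    FA.QuarticFieldsCount.exists_integral_sq_root (K := K) (finrank_two ι h)
  exact ⟨_, h, ⟨α, mem_nonZeroDivisors_of_ne_zero hα⟩, y, rfl, hy, hyα⟩

/-- **Only one.** -/
theorem HasClass.unique {ι : K →+* L} {q q' : SqClass K} (h : HasClass ι q)
    (h' : HasClass ι q') : q = q' := by
  letI := ι.toAlgebra
  have hb1 := h.ne_one
  have hb1' := h'.ne_one
  obtain ⟨hd, b, y, rfl, hy, hyb⟩ := h
  obtain ⟨-, b', y', rfl, hy', hyb'⟩ := h'
  obtain ⟨w, hw⟩ := FA.QuarticLower.square_ratio (finrank_two ι hd) (α := (b.1 : K))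
    (α' := (b'.1 : K)) (fun hs => hb1 (sqc_eq_one_iff.mpr hs))
    (fun hs => hb1' (sqc_eq_one_iff.mpr hs)) (s := y) (t := y') hyb hyb'
  exact sqc_eq_of_ratio hw

omit [NumberField K] in
/-- Roots of one element give one extension. -/
theorem exists_iso_of_sq {A B : Type} [Field A] [Field B] [Algebra K A] [Algebra K B]
    (hA : finrank K A = 2) (hB : finrank K B = 2) {c : K} {y : A} {z : B}
    (hy : y ∉ Set.range (algebraMap K A)) (hz : z ∉ Set.range (algebraMap K B))
    (hyc : y ^ 2 = algebraMap K A c) (hzc : z ^ 2 = algebraMap K B c) :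
    ∃ e : A ≃ₐ[K] B, e y = z := by
  suffices key : ∀ (F : Type) [Field F] [Algebra K F], finrank K F = 2 → ∀ w : F,
      w ∉ Set.range (algebraMap K F) → w ^ 2 = algebraMap K F c →
      ∃ e : QuadraticAlgebra K c 0 ≃ₐ[K] F, e ⟨0, 1⟩ = w by
    obtain ⟨e, he⟩ := key A hA y hy hyc
    obtain ⟨e', he'⟩ := key B hB z hz hzc
    exact ⟨e.symm.trans e', by rw [AlgEquiv.trans_apply, ← he, e.symm_apply_apply, he']⟩
  intro F _ _ hF w hw hwc
  let φ : QuadraticAlgebra K c 0 →ₐ[K] F := QuadraticAlgebra.lift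
    ⟨w, by rw [zero_smul, add_zero, ← Algebra.algebraMap_eq_smul_one, ← hwc, sq]⟩
  haveI : Module.Finite K F := Module.finite_of_finrank_eq_succ hF
  have hφ : ∀ x, φ x = algebraMap K F x.re + algebraMap K F x.im * w := fun x => by
    show x.re • (1 : F) + x.im • w = _
    rw [Algebra.smul_def, Algebra.smul_def, mul_one]
  have hinj : Function.Injective φ := by
    rw [injective_iff_map_eq_zero]
    intro x hx
    rw [hφ] at hx
    by_cases him : x.im = 0
    · rw [him, map_zero, zero_mul, add_zero, map_eq_zero] at hx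
      exact QuadraticAlgebra.ext hx (by simpa using him)
    · refine absurd ⟨-x.re / x.im, ?_⟩ hw
      rw [map_div₀, div_eq_iff ((_root_.map_ne_zero _).mpr him), map_neg]
      linear_combination -hx
  refine ⟨AlgEquiv.ofBijective φ ⟨hinj, (LinearMap.injective_iff_surjective_of_finrank_eq_finrank
    (f := φ.toLinearMap) (by rw [QuadraticAlgebra.finrank_eq_two, hF])).mp hinj⟩, ?_⟩
  rw [AlgEquiv.ofBijective_apply, hφ]
  simp

theorem exists_equiv_of_roots {ι : K →+* L} {ι' : K →+* M}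
    (hL : finrank ℚ L = 2 * finrank ℚ K) (hM : finrank ℚ M = 2 * finrank ℚ K) {c : K} {y : L}
    {z : M} (hy : y ∉ Set.range ι) (hz : z ∉ Set.range ι') (hyc : y ^ 2 = ι c)
    (hzc : z ^ 2 = ι' c) : ∃ φ : L ≃+* M, (φ : L →+* M).comp ι = ι' ∧ φ y = z := by
  letI := ι.toAlgebra
  letI := ι'.toAlgebra
  obtain ⟨e, he⟩ := exists_iso_of_sq (finrank_two ι hL) (finrank_two ι' hM) hy hz hyc hzc
  exact ⟨e.toRingEquiv, RingHom.ext fun x => e.commutes x, he⟩

/-- **The class fixes the extension.** -/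
theorem HasClass.exists_equiv {ι : K →+* L} {ι' : K →+* M} {q : SqClass K} (h : HasClass ι q)
    (h' : HasClass ι' q) : ∃ φ : L ≃+* M, (φ : L →+* M).comp ι = ι' := by
  obtain ⟨hd, b, y, hb, hy, hyb⟩ := h
  obtain ⟨hd', b', y', hb', hy', hyb'⟩ := h'
  obtain ⟨r, hr⟩ := sqc_eq_iff.mp (hb'.trans hb.symm)
  letI := ι'.toAlgebra
  obtain ⟨z, -, hz, hzb⟩ := (RootData.mk (finrank_two ι' hd') hy' hyb' :
    RootData K M (b'.1 : K) y').change (nonZeroDivisors.coe_ne_zero b')
      (nonZeroDivisors.coe_ne_zero b) hr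
  obtain ⟨φ, hφ, -⟩ := exists_equiv_of_roots hd hd' hy hz hyb hzb
  exact ⟨φ, hφ⟩

/-- Transport along an isomorphism. -/
theorem HasClass.map {ι : K →+* L} {q : SqClass K} (h : HasClass ι q) (φ : L ≃+* M) :
    HasClass ((φ : L →+* M).comp ι) q := by
  obtain ⟨hd, b, y, hb, hy, hyb⟩ := h
  refine ⟨(φ.toRatAlgEquiv.toLinearEquiv.finrank_eq).symm.trans hd, b, φ y, hb, ?_, ?_⟩
  · rintro ⟨x, hx⟩
    exact hy ⟨x, φ.injective hx⟩
  · rw [← map_pow, hyb]; rfl

/-- An automorphism on square classes. -/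
def classMap (σ : K ≃+* K) : SqClass K →* SqClass K :=
  QuotientGroup.map _ _ (Units.map σ.toRingHom.toMonoidHom) (by
    rintro _ ⟨x, rfl⟩
    exact ⟨Units.map σ.toRingHom.toMonoidHom x, by simp⟩)

omit [NumberField K] in
theorem classMap_sqc (σ : K ≃+* K) (b : (𝓞 K)⁰) :
    classMap σ (sqc b) = sqc ⟨RingOfIntegers.mapRingEquiv σ b.1, mem_nonZeroDivisors_of_ne_zero
      ((RingEquiv.map_ne_zero_iff _).mpr (nonZeroDivisors.coe_ne_zero b))⟩ := by
  show QuotientGroup.mk _ = QuotientGroup.mk _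
  refine congrArg _ (Units.ext ?_)
  rfl

theorem classMap_classMap (σ : K ≃+* K) (q : SqClass K) :
    classMap σ.symm (classMap σ q) = q := by
  obtain ⟨b, rfl⟩ := sqc_surjective q
  rw [classMap_sqc, classMap_sqc]
  exact congrArg sqc (Subtype.ext (RingOfIntegers.ext (σ.symm_apply_apply _)))

/-- **Precomposition with an automorphism.** -/
theorem HasClass.twist {ι : K →+* L} {q : SqClass K} (h : HasClass ι q) (σ : K ≃+* K) :
    HasClass (ι.comp (σ : K →+* K)) (classMap σ.symm q) := by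
  obtain ⟨hd, b, y, rfl, hy, hyb⟩ := h
  refine ⟨hd, _, y, (classMap_sqc σ.symm b).symm, ?_, ?_⟩
  · rintro ⟨x, hx⟩; exact hy ⟨σ x, hx⟩
  · rw [hyb]
    exact congrArg ι (σ.apply_symm_apply _).symm

/-- **Every nontrivial class occurs.** -/
theorem exists_field {q : SqClass K} (hq : q ≠ 1) :
    ∃ (F : Type) (_ : Field F) (_ : NumberField F) (ι : K →+* F), HasClass ι q := by
  obtain ⟨b, rfl⟩ := sqc_surjective q
  have hns : ¬ IsSquare (b.1 : K) := fun h => hq (sqc_eq_one_iff.mpr h)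
  obtain ⟨F, hF, hN, hA, h2, y, hy⟩ := FA.QuarticLower.exists_sqrt_field hns
  refine ⟨F, hF, hN, algebraMap K F, ?_, b, y, rfl, ?_, hy⟩
  · rw [← Module.finrank_mul_finrank ℚ K F, h2, mul_comm]
  · rintro ⟨x, hx⟩
    refine hns ⟨x, (algebraMap K F).injective ?_⟩
    rw [map_mul, ← pow_two, hx, hy]

/-- **The relative discriminant.** -/
theorem HasClass.absNorm_different [Algebra K L] {q : SqClass K}
    (h : HasClass (algebraMap K L) q) :
    (Ideal.absNorm (differentIdeal (𝓞 K) (𝓞 L)) : ℝ) = relDisc q := by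
  obtain ⟨hd, b, y, rfl, hy, hyb⟩ := h
  refine FA.DihedralQuartic.absNorm_different (y := y) ⟨?_, hy, hyb⟩
  have h1 := Module.finrank_mul_finrank ℚ K L
  rw [hd, mul_comm 2] at h1
  exact Nat.eq_of_mul_eq_mul_left finrank_pos h1

/-- **The discriminant.** -/
theorem HasClass.natAbs_discr {ι : K →+* L} {q : SqClass K} (h : HasClass ι q) :
    ((discr L).natAbs : ℝ) = relDisc q * ((discr K).natAbs : ℝ) ^ 2 := by
  letI := ι.toAlgebra
  have hc : HasClass (algebraMap K L) q := h
  rw [← hc.absNorm_different,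
    FA.QuarticFieldsCount.natAbs_discr_tower (finrank_two ι h.1)]
  push_cast
  rfl

theorem relDisc_classMap (σ : K ≃+* K) {q : SqClass K} (hq : q ≠ 1) :
    relDisc (classMap σ.symm q) = relDisc q := by
  obtain ⟨F, hF, hN, ι, h⟩ := exists_field hq
  have e := (h.twist σ).natAbs_discr
  rw [h.natAbs_discr] at e
  refine (mul_right_cancel₀ (pow_ne_zero 2 (Nat.cast_ne_zero.mpr ?_)) e).symm
  exact (Int.natAbs_ne_zero.mpr (discr_ne_zero K))

end FA.DihedralQuartic
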