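import Fermat.Agent.DihedralQuartic.SquareClass

/-!
# Square classes that are squares modulo `c²`

For `c ∣ 2` the residues prime to `c` modulo `c²` have `N c` classes up to squares, and the square
classes with given squarefree part that are squares modulo `c²` are none or as many as such virtual
units; the quotient of this number by the index of the ray classes that occur is
`2 ^ (r₁ + r₂) / N c`.
-/

set_option autoImplicit false
set_option linter.style.haveILetI false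

noncomputable section

open NumberField Module FA.Hecke Filter Topology
open scoped nonZeroDivisors Classical

namespace FA.DihedralQuartic

variable {K : Type} [Field K] [NumberField K] {c : Ideal (𝓞 K)}

omit [NumberField K] in
theorem cop_sq {I : Ideal (𝓞 K)} : I ⊔ c ^ 2 = ⊤ ↔ I ⊔ c = ⊤ := by
  simp only [← Ideal.isCoprime_iff_sup_eq, IsCoprime.pow_right_iff two_pos]

theorem cop_mul {I J : Ideal (𝓞 K)} (hI : I ⊔ c = ⊤) (hJ : J ⊔ c = ⊤) : I * J ⊔ c = ⊤ :=
  FA.Hecke.mul_sup_eq_top.mpr ⟨hI, hJ⟩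

/-- The product in the monoid of nonzero ideals. -/
theorem cop_mul' {I J : (Ideal (𝓞 K))⁰} (hI : I.1 ⊔ c = ⊤) (hJ : J.1 ⊔ c = ⊤) :
    (I * J).1 ⊔ c = ⊤ := by
  rw [Submonoid.coe_mul]; exact cop_mul hI hJ

theorem cop_span_mul {a b : 𝓞 K} (ha : Ideal.span {a} ⊔ c = ⊤) (hb : Ideal.span {b} ⊔ c = ⊤) :
    Ideal.span {a * b} ⊔ c = ⊤ := by
  rw [← Ideal.span_singleton_mul_span_singleton]; exact cop_mul ha hb

theorem cop_root {b b' r : 𝓞 K} (hb : Ideal.span {b} ⊔ c = ⊤) (hb' : Ideal.span {b'} ⊔ c = ⊤)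
    (h : b * b' = r ^ 2) : Ideal.span {r} ⊔ c = ⊤ := by
  have e := cop_span_mul hb hb'
  rw [h, pow_two, ← Ideal.span_singleton_mul_span_singleton] at e
  exact (FA.Hecke.mul_sup_eq_top.mp e).1

/-- The classes with a representative prime to `c`. -/
def copClass (c : Ideal (𝓞 K)) : Subgroup (SqClass K) where
  carrier := {q | ∃ b : (𝓞 K)⁰, sqc b = q ∧ Ideal.span {b.1} ⊔ c = ⊤}
  one_mem' := ⟨1, map_one _, by simp⟩
  mul_mem' := fun {q q'} ⟨b, hb, hc⟩ ⟨b', hb', hc'⟩ =>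
    ⟨b * b', by rw [map_mul, hb, hb'], cop_span_mul hc hc'⟩
  inv_mem' := fun {q} h => by rwa [sqClass_inv]

theorem mem_copClass (hc : c ≠ ⊥) {q : SqClass K} : q ∈ copClass c ↔ (sqf q).1.1 ⊔ c = ⊤ := by
  constructor
  · rintro ⟨b, hb, hbc⟩
    obtain ⟨J, G, -, -, hsq, h⟩ := FA.QuarticLower.exists_squarefree_mul_sq _ (span_ne_bot b)
    rw [sqf_eq hb hsq h]
    rw [h] at hbc
    exact (FA.Hecke.mul_sup_eq_top.mp hbc).1
  · intro h
    obtain ⟨b, G, hb, hG, he⟩ := exists_rep q hc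
    refine ⟨b, hb, ?_⟩
    rw [he, pow_two]
    exact cop_mul h (cop_mul hG hG)

/-- The classes with a representative prime to `c` and square modulo `c²`. -/
def sqClassMod (c : Ideal (𝓞 K)) : Subgroup (SqClass K) where
  carrier := {q | ∃ b : (𝓞 K)⁰, sqc b = q ∧ Ideal.span {b.1} ⊔ c = ⊤ ∧
    ∃ z : 𝓞 K, b.1 - z ^ 2 ∈ c ^ 2}
  one_mem' := ⟨1, map_one _, by simp, 1, by simp⟩
  mul_mem' := fun {q q'} ⟨b, hb, hc, z, hz⟩ ⟨b', hb', hc', z', hz'⟩ =>
    ⟨b * b', by rw [map_mul, hb, hb'], cop_span_mul hc hc', z * z', by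
      rw [Submonoid.coe_mul,
        show b.1 * b'.1 - (z * z') ^ 2 = (b.1 - z ^ 2) * b'.1 + z ^ 2 * (b'.1 - z' ^ 2) by ring]
      exact Ideal.add_mem _ (Ideal.mul_mem_right _ _ hz) (Ideal.mul_mem_left _ _ hz')⟩
  inv_mem' := fun {q} h => by rwa [sqClass_inv]

theorem sqClassMod_le : sqClassMod c ≤ copClass (K := K) c :=
  fun _ ⟨b, hb, hc, _⟩ => ⟨b, hb, hc⟩

/-- In a group of exponent two inverse elements are equal. -/
theorem eq_of_mul_eq_one_two {G : Type*} [CommGroup G] (h2 : ∀ x : G, x * x = 1) {x y : G}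
    (h : x * y = 1) : x = y := by
  rw [← mul_one x, ← h2 y, ← mul_assoc, h, one_mul]

/-- Being a square modulo `c²` does not depend on the representative. -/
theorem square_mod_of_mem {q : SqClass K} (hq : q ∈ sqClassMod c) {b : (𝓞 K)⁰}
    (hb : sqc b = q) (_hbc : Ideal.span {b.1} ⊔ c = ⊤) : ∃ z : 𝓞 K, b.1 - z ^ 2 ∈ c ^ 2 := by
  obtain ⟨b₀, hb₀, hc₀, z, hz⟩ := hq
  obtain ⟨r, hr⟩ := sqc_eq_iff.mp (hb₀.trans hb.symm)
  obtain ⟨t, ht, m, hm, htm⟩ := Submodule.mem_sup.mp ((Ideal.eq_top_iff_one _).mp (cop_sq.mpr hc₀))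
  obtain ⟨t', rfl⟩ := Ideal.mem_span_singleton.mp ht
  refine ⟨r * t' * z, ?_⟩
  -- `b - (r t' z)² = b (1 - b₀² t'²) + r² t'² (b₀ - z²)`
  rw [show b.1 - (r * t' * z) ^ 2 =
    b.1 * (1 + b₀.1 * t') * m + r ^ 2 * t' ^ 2 * (b₀.1 - z ^ 2) by
      linear_combination (-(b.1 * (1 + b₀.1 * t'))) * htm + b₀.1 * t' ^ 2 * hr]
  exact Ideal.add_mem _ (Ideal.mul_mem_left _ _ hm) (Ideal.mul_mem_left _ _ hz)

variable (c) in
/-- The residues prime to `c` modulo `c²`, up to squares. -/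
abbrev ResClass : Type :=
  (𝓞 K ⧸ c ^ 2)ˣ ⧸ (powMonoidHom 2 : (𝓞 K ⧸ c ^ 2)ˣ →* (𝓞 K ⧸ c ^ 2)ˣ).range

omit [NumberField K] in
theorem resClass_mul_self (x : ResClass c) : x * x = 1 := by
  obtain ⟨u, rfl⟩ := QuotientGroup.mk'_surjective _ x
  rw [← map_mul, QuotientGroup.mk'_apply]
  exact (QuotientGroup.eq_one_iff _).mpr ⟨u, by simp [pow_two]⟩

/-- **There are `N c` of them.** -/
theorem card_resClass (hc : c ≠ ⊥) (h2 : (2 : 𝓞 K) ∈ c) :
    Nat.card (ResClass c) = Ideal.absNorm c := by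
  have hc2 : c ^ 2 ≠ ⊥ := pow_ne_zero 2 hc
  haveI : Finite (𝓞 K ⧸ c ^ 2) := Ideal.finiteQuotientOfFreeOfNeBot _ hc2
  rw [← Subgroup.index_eq_card, Subgroup.index_range]
  set π : 𝓞 K ⧸ c ^ 2 →+* 𝓞 K ⧸ c := Ideal.Quotient.factor (Ideal.pow_le_self two_ne_zero)
  have hmem : ∀ y : 𝓞 K, y - 1 ∈ c → y ^ 2 - 1 ∈ c ^ 2 := fun y hy => by
    rw [show y ^ 2 - 1 = (y - 1) * (y - 1) + 2 * (y - 1) by ring, pow_two]
    exact Ideal.add_mem _ (Ideal.mul_mem_mul hy hy) (Ideal.mul_mem_mul h2 hy)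
  have hmem' : ∀ y : 𝓞 K, y ^ 2 - 1 ∈ c ^ 2 → y - 1 ∈ c := fun y hy => by
    set I := Ideal.span {y - 1} ⊔ c
    have hI : I ≠ ⊥ := fun e => hc (le_bot_iff.mp (le_sup_right.trans e.le))
    have h1 : y - 1 ∈ I := Ideal.mem_sup_left (Ideal.mem_span_singleton_self _)
    have hle : I * I ≤ I * c := by
      rw [Ideal.sup_mul, sup_le_iff]
      refine ⟨?_, by rw [mul_comm c I]⟩
      rw [Ideal.span_singleton_mul_le_iff]
      intro z hz
      obtain ⟨w, hw, m, hm, rfl⟩ := Submodule.mem_sup.mp hz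
      rw [mul_add]
      refine Ideal.add_mem _ ?_ (Ideal.mul_mem_mul h1 hm)
      obtain ⟨t, rfl⟩ := Ideal.mem_span_singleton.mp hw
      rw [show (y - 1) * ((y - 1) * t) = (y ^ 2 - 1) * t - (y - 1) * (2 * t) by ring]
      refine Ideal.sub_mem _ ?_ (Ideal.mul_mem_mul h1 (c.mul_mem_right t h2))
      exact Ideal.mul_mono le_sup_right le_rfl (Ideal.mul_mem_right t _ (pow_two c ▸ hy))
    exact (Ideal.dvd_iff_le.mp ((mul_dvd_mul_iff_left hI).mp (Ideal.dvd_iff_le.mpr hle))) h1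
  have e : (powMonoidHom 2 : (𝓞 K ⧸ c ^ 2)ˣ →* _).ker ≃ RingHom.ker π :=
    { toFun := fun u => ⟨(u.1 : 𝓞 K ⧸ c ^ 2) - 1, by
        have hu := congrArg Units.val (MonoidHom.mem_ker.mp u.2)
        rw [powMonoidHom_apply, Units.val_pow_eq_pow_val, Units.val_one] at hu
        obtain ⟨y, hy⟩ := Ideal.Quotient.mk_surjective (u.1 : 𝓞 K ⧸ c ^ 2)
        rw [← hy, RingHom.mem_ker, map_sub, map_one, Ideal.Quotient.factor_mk,
          ← map_one (Ideal.Quotient.mk c), ← map_sub, Ideal.Quotient.eq_zero_iff_mem]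
        rw [← hy, ← map_one (Ideal.Quotient.mk (c ^ 2)), ← map_pow, Ideal.Quotient.eq] at hu
        exact hmem' y hu⟩
      invFun := fun x =>
        have hx : (x.1 + 1) ^ 2 = 1 := by
          obtain ⟨y, hy⟩ := Ideal.Quotient.mk_surjective (x.1 + 1)
          have hx' : Ideal.Quotient.mk c y = 1 := by
            rw [← Ideal.Quotient.factor_mk (Ideal.pow_le_self two_ne_zero), hy, map_add,
              RingHom.mem_ker.mp x.2, map_one, zero_add]
          rw [← hy, ← map_pow, ← map_one (Ideal.Quotient.mk (c ^ 2)), Ideal.Quotient.eq]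
          exact hmem y (Ideal.Quotient.eq.mp (hx'.trans (map_one _).symm))
        ⟨Units.ofPowEqOne (x.1 + 1) 2 hx two_ne_zero, Units.ext (by
          rw [powMonoidHom_apply, Units.val_pow_eq_pow_val, Units.val_ofPowEqOne, hx,
            Units.val_one])⟩
      left_inv := fun u => Subtype.ext (Units.ext (by
        rw [Units.val_ofPowEqOne]; exact sub_add_cancel _ _))
      right_inv := fun x => Subtype.ext (by
        show (x.1 + 1 : 𝓞 K ⧸ c ^ 2) - 1 = x.1
        exact add_sub_cancel_right _ _) }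
  rw [Nat.card_congr e]
  have h := AddSubgroup.card_eq_card_quotient_mul_card_addSubgroup
    (π.toAddMonoidHom.ker)
  rw [Nat.card_congr (QuotientAddGroup.quotientKerEquivOfSurjective π.toAddMonoidHom
    (Ideal.Quotient.factor_surjective (Ideal.pow_le_self two_ne_zero))).toEquiv] at h
  have hN : ∀ I : Ideal (𝓞 K), Nat.card (𝓞 K ⧸ I) = Ideal.absNorm I := fun I => by
    rw [Ideal.absNorm_apply, Submodule.cardQuot_apply]
  rw [hN, hN, map_pow, pow_two] at h
  exact (mul_left_cancel₀ (by rwa [Ne, Ideal.absNorm_eq_zero_iff]) h).symm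

/-- The residue of a representative. -/
def resOf (b : 𝓞 K) (h : Ideal.span {b} ⊔ c = ⊤) : ResClass c :=
  QuotientGroup.mk (isUnit_mk_of_sup (cop_sq.mpr h)).unit

theorem resOf_mul {b b' : 𝓞 K} (h : Ideal.span {b} ⊔ c = ⊤) (h' : Ideal.span {b'} ⊔ c = ⊤) :
    resOf (b * b') (cop_span_mul h h') = resOf b h * resOf b' h' := by
  rw [resOf, resOf, resOf, ← QuotientGroup.mk_mul]
  exact congrArg _ (Units.ext (by simp))

theorem resOf_eq_one {b : 𝓞 K} (h : Ideal.span {b} ⊔ c = ⊤) :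
    resOf b h = 1 ↔ ∃ z : 𝓞 K, b - z ^ 2 ∈ c ^ 2 := by
  rw [resOf, QuotientGroup.eq_one_iff]
  constructor
  · rintro ⟨u, hu⟩
    obtain ⟨z, hz⟩ := Ideal.Quotient.mk_surjective (u : 𝓞 K ⧸ c ^ 2)
    refine ⟨z, Ideal.Quotient.eq.mp ?_⟩
    have h' := congrArg Units.val hu
    rw [powMonoidHom_apply, Units.val_pow_eq_pow_val, ← hz, ← map_pow] at h'
    exact h'.symm
  · rintro ⟨z, hz⟩
    have hzu : IsUnit (Ideal.Quotient.mk (c ^ 2) z) := by
      refine (isUnit_pow_iff two_ne_zero).mp ?_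
      rw [← map_pow, ← Ideal.Quotient.eq.mpr hz]
      exact isUnit_mk_of_sup (cop_sq.mpr h)
    refine ⟨hzu.unit, Units.ext ?_⟩
    rw [powMonoidHom_apply, Units.val_pow_eq_pow_val, IsUnit.unit_spec, IsUnit.unit_spec,
      ← map_pow, Ideal.Quotient.eq.mpr hz]

/-- A representative prime to `c`. -/
def copRep (q : copClass c) : (𝓞 K)⁰ :=
  Classical.choose (q.2 : ∃ b : (𝓞 K)⁰, sqc b = q.1 ∧ Ideal.span {b.1} ⊔ c = ⊤)

theorem sqc_copRep (q : copClass c) : sqc (copRep q) = q.1 :=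
  (Classical.choose_spec
    (q.2 : ∃ b : (𝓞 K)⁰, sqc b = q.1 ∧ Ideal.span {b.1} ⊔ c = ⊤)).1

theorem cop_copRep (q : copClass c) : Ideal.span {(copRep q).1} ⊔ c = ⊤ :=
  (Classical.choose_spec
    (q.2 : ∃ b : (𝓞 K)⁰, sqc b = q.1 ∧ Ideal.span {b.1} ⊔ c = ⊤)).2

theorem sqc_copRep_mul (q q' : copClass c) :
    sqc (copRep (q * q')) = sqc (copRep q * copRep q') :=
  (sqc_copRep (q * q')).trans ((Subgroup.coe_mul _ q q').trans
    ((congrArg₂ (· * ·) (sqc_copRep q).symm (sqc_copRep q').symm).trans (map_mul sqc _ _).symm))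

theorem resOf_congr {b b' : (𝓞 K)⁰} (h : sqc b = sqc b') (hb : Ideal.span {b.1} ⊔ c = ⊤)
    (hb' : Ideal.span {b'.1} ⊔ c = ⊤) : resOf b.1 hb = resOf b'.1 hb' := by
  obtain ⟨r, hr⟩ := sqc_eq_iff.mp h
  refine eq_of_mul_eq_one_two (G := ResClass c) resClass_mul_self ?_
  rw [← resOf_mul, resOf_eq_one]
  exact ⟨r, by rw [hr, sub_self]; exact zero_mem _⟩

/-- The residue of a square class. -/
def psi (c : Ideal (𝓞 K)) : copClass c →* ResClass c :=
  MonoidHom.mk' (fun q => resOf (copRep q).1 (cop_copRep q)) fun q q' =>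
    (resOf_congr (sqc_copRep_mul q q') (cop_copRep (q * q'))
      (cop_span_mul (cop_copRep q) (cop_copRep q'))).trans
      (resOf_mul (cop_copRep q) (cop_copRep q'))

theorem psi_eq {q : copClass c} {b : (𝓞 K)⁰} (hb : sqc b = q.1)
    (hc : Ideal.span {b.1} ⊔ c = ⊤) : psi c q = resOf b.1 hc :=
  resOf_congr ((sqc_copRep q).trans hb.symm) (cop_copRep q) hc

theorem mem_ker_psi {q : copClass c} : q ∈ (psi c).ker ↔ q.1 ∈ sqClassMod c := by
  obtain ⟨b, hb, hbc⟩ := q.2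
  rw [MonoidHom.mem_ker, psi_eq hb hbc, resOf_eq_one]
  exact ⟨fun h => ⟨b, hb, hbc, h⟩, fun h => square_mod_of_mem h hb hbc⟩

theorem psi_surjective (hc : c ≠ ⊥) : Function.Surjective (psi (K := K) c) := by
  intro x
  obtain ⟨u, rfl⟩ := QuotientGroup.mk'_surjective _ x
  obtain ⟨y, hy⟩ := Ideal.Quotient.mk_surjective (u : 𝓞 K ⧸ c ^ 2)
  obtain ⟨b, hb0, hb⟩ : ∃ b : 𝓞 K, b ≠ 0 ∧ Ideal.Quotient.mk (c ^ 2) b = u := by
    by_cases hy0 : y = 0
    · obtain ⟨m, hm, hm0⟩ := Submodule.exists_mem_ne_zero_of_ne_bot (pow_ne_zero 2 hc)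
      exact ⟨m, hm0, by rw [← hy, hy0, Ideal.Quotient.eq]; simpa using hm⟩
    · exact ⟨y, hy0, hy⟩
  have hbc : Ideal.span {b} ⊔ c = ⊤ := by
    refine cop_sq.mp ?_
    obtain ⟨t, ht⟩ := Ideal.Quotient.mk_surjective ((u⁻¹ : (𝓞 K ⧸ c ^ 2)ˣ) : 𝓞 K ⧸ c ^ 2)
    have h1 : b * t - 1 ∈ c ^ 2 := Ideal.Quotient.eq.mp (by
      rw [map_mul, hb, ht, ← Units.val_mul, mul_inv_cancel, Units.val_one, map_one])
    rw [Ideal.eq_top_iff_one, show (1 : 𝓞 K) = b * t - (b * t - 1) by ring]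
    exact Ideal.sub_mem _ (Ideal.mem_sup_left (Ideal.mem_span_singleton.mpr ⟨t, rfl⟩))
      (Ideal.mem_sup_right h1)
  refine ⟨⟨sqc ⟨b, mem_nonZeroDivisors_of_ne_zero hb0⟩, _, rfl, hbc⟩, ?_⟩
  rw [psi_eq (b := ⟨b, mem_nonZeroDivisors_of_ne_zero hb0⟩) rfl hbc]
  exact congrArg (QuotientGroup.mk' _) (Units.ext (by rw [IsUnit.unit_spec, hb]))

/-- The squares of ray classes modulo `c²`. -/
abbrev sqRay (c : Ideal (𝓞 K)) : Subgroup (RayClassGroup (c ^ 2)) :=
  MonoidHom.range (powMonoidHom (α := RayClassGroup (c ^ 2)) 2)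

/-- The ray class group modulo `c²`, up to squares. -/
abbrev RayTwo (c : Ideal (𝓞 K)) : Type := RayClassGroup (c ^ 2) ⧸ sqRay c

theorem rayTwo_mul_self (x : RayTwo c) : x * x = 1 := by
  obtain ⟨u, rfl⟩ := QuotientGroup.mk'_surjective _ x
  rw [← map_mul, QuotientGroup.mk'_apply]
  exact (QuotientGroup.eq_one_iff _).mpr ⟨u, by simp [pow_two]⟩

theorem rayTwo_aux (x y : RayTwo c) : x * (y * y) = x := by
  rw [rayTwo_mul_self]
  exact _root_.mul_one x

/-- The class of an ideal prime to `c`. -/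
def idealTwo (hc : c ≠ ⊥) (I : (Ideal (𝓞 K))⁰) (h : I.1 ⊔ c = ⊤) : RayTwo c :=
  QuotientGroup.mk (rayClass (pow_ne_zero 2 hc) ⟨I, cop_sq.mpr h⟩)

theorem idealTwo_mul (hc : c ≠ ⊥) {I J : (Ideal (𝓞 K))⁰} (hI : I.1 ⊔ c = ⊤) (hJ : J.1 ⊔ c = ⊤) :
    idealTwo hc (I * J) (cop_mul' hI hJ) = idealTwo hc I hI * idealTwo hc J hJ := by
  rw [idealTwo, idealTwo, idealTwo, ← QuotientGroup.mk_mul, ← map_mul]
  rfl

theorem idealTwo_ext (hc : c ≠ ⊥) {I J : (Ideal (𝓞 K))⁰} (e : I = J) (hI : I.1 ⊔ c = ⊤)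
    (hJ : J.1 ⊔ c = ⊤) : idealTwo hc I hI = idealTwo hc J hJ := by
  subst e; rfl

/-- A square factor does not change the class. -/
theorem idealTwo_mul_sq (hc : c ≠ ⊥) {I G : (Ideal (𝓞 K))⁰} (hI : I.1 ⊔ c = ⊤)
    (hG : G.1 ⊔ c = ⊤) :
    idealTwo hc (I * (G * G)) (cop_mul' hI (cop_mul' hG hG)) = idealTwo hc I hI := by
  have h1 := idealTwo_mul hc hI (cop_mul' hG hG)
  have h2 := idealTwo_mul hc hG hG
  rw [h1, h2]
  exact rayTwo_aux _ _

/-- A principal ideal. -/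
def prIdeal (b : (𝓞 K)⁰) : (Ideal (𝓞 K))⁰ :=
  ⟨Ideal.span {b.1}, mem_nonZeroDivisors_of_ne_zero (span_ne_bot b)⟩

omit [NumberField K] in
theorem prIdeal_mul (b b' : (𝓞 K)⁰) : prIdeal (b * b') = prIdeal b * prIdeal b' :=
  Subtype.ext (Ideal.span_singleton_mul_span_singleton _ _).symm

theorem idealTwo_pr_mul (hc : c ≠ ⊥) {b b' : (𝓞 K)⁰} (hb : (prIdeal b).1 ⊔ c = ⊤)
    (hb' : (prIdeal b').1 ⊔ c = ⊤) (h : (prIdeal (b * b')).1 ⊔ c = ⊤) :
    idealTwo hc (prIdeal (b * b')) h =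
      idealTwo hc (prIdeal b) hb * idealTwo hc (prIdeal b') hb' := by
  rw [← idealTwo_mul hc hb hb']
  exact idealTwo_ext hc (prIdeal_mul b b') h (cop_mul' hb hb')

omit [NumberField K] in
/-- The defining condition, as one on the principal ideal. -/
theorem cop_prIdeal {b : (𝓞 K)⁰} (h : Ideal.span {b.1} ⊔ c = ⊤) : (prIdeal b).1 ⊔ c = ⊤ := h

theorem idealTwo_congr (hc : c ≠ ⊥) {b b' : (𝓞 K)⁰} (h : sqc b = sqc b')
    (hb : Ideal.span {b.1} ⊔ c = ⊤) (hb' : Ideal.span {b'.1} ⊔ c = ⊤) :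
    idealTwo hc (prIdeal b) hb = idealTwo hc (prIdeal b') hb' := by
  obtain ⟨r, hr⟩ := sqc_eq_iff.mp h
  refine eq_of_mul_eq_one_two (G := RayTwo c) rayTwo_mul_self ?_
  rw [← idealTwo_mul, idealTwo, QuotientGroup.eq_one_iff]
  have hr0 : r ≠ 0 := fun h0 => by
    rw [h0, zero_pow two_ne_zero] at hr
    exact mul_ne_zero (nonZeroDivisors.coe_ne_zero _) (nonZeroDivisors.coe_ne_zero _) hr
  refine ⟨rayClass (pow_ne_zero 2 hc) ⟨prIdeal ⟨r, mem_nonZeroDivisors_of_ne_zero hr0⟩,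
    cop_sq.mpr (cop_root hb hb' hr)⟩, ?_⟩
  rw [powMonoidHom_apply, ← map_pow]
  refine congrArg _ (Subtype.ext (Subtype.ext ?_))
  show Ideal.span {r} ^ 2 = Ideal.span {b.1} * Ideal.span {b'.1}
  rw [Ideal.span_singleton_pow, ← hr, Ideal.span_singleton_mul_span_singleton]

/-- The ray class of a square class. -/
def theta (hc : c ≠ ⊥) : copClass c →* RayTwo c :=
  MonoidHom.mk' (fun q => idealTwo hc (prIdeal (copRep q)) (cop_copRep q)) fun q q' => by
    have hm : Ideal.span {(copRep q * copRep q').1} ⊔ c = ⊤ :=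
      cop_span_mul (cop_copRep q) (cop_copRep q')
    exact (idealTwo_congr hc (sqc_copRep_mul q q') (cop_copRep (q * q')) hm).trans
      (idealTwo_pr_mul hc (cop_prIdeal (cop_copRep q)) (cop_prIdeal (cop_copRep q'))
        (cop_prIdeal hm))

theorem theta_eq (hc : c ≠ ⊥) {q : copClass c} {b : (𝓞 K)⁰} (hb : sqc b = q.1)
    (hbc : Ideal.span {b.1} ⊔ c = ⊤) : theta hc q = idealTwo hc (prIdeal b) hbc :=
  idealTwo_congr hc ((sqc_copRep q).trans hb.symm) (cop_copRep q) hbc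

/-- The ray class is that of the squarefree part, up to squares. -/
theorem theta_eq_sqf (hc : c ≠ ⊥) (q : copClass c) :
    theta hc q = idealTwo hc (sqf q.1).1 ((mem_copClass hc).mp q.2) := by
  obtain ⟨b, G, hb, hG, he⟩ := exists_rep q.1 hc
  have hq := (mem_copClass hc).mp q.2
  have hbc : Ideal.span {b.1} ⊔ c = ⊤ := by
    rw [he, pow_two]; exact cop_mul hq (cop_mul hG hG)
  have e : prIdeal b = (sqf q.1).1 * (G * G) :=
    Subtype.ext (by rw [Submonoid.coe_mul, Submonoid.coe_mul, ← pow_two]; exact he)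
  exact (theta_eq hc hb hbc).trans
    ((idealTwo_ext hc e hbc (cop_mul' hq (cop_mul' hG hG))).trans (idealTwo_mul_sq hc hq hG))

/-- **A class whose ray class is a square is a virtual unit times a square modulo `c²`.** -/
theorem ker_theta_le (hc : c ≠ ⊥) :
    (theta (K := K) hc).ker ≤ (psi c).ker ⊔ (virtUnits K).subgroupOf (copClass c) := by
  intro q hq
  obtain ⟨b, hb, hbc⟩ := q.2
  rw [MonoidHom.mem_ker, theta_eq hc hb hbc, idealTwo, QuotientGroup.eq_one_iff] at hq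
  obtain ⟨δ, hδ⟩ := hq
  obtain ⟨H, rfl⟩ := rayClass_surjective (pow_ne_zero 2 hc) δ
  rw [powMonoidHom_apply, ← map_pow, eq_comm, rayClass_eq_iff] at hδ
  obtain ⟨x, y, hx, hy, hxy⟩ := hδ
  have hxy' : Ideal.span {x} * Ideal.span {b.1} = Ideal.span {y} * H.1.1 ^ 2 := hxy
  have hcop : ∀ z : 𝓞 K, IsRayElt (c ^ 2) z → Ideal.span {z} ⊔ c = ⊤ := fun z hz => by
    refine cop_sq.mp ?_
    rw [span_sup_congr hz.2.1, Ideal.span_singleton_one, top_sup_eq]
  let b' : (𝓞 K)⁰ := ⟨x, mem_nonZeroDivisors_of_ne_zero hx.1⟩ * b *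
    ⟨y, mem_nonZeroDivisors_of_ne_zero hy.1⟩
  have hb'c : Ideal.span {b'.1} ⊔ c = ⊤ := cop_span_mul (cop_span_mul (hcop x hx) hbc) (hcop y hy)
  let q' : copClass (K := K) c := ⟨sqc b', b', rfl, hb'c⟩
  have hV : q' ∈ (virtUnits K).subgroupOf (copClass c) :=
    ⟨b', ⟨Ideal.span {y} * H.1.1, mem_nonZeroDivisors_of_ne_zero (mul_ne_zero (by simp [hy.1])
      (nonZeroDivisors.coe_ne_zero H.1))⟩, rfl, by
      show Ideal.span {x * b.1 * y} = (Ideal.span {y} * H.1.1) ^ 2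
      rw [← Ideal.span_singleton_mul_span_singleton, ← Ideal.span_singleton_mul_span_singleton,
        hxy']
      ring⟩
  have hker : q * q' ∈ (psi c).ker := by
    rw [MonoidHom.mem_ker, map_mul, psi_eq hb hbc, psi_eq (q := q') rfl hb'c, ← resOf_mul,
      resOf_eq_one]
    refine ⟨b.1, ?_⟩
    show b.1 * (x * b.1 * y) - b.1 ^ 2 ∈ c ^ 2
    rw [show b.1 * (x * b.1 * y) - b.1 ^ 2 = b.1 ^ 2 * ((x - 1) * y + (y - 1)) by ring]
    exact Ideal.mul_mem_left _ _ (Ideal.add_mem _ (Ideal.mul_mem_right _ _ hx.2.1) hy.2.1)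
  rw [show q = q * q' * q' by
    rw [mul_assoc, show q' * q' = 1 from Subtype.ext (sqClass_mul_self _), mul_one]]
  exact mul_mem (Subgroup.mem_sup_left hker) (Subgroup.mem_sup_right hV)

theorem virt_le_ker_theta (hc : c ≠ ⊥) :
    (virtUnits K).subgroupOf (copClass c) ≤ (theta (K := K) hc).ker := by
  intro q hq
  have h := mem_virtUnits.mp (Subgroup.mem_subgroupOf.mp hq)
  have e : (sqf q.1).1 = 1 := Subtype.ext (by rw [h, OneMemClass.coe_one, Ideal.one_eq_top])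
  rw [MonoidHom.mem_ker, theta_eq_sqf]
  simp only [e]
  show QuotientGroup.mk (rayClass _ 1) = 1
  rw [map_one, QuotientGroup.mk_one]

/-- The map to the class group. -/
def classOf (hc : c ≠ ⊥) : RayClassGroup (c ^ 2) →* ClassGroup (𝓞 K) :=
  MonoidHom.mk' (fun γ => ClassGroup.mk0 (rayClass_surjective (pow_ne_zero 2 hc) γ).choose.1)
    fun γ δ => by
      have h := (rayClass_surjective (pow_ne_zero 2 hc) (γ * δ)).choose_spec
      rw [← map_mul]
      conv_rhs at h => rw [← (rayClass_surjective (pow_ne_zero 2 hc) γ).choose_spec,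
        ← (rayClass_surjective (pow_ne_zero 2 hc) δ).choose_spec, ← map_mul]
      obtain ⟨x, y, hx, hy, hxy⟩ := (rayClass_eq_iff _).mp h
      exact ClassGroup.mk0_eq_mk0_iff.mpr ⟨x, y, hx.1, hy.1, hxy⟩

theorem classOf_rayClass (hc : c ≠ ⊥) (I : coprimeIdeals (c ^ 2)) :
    classOf hc (rayClass (pow_ne_zero 2 hc) I) = ClassGroup.mk0 I.1 := by
  obtain ⟨x, y, hx, hy, hxy⟩ := (rayClass_eq_iff _).mp
    (rayClass_surjective (pow_ne_zero 2 hc) (rayClass (pow_ne_zero 2 hc) I)).choose_spec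
  exact ClassGroup.mk0_eq_mk0_iff.mpr ⟨x, y, hx.1, hy.1, hxy⟩

/-- **The index of the image.** -/
theorem index_range_theta (hc : c ≠ ⊥) : (theta (K := K) hc).range.index = twoRank K := by
  set S := (powMonoidHom 2 : ClassGroup (𝓞 K) →* ClassGroup (𝓞 K)).range
  set π : RayTwo c →* ClassGroup (𝓞 K) ⧸ S :=
    QuotientGroup.map _ S (classOf hc) (by
      rintro _ ⟨δ, rfl⟩
      exact ⟨classOf hc δ, by simp⟩)
  have hπ : Function.Surjective π := by
    intro x
    obtain ⟨C, rfl⟩ := QuotientGroup.mk'_surjective _ x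
    obtain ⟨J, hJ, hJc⟩ := exists_coprime_class hc C⁻¹
    refine ⟨idealTwo hc J hJc, ?_⟩
    show QuotientGroup.mk (classOf hc _) = _
    rw [classOf_rayClass, hJ, inv_inv]
    rfl
  have hrange : (theta (K := K) hc).range = π.ker := by
    refine le_antisymm ?_ fun x hx => ?_
    · rintro _ ⟨q, rfl⟩
      obtain ⟨b, hb, hbc⟩ := q.2
      rw [MonoidHom.mem_ker, theta_eq hc hb hbc]
      show QuotientGroup.mk (classOf hc _) = 1
      rw [classOf_rayClass, (ClassGroup.mk0_eq_one_iff (SetLike.coe_mem (prIdeal b))).mpr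
        ⟨b.1, rfl⟩, QuotientGroup.mk_one]
    · obtain ⟨γ, rfl⟩ := QuotientGroup.mk'_surjective _ x
      obtain ⟨I, rfl⟩ := rayClass_surjective (pow_ne_zero 2 hc) γ
      rw [MonoidHom.mem_ker] at hx
      change QuotientGroup.mk (classOf hc _) = 1 at hx
      rw [classOf_rayClass, QuotientGroup.eq_one_iff] at hx
      obtain ⟨C, hC⟩ := hx
      obtain ⟨J, hJ, hJc⟩ := exists_coprime_class hc C
      rw [powMonoidHom_apply] at hC
      have h1 : ClassGroup.mk0 (I.1 * (J * J)) = 1 := by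
        rw [map_mul, map_mul, hJ, ← hC, pow_two]; group
      obtain ⟨b, hb⟩ := (ClassGroup.mk0_eq_one_iff (SetLike.coe_mem (I.1 * (J * J)))).mp h1
      have hb' : ((I.1 * (J * J) : (Ideal (𝓞 K))⁰) : Ideal (𝓞 K)) = Ideal.span {b} := hb
      have hIc : I.1.1 ⊔ c = ⊤ := cop_sq.mp I.2
      have hb0 : b ≠ 0 := fun h0 => nonZeroDivisors.coe_ne_zero (I.1 * (J * J))
        (hb'.trans (by rw [h0]; simp))
      let b₀ : (𝓞 K)⁰ := ⟨b, mem_nonZeroDivisors_of_ne_zero hb0⟩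
      have hbc : Ideal.span {b₀.1} ⊔ c = ⊤ := by
        show Ideal.span {b} ⊔ c = ⊤
        rw [← hb']; exact cop_mul hIc (cop_mul hJc hJc)
      refine ⟨⟨sqc b₀, b₀, rfl, hbc⟩, ?_⟩
      exact (theta_eq hc (b := b₀) rfl hbc).trans
        ((idealTwo_ext hc (show prIdeal b₀ = I.1 * (J * J) from Subtype.ext hb'.symm) hbc
          (cop_mul' hIc (cop_mul' hJc hJc))).trans (idealTwo_mul_sq hc hIc hJc))
  rw [hrange, Subgroup.index_ker, MonoidHom.range_eq_top.mpr hπ, Subgroup.card_top,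
    ← Subgroup.index_eq_card, twoRank, Subgroup.index_range]

/-- The ray classes of the squarefree parts. -/
def selGroup (hc : c ≠ ⊥) : Subgroup (RayClassGroup (c ^ 2)) :=
  ((psi c).ker.map (theta (K := K) hc)).comap (QuotientGroup.mk' _)

theorem sq_mem_selGroup (hc : c ≠ ⊥) (γ : RayClassGroup (c ^ 2)) : γ ^ 2 ∈ selGroup hc := by
  have h : QuotientGroup.mk' (sqRay c) (γ ^ 2) = 1 :=
    (QuotientGroup.eq_one_iff _).mpr ⟨γ, rfl⟩
  exact Subgroup.mem_comap.mpr (h.symm ▸ one_mem _)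

/-- The virtual units that are squares modulo `c²`. -/
def virtMod (c : Ideal (𝓞 K)) : Subgroup (SqClass K) := virtUnits K ⊓ sqClassMod c

/-- **The index computation.** -/
theorem card_virtMod_mul (hc : c ≠ ⊥) (h2 : (2 : 𝓞 K) ∈ c) :
    Nat.card (virtMod c) * Ideal.absNorm c =
      2 ^ (Units.rank K + 1) * (selGroup (K := K) hc).index := by
  set V := (virtUnits K).subgroupOf (copClass c)
  have hV : virtUnits K ≤ copClass c := fun q hq =>
    (mem_copClass hc).mpr (by rw [mem_virtUnits.mp hq, top_sup_eq])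
  have hsup : (psi c).ker ⊔ (theta (K := K) hc).ker = (psi c).ker ⊔ V :=
    le_antisymm (sup_le le_sup_left (ker_theta_le hc)) (sup_le_sup_left (virt_le_ker_theta hc) _)
  have hidx : (selGroup (K := K) hc).index = ((psi c).ker ⊔ V).index * twoRank K := by
    rw [selGroup, Subgroup.index_comap_of_surjective _ (QuotientGroup.mk'_surjective _),
      Subgroup.index_map, hsup, index_range_theta]
  have hidx2 : ((psi c).ker ⊔ V).index = (V.map (psi c)).index := by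
    rw [sup_comm, ← Subgroup.comap_map_eq,
      Subgroup.index_comap_of_surjective _ (psi_surjective hc)]
  have hcardV : Nat.card V = 2 ^ (Units.rank K + 1) * twoRank K := by
    rw [← card_virtUnits]
    exact Nat.card_congr (Subgroup.subgroupOfEquivOfLe hV).toEquiv
  have hres : Nat.card (V.map (psi c)) * (V.map (psi c)).index = Ideal.absNorm c := by
    rw [Subgroup.card_mul_index, card_resClass hc h2]
  have hker : Nat.card V = Nat.card (virtMod c) * Nat.card (V.map (psi c)) := by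
    rw [Subgroup.card_eq_card_quotient_mul_card_subgroup ((psi c).comp V.subtype).ker,
      ← Subgroup.index_eq_card, Subgroup.index_ker,
      show ((psi c).comp V.subtype).range = V.map (psi c) by
        rw [MonoidHom.range_comp, Subgroup.range_subtype], mul_comm]
    congr 1
    refine Nat.card_congr ⟨fun x => ⟨x.1.1.1, x.1.2, mem_ker_psi.mp x.2⟩,
      fun y => ⟨⟨⟨y.1, hV y.2.1⟩, y.2.1⟩, mem_ker_psi.mpr y.2.2⟩, fun x => rfl, fun y => rfl⟩
  rw [hidx, hidx2, ← hres, ← mul_assoc, ← hker, hcardV]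
  ring

/-- **The classes of given squarefree part.** -/
theorem fibre_card (hc : c ≠ ⊥) (J : SqfIdeal K) :
    Nat.card {q : SqClass K // q ∈ sqClassMod c ∧ sqf q = J} =
      if ∃ h : J.1.1 ⊔ c ^ 2 = ⊤, rayClass (pow_ne_zero 2 hc) ⟨J.1, h⟩ ∈ selGroup hc then
        Nat.card (virtMod c) else 0 := by
  split_ifs with h
  · obtain ⟨h, hmem⟩ := h
    obtain ⟨q, hq, hθ⟩ := Subgroup.mem_map.mp (Subgroup.mem_comap.mp hmem)
    obtain ⟨b, hb, hbc⟩ := q.2
    rw [theta_eq hc hb hbc] at hθ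
    change QuotientGroup.mk _ = QuotientGroup.mk _ at hθ
    rw [QuotientGroup.eq] at hθ
    obtain ⟨δ, hδ⟩ := hθ
    obtain ⟨H, rfl⟩ := rayClass_surjective (pow_ne_zero 2 hc) δ
    rw [powMonoidHom_apply, eq_inv_mul_iff_mul_eq, ← map_pow, ← map_mul] at hδ
    obtain ⟨x, y, hx, hy, hxy⟩ := (rayClass_eq_iff _).mp hδ.symm
    have hxy' : Ideal.span {x} * J.1.1 = Ideal.span {y} * (Ideal.span {b.1} * H.1.1 ^ 2) := hxy
    obtain ⟨H', hH', hH'c⟩ := exists_coprime_class hc (ClassGroup.mk0 H.1)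
    obtain ⟨g, hg⟩ := (ClassGroup.mk0_eq_one_iff (SetLike.coe_mem (H.1 * H'))).mp (by
      show ClassGroup.mk0 (H.1 * H') = 1
      rw [map_mul, hH', mul_inv_cancel])
    have hg' : H.1.1 * H'.1 = Ideal.span {g} := hg
    have hg0 : g ≠ 0 := fun h0 => mul_ne_zero (nonZeroDivisors.coe_ne_zero H.1)
      (nonZeroDivisors.coe_ne_zero H') (hg'.trans (by rw [h0]; simp))
    have hgc : Ideal.span {g} ⊔ c = ⊤ := hg' ▸ cop_mul (cop_sq.mp H.2) hH'c
    have hcop : ∀ z : 𝓞 K, IsRayElt (c ^ 2) z → Ideal.span {z} ⊔ c = ⊤ := fun z hz => by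
      refine cop_sq.mp ?_
      rw [span_sup_congr hz.2.1, Ideal.span_singleton_one, top_sup_eq]
    let b' : (𝓞 K)⁰ := ⟨x * y * b.1 * g ^ 2, mem_nonZeroDivisors_of_ne_zero (mul_ne_zero
      (mul_ne_zero (mul_ne_zero hx.1 hy.1) (nonZeroDivisors.coe_ne_zero b)) (pow_ne_zero 2 hg0))⟩
    have hb'c : Ideal.span {b'.1} ⊔ c = ⊤ := cop_span_mul
      (cop_span_mul (cop_span_mul (hcop x hx) (hcop y hy)) hbc)
      (by rw [pow_two]; exact cop_span_mul hgc hgc)
    obtain ⟨z, hz⟩ := square_mod_of_mem (mem_ker_psi.mp hq) hb hbc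
    have hq₁ : sqc b' ∈ sqClassMod c := ⟨b', rfl, hb'c, z * g, by
      show x * y * b.1 * g ^ 2 - (z * g) ^ 2 ∈ c ^ 2
      rw [show x * y * b.1 * g ^ 2 - (z * g) ^ 2 =
        ((x - 1) * y + (y - 1)) * (b.1 * g ^ 2) + g ^ 2 * (b.1 - z ^ 2) by ring]
      exact Ideal.add_mem _ (Ideal.mul_mem_right _ _ (Ideal.add_mem _
        (Ideal.mul_mem_right _ _ hx.2.1) hy.2.1)) (Ideal.mul_mem_left _ _ hz)⟩
    have hJ : (sqf (sqc b')).1.1 = J.1.1 := sqf_eq rfl J.2 (G := Ideal.span {x} * H'.1) (by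
      show Ideal.span {x * y * b.1 * g ^ 2} = _
      rw [← Ideal.span_singleton_mul_span_singleton, ← Ideal.span_singleton_mul_span_singleton,
        ← Ideal.span_singleton_mul_span_singleton, ← Ideal.span_singleton_pow, ← hg', mul_pow,
        mul_pow]
      rw [show J.1.1 * (Ideal.span {x} ^ 2 * H'.1 ^ 2) =
        Ideal.span {x} * J.1.1 * (Ideal.span {x} * H'.1 ^ 2) by ring, hxy']
      ring)
    have hsqf : ∀ q : SqClass K, sqf q = J ↔ q * sqc b' ∈ virtUnits K := by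
      intro q
      constructor
      · intro he
        obtain ⟨b₁, G, hb₁, -, h1⟩ := exists_rep q (top_ne_bot (α := Ideal (𝓞 K)))
        obtain ⟨b₂, G', hb₂, -, h2⟩ := exists_rep (sqc b') (top_ne_bot (α := Ideal (𝓞 K)))
        refine ⟨b₁ * b₂, J.1 * (G * G'), by rw [map_mul, hb₁, hb₂], ?_⟩
        rw [Submonoid.coe_mul, ← Ideal.span_singleton_mul_span_singleton, h1, h2, he, hJ,
          Submonoid.coe_mul, Submonoid.coe_mul, mul_pow, mul_pow]
        ring
      · rintro ⟨b₁, G, hb₁, h1⟩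
        obtain ⟨b₂, G', hb₂, -, h2⟩ := exists_rep (sqc b') (top_ne_bot (α := Ideal (𝓞 K)))
        refine Subtype.ext (Subtype.ext (sqf_eq (b := b₁ * b₂) ?_ J.2 (G := G.1 * G'.1) ?_))
        · rw [map_mul, hb₁, hb₂, mul_assoc, sqClass_mul_self]
          exact mul_one (q : SqClass K)
        · rw [Submonoid.coe_mul, ← Ideal.span_singleton_mul_span_singleton, h1, h2, hJ, mul_pow]
          ring
    refine Nat.card_congr ⟨fun p => ⟨p.1 * sqc b', (hsqf p.1).mp p.2.2, mul_mem p.2.1 hq₁⟩,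
      fun v => ⟨v.1 * sqc b', mul_mem v.2.2 hq₁, (hsqf _).mpr ?_⟩, fun p => Subtype.ext ?_,
      fun v => Subtype.ext ?_⟩
    · rw [mul_assoc, sqClass_mul_self]
      exact (mul_one (v.1 : SqClass K)).symm ▸ v.2.1
    · show p.1 * sqc b' * sqc b' = p.1
      rw [mul_assoc, sqClass_mul_self]
      exact mul_one (p.1 : SqClass K)
    · show v.1 * sqc b' * sqc b' = v.1
      rw [mul_assoc, sqClass_mul_self]
      exact mul_one (v.1 : SqClass K)
  · refine Nat.card_eq_zero.mpr (Or.inl ⟨fun ⟨q, hq, he⟩ => h ?_⟩)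
    subst he
    have hqc := sqClassMod_le hq
    have hcop := (mem_copClass hc).mp hqc
    exact ⟨cop_sq.mpr hcop, Subgroup.mem_comap.mpr (Subgroup.mem_map.mpr
      ⟨⟨q, hqc⟩, mem_ker_psi.mpr hq, theta_eq_sqf hc ⟨q, hqc⟩⟩)⟩

/-- The density of the square classes that are squares modulo `c²`. -/
theorem tendsto_sqClassMod (hc : c ≠ ⊥) (h2 : (2 : 𝓞 K) ∈ c) :
    Tendsto (fun Y : ℝ =>
        ({q : SqClass K | q ∈ sqClassMod c ∧ (Ideal.absNorm (sqf q).1.1 : ℝ) ≤ Y}.ncard : ℝ) / Y)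
      atTop (𝓝 (2 ^ (Units.rank K + 1) / Ideal.absNorm c *
        sqfDensity (pow_ne_zero 2 hc))) := by
  have hlim := (tendsto_sqf_count (pow_ne_zero 2 hc) (selGroup hc) (sq_mem_selGroup hc)).const_mul
    (Nat.card (virtMod c) : ℝ)
  haveI := finite_rayClassGroup (K := K) (pow_ne_zero 2 hc)
  have hidx : ((selGroup (K := K) hc).index : ℝ) ≠ 0 :=
    Nat.cast_ne_zero.mpr Subgroup.index_ne_zero_of_finite
  have hN : (Ideal.absNorm c : ℝ) ≠ 0 :=
    Nat.cast_ne_zero.mpr (by rwa [Ne, Ideal.absNorm_eq_zero_iff])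
  have key : (Nat.card (virtMod c) : ℝ) * Ideal.absNorm c =
      2 ^ (Units.rank K + 1) * (selGroup (K := K) hc).index := by
    exact_mod_cast card_virtMod_mul hc h2
  convert hlim using 2 with Y
  · rw [← mul_div_assoc]
    congr 1
    haveI : Finite (virtUnits K) := finite_virtUnits
    haveI : Finite (virtMod c) :=
      Finite.of_injective (fun x : virtMod c => (⟨x.1, x.2.1⟩ : virtUnits K))
        fun a b h => Subtype.ext (congrArg (fun z : virtUnits K => z.1) h)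
    set s := (sqfSet (pow_ne_zero 2 hc) (selGroup hc) Y)
    haveI : Finite s := (sqfSet_finite _ _ Y).to_subtype
    have hfib : ∀ J : s, Nat.card {q : SqClass K // q ∈ sqClassMod c ∧ sqf q = J.1} =
        Nat.card (virtMod c) := fun J => by rw [fibre_card hc, if_pos J.2.2]
    haveI : ∀ J : s, Finite {q : SqClass K // q ∈ sqClassMod c ∧ sqf q = J.1} := fun J =>
      Nat.finite_of_card_ne_zero (by rw [hfib]; exact Nat.card_pos.ne')
    let e : {q : SqClass K | q ∈ sqClassMod c ∧ (Ideal.absNorm (sqf q).1.1 : ℝ) ≤ Y} ≃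
        Σ J : s, {q : SqClass K // q ∈ sqClassMod c ∧ sqf q = J.1} :=
      { toFun := fun q => ⟨⟨sqf q.1, q.2.2, by
          by_contra hcon
          have : Nonempty {p : SqClass K // p ∈ sqClassMod c ∧ sqf p = sqf q.1} :=
            ⟨⟨q.1, q.2.1, rfl⟩⟩
          have h0 := fibre_card hc (sqf q.1)
          rw [if_neg hcon, Nat.card_eq_zero] at h0
          rcases h0 with h0 | h0
          · exact not_isEmpty_of_nonempty _ h0
          · have hcop := (mem_copClass hc).mp (sqClassMod_le q.2.1)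
            exact hcon ⟨cop_sq.mpr hcop, Subgroup.mem_comap.mpr (Subgroup.mem_map.mpr
              ⟨⟨q.1, sqClassMod_le q.2.1⟩, mem_ker_psi.mpr q.2.1, theta_eq_sqf hc _⟩)⟩⟩,
          q.1, q.2.1, rfl⟩
        invFun := fun p => ⟨p.2.1, p.2.2.1, by rw [p.2.2.2]; exact p.1.2.1⟩
        left_inv := fun q => rfl
        right_inv := fun p => Sigma.subtype_ext (Subtype.ext p.2.2.2) rfl }
    haveI : Fintype s := Fintype.ofFinite _
    rw [← Nat.card_coe_set_eq, Nat.card_congr e, Nat.card_sigma, Finset.sum_congr rfl fun J _ =>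
      hfib J, Finset.sum_const, Finset.card_univ, smul_eq_mul, Nat.cast_mul,
      ← Nat.card_eq_fintype_card, Nat.card_coe_set_eq, mul_comm]
  · field_simp
    linear_combination -(sqfDensity (pow_ne_zero 2 hc)) * key

end FA.DihedralQuartic
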