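import Fermat.Agent.DihedralQuartic.Fields

/-!
# The classes fixed by conjugation

Their squarefree part is fixed by conjugation, so it is given by the product `m` of the rational
primes below it and `m ^ 2 ≤ |d| N J`; there are `O (√Y)` of relative discriminant at most `Y`.
-/

set_option autoImplicit false
set_option linter.style.haveILetI false

noncomputable section

open NumberField IsDedekindDomain Module Finset UniqueFactorizationMonoid
open scoped nonZeroDivisors Classical

namespace FA.DihedralQuartic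

variable {k : Type} [Field k] [NumberField k]

/-- **Conjugation.** -/
theorem exists_conj (hk : finrank ℚ k = 2) : ∃ σ : k ≃+* k, σ.toRingHom ≠ RingHom.id k ∧
    σ.symm = σ ∧ (∀ x, σ x = x → x ∈ Set.range (algebraMap ℚ k)) ∧
    ∀ (L : Type) [Field L] [NumberField L] (ι ψ : k →+* L), ψ = ι ∨ ψ = ι.comp (σ : k →+* k) := by
  haveI : Algebra.IsQuadraticExtension ℚ k := ⟨hk⟩
  haveI : IsGalois ℚ k := ⟨⟩
  have hc : Nat.card (k ≃ₐ[ℚ] k) = 2 := by rw [IsGalois.card_aut_eq_finrank, hk]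
  haveI : Fintype (k ≃ₐ[ℚ] k) := Fintype.ofFinite _
  haveI : Nontrivial (k ≃ₐ[ℚ] k) := Finite.one_lt_card_iff_nontrivial.mp (by omega)
  obtain ⟨g, hg⟩ := exists_ne (1 : k ≃ₐ[ℚ] k)
  have hgg : g * g = 1 := by
    rw [← pow_two, ← hc]; exact pow_card_eq_one'
  have hall : ∀ f : k ≃ₐ[ℚ] k, f = 1 ∨ f = g := by
    intro f
    by_contra h
    push Not at h
    have : ({1, g, f} : Finset (k ≃ₐ[ℚ] k)).card ≤ 2 := by
      rw [← hc, Nat.card_eq_fintype_card]; exact Finset.card_le_univ _
    rw [card_insert_of_notMem (by simp [hg.symm, h.1.symm]),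
      card_insert_of_notMem (by simp [h.2.symm]), card_singleton] at this
    omega
  have hne : g.toRingEquiv.toRingHom ≠ RingHom.id k := fun h =>
    hg (AlgEquiv.ext fun x => RingHom.congr_fun h x)
  refine ⟨g.toRingEquiv, hne, ?_, fun x hx => ?_, fun L _ _ ι ψ => ?_⟩
  · refine RingEquiv.ext fun x => ?_
    have : g (g x) = x := AlgEquiv.congr_fun hgg x
    exact g.symm_apply_eq.mpr this.symm
  · rw [IsGalois.mem_range_algebraMap_iff_fixed]
    intro f
    rcases hall f with rfl | rfl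
    · rfl
    · exact hx
  · by_contra h
    push Not at h
    obtain ⟨e⟩ : Nonempty (L →+* ℂ) := inferInstance
    have hinj : ∀ a b : k →+* L, e.comp a = e.comp b → a = b := fun a b hab =>
      RingHom.ext fun x => e.injective (RingHom.congr_fun hab x)
    have h3 : ι ≠ ι.comp (g.toRingEquiv : k →+* k) := fun h' =>
      hne (RingHom.ext fun x => ι.injective (RingHom.congr_fun h' x).symm)
    set T : Finset (k →+* ℂ) :=
      {e.comp ι, e.comp (ι.comp (g.toRingEquiv : k →+* k)), e.comp ψ}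
    have hT : T.card ≤ 2 := by
      rw [← hk, ← Embeddings.card k ℂ]; exact Finset.card_le_univ _
    rw [card_insert_of_notMem, card_insert_of_notMem, card_singleton] at hT
    · omega
    · simp only [mem_singleton]
      exact fun h' => h.2 (hinj _ _ h').symm
    · simp only [mem_insert, mem_singleton, not_or]
      exact ⟨fun h' => h3 (hinj _ _ h'), fun h' => h.1 (hinj _ _ h').symm⟩

/-- The conjugation of a quadratic field. -/
def conj (hk : finrank ℚ k = 2) : k ≃+* k := (exists_conj hk).choose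

theorem conj_symm (hk : finrank ℚ k = 2) : (conj hk).symm = conj hk :=
  (exists_conj hk).choose_spec.2.1

theorem conj_ne (hk : finrank ℚ k = 2) : (conj hk).toRingHom ≠ RingHom.id k :=
  (exists_conj hk).choose_spec.1

theorem conj_fixed (hk : finrank ℚ k = 2) {x : k} (h : conj hk x = x) :
    x ∈ Set.range (algebraMap ℚ k) := (exists_conj hk).choose_spec.2.2.1 x h

theorem conj_hom (hk : finrank ℚ k = 2) {L : Type} [Field L] [NumberField L] (ι ψ : k →+* L) :
    ψ = ι ∨ ψ = ι.comp (conj hk : k →+* k) := (exists_conj hk).choose_spec.2.2.2 L ι ψ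

theorem conj_conj (hk : finrank ℚ k = 2) (x : k) : conj hk (conj hk x) = x := by
  have h := (conj hk).symm_apply_apply x
  rwa [conj_symm] at h

/-- Conjugation on square classes. -/
def conjClass (hk : finrank ℚ k = 2) : SqClass k →* SqClass k := classMap (conj hk)

theorem conjClass_conjClass (hk : finrank ℚ k = 2) (q : SqClass k) :
    conjClass hk (conjClass hk q) = q := by
  have h := classMap_classMap (conj hk) q
  rwa [conj_symm] at h

theorem conjClass_ne_one (hk : finrank ℚ k = 2) {q : SqClass k} (hq : q ≠ 1) :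
    conjClass hk q ≠ 1 := fun h => hq (by
  rw [← conjClass_conjClass hk q, h, map_one])

theorem relDisc_conjClass (hk : finrank ℚ k = 2) {q : SqClass k} (hq : q ≠ 1) :
    relDisc (conjClass hk q) = relDisc q := by
  have h := relDisc_classMap (conj hk) hq
  rwa [conj_symm] at h

/-- Conjugation of ideals. -/
def conjIdeal (hk : finrank ℚ k = 2) (I : Ideal (𝓞 k)) : Ideal (𝓞 k) :=
  I.map (RingOfIntegers.mapRingEquiv (conj hk))

theorem sqf_conjClass (hk : finrank ℚ k = 2) (q : SqClass k) :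
    (sqf (conjClass hk q)).1.1 = conjIdeal hk (sqf q).1.1 := by
  set τ := RingOfIntegers.mapRingEquiv (conj hk)
  obtain ⟨b, G, hb, -, hG⟩ := exists_rep q (top_ne_bot (α := Ideal (𝓞 k)))
  have hsq : Squarefree ((sqf q).1.1.map τ) := by
    intro I hI
    have h := Ideal.map_mono (f := τ.symm) (Ideal.dvd_iff_le.mp hI)
    rw [Ideal.map_mul, Ideal.map_symm, Ideal.map_symm, Ideal.comap_map_of_bijective _ τ.bijective]
      at h
    have h2 := (sqf q).2 _ (Ideal.dvd_iff_le.mpr h)
    rw [Ideal.isUnit_iff] at h2 ⊢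
    have h3 := congrArg (Ideal.map τ) h2
    rwa [Ideal.map_comap_of_surjective _ τ.surjective, Ideal.map_top] at h3
  refine sqf_eq (G := G.1.map τ)
    (by rw [← hb]; exact (classMap_sqc (conj hk) b).symm) hsq ?_
  show Ideal.span {τ b.1} = _
  rw [conjIdeal, ← Ideal.map_pow, ← Ideal.map_mul, ← hG, Ideal.map_span, Set.image_singleton]

theorem absNorm_conjIdeal_mem (hk : finrank ℚ k = 2) {x : 𝓞 k} :
    ∃ n : ℤ, x * RingOfIntegers.mapRingEquiv (conj hk) x = (n : 𝓞 k) := by
  set z : k := (x : k) * conj hk (x : k)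
  have hz : conj hk z = z := by
    simp only [z, map_mul, conj_conj]; exact mul_comm _ _
  obtain ⟨a, ha⟩ := conj_fixed hk hz
  have hint : IsIntegral ℤ a := by
    refine (isIntegral_algebraMap_iff (algebraMap ℚ k).injective).mp ?_
    rw [ha]
    exact RingOfIntegers.isIntegral_coe (x * RingOfIntegers.mapRingEquiv (conj hk) x)
  obtain ⟨n, rfl⟩ := IsIntegrallyClosed.isIntegral_iff.mp hint
  refine ⟨n, RingOfIntegers.coe_injective ?_⟩
  show (x : k) * conj hk (x : k) = algebraMap (𝓞 k) k (n : 𝓞 k)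
  rw [map_intCast]
  show z = _
  rw [← show algebraMap ℚ k (algebraMap ℤ ℚ n) = z from ha]
  simp

/-- Two primes over one rational prime are equal or conjugate. -/
theorem eq_or_conj (hk : finrank ℚ k = 2) {P Q : Ideal (𝓞 k)} (hP : P.IsPrime) (hQ : Q.IsPrime)
    (hQ0 : Q ≠ ⊥) {p : ℕ} (hp : p.Prime) (hpP : (p : 𝓞 k) ∈ P) (hpQ : (p : 𝓞 k) ∈ Q) :
    Q = P ∨ Q = P.comap (RingOfIntegers.mapRingEquiv (conj hk) : 𝓞 k →+* 𝓞 k) := by
  set τ := (RingOfIntegers.mapRingEquiv (conj hk) : 𝓞 k →+* 𝓞 k)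
  have hsub : (Q : Set (𝓞 k)) ⊆ (P : Set (𝓞 k)) ∪ (P.comap τ : Ideal (𝓞 k)) := by
    intro x hx
    obtain ⟨n, hn⟩ := absNorm_conjIdeal_mem hk (x := x)
    have hnQ : (n : 𝓞 k) ∈ Q := hn ▸ Q.mul_mem_right _ hx
    have hdvd : (p : ℤ) ∣ n := by
      by_contra hnd
      obtain ⟨a, b, hab⟩ := (Nat.prime_iff_prime_int.mp hp).coprime_iff_not_dvd.mpr hnd
      apply hQ.ne_top
      rw [Ideal.eq_top_iff_one, show (1 : 𝓞 k) = ((a : 𝓞 k)) * (p : 𝓞 k) + (b : 𝓞 k) * (n : 𝓞 k) by
        exact_mod_cast congrArg (fun t : ℤ => (t : 𝓞 k)) hab.symm]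
      exact Q.add_mem (Q.mul_mem_left _ hpQ) (Q.mul_mem_left _ hnQ)
    obtain ⟨m, rfl⟩ := hdvd
    have hxP : x * τ x ∈ P := by
      show x * RingOfIntegers.mapRingEquiv (conj hk) x ∈ P
      rw [hn]; push_cast; exact P.mul_mem_right _ hpP
    exact (hP.mem_or_mem hxP).elim Or.inl Or.inr
  haveI := hQ.isMaximal hQ0
  rcases Ideal.subset_union.mp hsub with h | h
  · exact Or.inl (Ideal.IsMaximal.eq_of_le ‹_› hP.ne_top h)
  · exact Or.inr (Ideal.IsMaximal.eq_of_le ‹_› (hP.comap τ).ne_top h)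

theorem absNorm_natCast (hk : finrank ℚ k = 2) (p : ℕ) :
    Ideal.absNorm (Ideal.span {(p : 𝓞 k)}) = p ^ 2 := by
  rw [Ideal.absNorm_span_singleton,
    show (p : 𝓞 k) = algebraMap ℤ (𝓞 k) p from (map_natCast _ p).symm,
    Algebra.norm_algebraMap, RingOfIntegers.rank, hk, Int.natAbs_pow, Int.natAbs_natCast]

theorem exists_prime_below {P : Ideal (𝓞 k)} (hP : P.IsPrime) (hP0 : P ≠ ⊥) :
    ∃ q : ℕ, q.Prime ∧ (q : 𝓞 k) ∈ P := by
  by_contra hcon
  push Not at hcon
  have key : ∀ n : ℕ, n ≠ 0 → (n : 𝓞 k) ∉ P := by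
    intro n
    induction n using Nat.recOnMul with
    | zero => simp
    | one => simpa using hP.ne_top ∘ fun h => (Ideal.eq_top_iff_one P).mpr h
    | prime q hq => exact fun _ => hcon q hq
    | mul a b ha hb =>
      intro hne h
      push_cast at h
      exact (hP.mem_or_mem h).elim (ha (left_ne_zero_of_mul hne)) (hb (right_ne_zero_of_mul hne))
  exact key _ (by rw [Ne, Ideal.absNorm_eq_zero_iff]; exact hP0) (Ideal.absNorm_mem P)

variable (hk : finrank ℚ k = 2) {J : Ideal (𝓞 k)}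

include hk in
/-- **An invariant squarefree ideal and a prime dividing its norm.** -/
theorem dvd_iff_prime_dvd (hJ0 : J ≠ ⊥) (hinv : conjIdeal hk J = J) {P : Ideal (𝓞 k)}
    (hP : P.IsPrime) (hP0 : P ≠ ⊥) {p : ℕ} (hp : p.Prime) (hpP : (p : 𝓞 k) ∈ P) :
    P ∣ J ↔ p ∣ Ideal.absNorm J := by
  constructor
  · intro h
    refine Dvd.dvd.trans ?_ (map_dvd Ideal.absNorm h)
    have h2 : Ideal.absNorm P ∣ p ^ 2 := absNorm_natCast hk p ▸
      Ideal.absNorm_dvd_absNorm_of_le ((Ideal.span_singleton_le_iff_mem _).mpr hpP)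
    obtain ⟨i, -, hi⟩ := (Nat.dvd_prime_pow hp).mp h2
    rcases Nat.eq_zero_or_pos i with rfl | hi0
    · exact absurd (Ideal.absNorm_eq_one_iff.mp (hi.trans (pow_zero p))) hP.ne_top
    · exact hi ▸ dvd_pow_self p hi0.ne'
  · intro h
    rw [← Ideal.prod_normalizedFactors_eq_self hJ0, map_multiset_prod] at h
    obtain ⟨a, ha, hpa⟩ := (Nat.prime_iff.mp hp).exists_mem_multiset_dvd h
    obtain ⟨P₀, hP₀, rfl⟩ := Multiset.mem_map.mp ha
    have hpr := prime_of_normalized_factor P₀ hP₀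
    have hP₀p : P₀.IsPrime := Ideal.isPrime_of_prime hpr
    obtain ⟨q, hq, hqP⟩ := exists_prime_below hP₀p hpr.ne_zero
    have hq2 : Ideal.absNorm P₀ ∣ q ^ 2 := absNorm_natCast hk q ▸
      Ideal.absNorm_dvd_absNorm_of_le ((Ideal.span_singleton_le_iff_mem _).mpr hqP)
    have hpq : p = q := (Nat.prime_dvd_prime_iff_eq hp hq).mp (hp.dvd_of_dvd_pow (hpa.trans hq2))
    subst hpq
    have hJP₀ : J ≤ P₀ := Ideal.dvd_iff_le.mp (dvd_of_mem_normalizedFactors hP₀)
    rcases eq_or_conj hk hP₀p hP hP0 hp hqP hpP with e | e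
    · exact e ▸ Ideal.dvd_iff_le.mpr hJP₀
    · rw [e, Ideal.dvd_iff_le, ← Ideal.map_le_iff_le_comap]
      exact (show conjIdeal hk J ≤ P₀ by rw [hinv]; exact hJP₀)

include hk in
/-- **A prime unramified below an invariant squarefree ideal divides the norm twice.** -/
theorem sq_dvd_absNorm (hJ0 : J ≠ ⊥) (hinv : conjIdeal hk J = J) {p : ℕ} (hp : p.Prime)
    (hpJ : p ∣ Ideal.absNorm J) : p ^ 2 ∣ Ideal.absNorm J * (discr k).natAbs := by
  by_cases hpd : p ∣ (discr k).natAbs
  · rw [pow_two]; exact mul_dvd_mul hpJ hpd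
  refine Dvd.dvd.mul_right (absNorm_natCast hk p ▸ map_dvd Ideal.absNorm ?_) _
  have hp0 : Ideal.span {(p : 𝓞 k)} ≠ ⊥ := by simp [hp.ne_zero]
  rw [dvd_iff_normalizedFactors_le_normalizedFactors hp0 hJ0, Multiset.le_iff_count]
  intro P
  by_cases hm : P ∈ normalizedFactors (Ideal.span {(p : 𝓞 k)})
  · have hpr := prime_of_normalized_factor P hm
    have hPp : P.IsPrime := Ideal.isPrime_of_prime hpr
    have hpP : (p : 𝓞 k) ∈ P := Ideal.dvd_span_singleton.mp (dvd_of_mem_normalizedFactors hm)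
    have h1 : Multiset.count P (normalizedFactors (Ideal.span {(p : 𝓞 k)})) ≤ 1 := by
      by_contra hlt
      have h2 : P ^ 2 ∣ Ideal.span {(p : 𝓞 k)} := by
        rw [← Ideal.prod_normalizedFactors_eq_self hp0, ← Multiset.prod_replicate]
        exact Multiset.prod_dvd_prod_of_le (Multiset.le_count_iff_replicate_le.mp (by omega))
      haveI : (Ideal.span {(p : ℤ)}).IsMaximal :=
        ((Ideal.span_singleton_prime (by exact_mod_cast hp.ne_zero)).mpr
          (Nat.prime_iff_prime_int.mp hp)).isMaximal (by simp [hp.ne_zero])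
      have h3 := pow_sub_one_dvd_differentIdeal ℤ P 2 (p := Ideal.span {(p : ℤ)})
        (by simp [hp.ne_zero])
        (by rw [Ideal.map_span, Set.image_singleton, map_natCast]; exact h2)
      rw [show (2 : ℕ) - 1 = 1 from rfl, pow_one] at h3
      have h4 := map_dvd Ideal.absNorm h3
      rw [NumberField.absNorm_differentIdeal k] at h4
      refine hpd (dvd_trans ?_ h4)
      have h5 : Ideal.absNorm P ∣ p ^ 2 := absNorm_natCast hk p ▸
        Ideal.absNorm_dvd_absNorm_of_le ((Ideal.span_singleton_le_iff_mem _).mpr hpP)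
      obtain ⟨i, -, hi⟩ := (Nat.dvd_prime_pow hp).mp h5
      rcases Nat.eq_zero_or_pos i with rfl | hi0
      · exact absurd (Ideal.absNorm_eq_one_iff.mp (hi.trans (pow_zero p))) hPp.ne_top
      · exact hi ▸ dvd_pow_self p hi0.ne'
    obtain ⟨P', hP', hPP'⟩ := exists_mem_normalizedFactors_of_dvd hJ0 hpr.irreducible
      ((dvd_iff_prime_dvd hk hJ0 hinv hPp hpr.ne_zero hp hpP).mpr hpJ)
    exact h1.trans (Multiset.one_le_count_iff_mem.mpr (by rwa [associated_iff_eq.mp hPP']))
  · rw [Multiset.count_eq_zero.mpr hm]; exact Nat.zero_le _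

/-- The product of the primes dividing the norm. -/
def supportNat (J : Ideal (𝓞 k)) : ℕ := ∏ p ∈ (Ideal.absNorm J).primeFactors, p

include hk in
theorem supportNat_sq_le (hJ0 : J ≠ ⊥) (hinv : conjIdeal hk J = J) :
    supportNat J ^ 2 ≤ Ideal.absNorm J * (discr k).natAbs := by
  refine Nat.le_of_dvd (Nat.mul_pos (Nat.pos_of_ne_zero (by
    rwa [Ne, Ideal.absNorm_eq_zero_iff])) (Int.natAbs_pos.mpr (discr_ne_zero k))) ?_
  rw [supportNat, ← Finset.prod_pow]
  refine Finset.prod_dvd_of_isRelPrime (fun p hp q hq hpq => ?_) fun p hp =>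
    sq_dvd_absNorm hk hJ0 hinv (Nat.prime_of_mem_primeFactors hp)
      (Nat.dvd_of_mem_primeFactors hp)
  exact Nat.coprime_iff_isRelPrime.mp (Nat.Coprime.pow _ _ ((Nat.coprime_primes
    (Nat.prime_of_mem_primeFactors hp) (Nat.prime_of_mem_primeFactors hq)).mpr hpq))

include hk in
theorem supportNat_injective {J' : Ideal (𝓞 k)} (hJ : Squarefree J) (hJ' : Squarefree J')
    (hJ0 : J ≠ ⊥) (hJ'0 : J' ≠ ⊥) (hinv : conjIdeal hk J = J) (hinv' : conjIdeal hk J' = J')
    (h : supportNat J = supportNat J') : J = J' := by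
  have hS : (Ideal.absNorm J).primeFactors = (Ideal.absNorm J').primeFactors := by
    rw [← Nat.primeFactors_prod (fun p hp => Nat.prime_of_mem_primeFactors hp) (s := _),
      show ∏ p ∈ (Ideal.absNorm J).primeFactors, p = supportNat J' from h, supportNat,
      Nat.primeFactors_prod (fun p hp => Nat.prime_of_mem_primeFactors hp) (s := _)]
  have key : ∀ P, P ∈ normalizedFactors J ↔ P ∈ normalizedFactors J' := by
    intro P
    suffices ∀ A B : Ideal (𝓞 k), A ≠ ⊥ → B ≠ ⊥ → conjIdeal hk A = A → conjIdeal hk B = B →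
        (Ideal.absNorm A).primeFactors = (Ideal.absNorm B).primeFactors →
          P ∈ normalizedFactors A → P ∈ normalizedFactors B from
      ⟨this J J' hJ0 hJ'0 hinv hinv' hS, this J' J hJ'0 hJ0 hinv' hinv hS.symm⟩
    intro A B hA hB hiA hiB hAB hP
    have hpr := prime_of_normalized_factor P hP
    have hPp : P.IsPrime := Ideal.isPrime_of_prime hpr
    obtain ⟨p, hp, hpP⟩ := exists_prime_below hPp hpr.ne_zero
    have h1 := (dvd_iff_prime_dvd hk hA hiA hPp hpr.ne_zero hp hpP).mp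
      (dvd_of_mem_normalizedFactors hP)
    have h2 : p ∈ (Ideal.absNorm B).primeFactors :=
      hAB ▸ Nat.mem_primeFactors.mpr ⟨hp, h1, by rwa [Ne, Ideal.absNorm_eq_zero_iff]⟩
    obtain ⟨P', hP', hPP'⟩ := exists_mem_normalizedFactors_of_dvd hB hpr.irreducible
      ((dvd_iff_prime_dvd hk hB hiB hPp hpr.ne_zero hp hpP).mpr (Nat.dvd_of_mem_primeFactors h2))
    rwa [associated_iff_eq.mp hPP']
  rw [← Ideal.prod_normalizedFactors_eq_self hJ0, ← Ideal.prod_normalizedFactors_eq_self hJ'0,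
    (Multiset.Nodup.ext ((squarefree_iff_nodup_normalizedFactors hJ0).mp hJ)
      ((squarefree_iff_nodup_normalizedFactors hJ'0).mp hJ')).mpr key]

/-- The fixed classes of relative discriminant at most `Y`. -/
def fixedSet (hk : finrank ℚ k = 2) (Y : ℝ) : Set (SqClass k) :=
  {q | conjClass hk q = q ∧ relDisc q ≤ Y}

/-- **Few classes are fixed.** -/
theorem ncard_fixedSet_le {Y : ℝ} (_hY : 0 ≤ Y) : ((fixedSet hk Y).ncard : ℝ) ≤
    (Nat.card (virtUnits k) : ℝ) * (Real.sqrt (((discr k).natAbs : ℝ) * Y) + 1) := by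
  set R := Real.sqrt (((discr k).natAbs : ℝ) * Y)
  haveI : Finite (virtUnits k) := finite_virtUnits
  set S := ((finite_relDisc_le Y).subset fun q (hq : q ∈ fixedSet hk Y) => hq.2).toFinset
  rw [Set.ncard_eq_toFinset_card _ ((finite_relDisc_le Y).subset fun q (hq : q ∈ fixedSet hk Y) =>
    hq.2)]
  show (S.card : ℝ) ≤ _
  have hinv : ∀ q ∈ S, conjIdeal hk (sqf q).1.1 = (sqf q).1.1 := fun q hq => by
    rw [← sqf_conjClass, ((Set.Finite.mem_toFinset _).mp hq).1]
  have hmaps : Set.MapsTo (fun q => supportNat (sqf q).1.1) (S : Set (SqClass k))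
      (Finset.range (⌊R⌋₊ + 1) : Set ℕ) := by
    intro q hq
    rw [Finset.mem_coe] at hq
    refine Finset.mem_range.mpr (Nat.lt_succ_of_le (Nat.le_floor (Real.le_sqrt_of_sq_le ?_)))
    have h := supportNat_sq_le hk (nonZeroDivisors.coe_ne_zero _) (hinv q hq)
    calc ((supportNat (sqf q).1.1 : ℕ) : ℝ) ^ 2
        ≤ ((Ideal.absNorm (sqf q).1.1 * (discr k).natAbs : ℕ) : ℝ) := by exact_mod_cast h
      _ ≤ ((discr k).natAbs : ℝ) * Y := by
          push_cast
          rw [mul_comm]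
          exact mul_le_mul_of_nonneg_left ((absNorm_sqf_le q).trans
            ((Set.Finite.mem_toFinset _).mp hq).2) (Nat.cast_nonneg _)
  have hfib : ∀ m ∈ Finset.range (⌊R⌋₊ + 1),
      (S.filter fun q => supportNat (sqf q).1.1 = m).card ≤ Nat.card (virtUnits k) := by
    intro m _
    set T := S.filter fun q => supportNat (sqf q).1.1 = m
    rcases T.eq_empty_or_nonempty with he | ⟨q₀, hq₀⟩
    · simp [he]
    · rw [← Nat.card_eq_finsetCard]
      refine Nat.card_le_card_of_injective (fun q : T => (⟨q.1 * q₀, mul_mem_virtUnits ?_⟩ :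
        virtUnits k)) fun a b hab => Subtype.ext ?_
      swap
      · have h' : a.1 * q₀ * q₀ = b.1 * q₀ * q₀ :=
          congrArg (fun z : virtUnits k => z.1 * q₀) hab
        rw [mul_assoc, mul_assoc, sqClass_mul_self] at h'
        exact (mul_one (a.1 : SqClass k)).symm.trans (h'.trans (mul_one (b.1 : SqClass k)))
      obtain ⟨h1, h2⟩ := Finset.mem_filter.mp q.2
      obtain ⟨h3, h4⟩ := Finset.mem_filter.mp hq₀
      exact Subtype.ext (Subtype.ext (supportNat_injective hk (sqf q.1).2 (sqf q₀).2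
        (nonZeroDivisors.coe_ne_zero _) (nonZeroDivisors.coe_ne_zero _) (hinv _ h1) (hinv _ h3)
        (h2.trans h4.symm)))
  have h := Finset.card_le_mul_card_image_of_maps_to hmaps _ hfib
  rw [Finset.card_range] at h
  calc (S.card : ℝ) ≤ ((Nat.card (virtUnits k) * (⌊R⌋₊ + 1) : ℕ) : ℝ) := by exact_mod_cast h
    _ ≤ _ := by
        push_cast
        exact mul_le_mul_of_nonneg_left (add_le_add (Nat.floor_le (Real.sqrt_nonneg _)) le_rfl)
          (Nat.cast_nonneg _)

end FA.DihedralQuartic
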