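import Fermat.Agent.DihedralQuartic.Local

/-!
# The relative discriminant of `K(√b)`

At each prime an element of the form `t (√b - z) / w` generates the integers locally, so the norm of
the different of `K(√b)` is `N J · 4 ^ n / N c ^ 2`.
-/

set_option autoImplicit false
set_option linter.style.haveILetI false

noncomputable section

open NumberField IsDedekindDomain Module Polynomial FA.Hecke
open FA.BrumerSilverman (expo expo_mul expo_ne_zero_iff span_singleton_ne)
open scoped nonZeroDivisors Classical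

namespace FA.DihedralQuartic

variable {K L : Type} [Field K] [NumberField K] [Field L] [NumberField L] [Algebra K L]

/-- Multiplicity at a prime of `L`. -/
def mult (P I : Ideal (𝓞 L)) : ℕ := Multiset.count P (UniqueFactorizationMonoid.normalizedFactors I)

theorem mult_mul {P I J : Ideal (𝓞 L)} (hI : I ≠ ⊥) (hJ : J ≠ ⊥) :
    mult P (I * J) = mult P I + mult P J := by
  rw [mult, UniqueFactorizationMonoid.normalizedFactors_mul hI hJ, Multiset.count_add]; rfl

theorem mult_pow {P I : Ideal (𝓞 L)} (n : ℕ) : mult P (I ^ n) = n * mult P I := by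
  rw [mult, UniqueFactorizationMonoid.normalizedFactors_pow, Multiset.count_nsmul]; rfl

theorem mult_eq_zero {P I : Ideal (𝓞 L)} (h : ¬ I ≤ P) : mult P I = 0 :=
  Multiset.count_eq_zero.mpr fun hm =>
    h (Ideal.dvd_iff_le.mp (UniqueFactorizationMonoid.dvd_of_mem_normalizedFactors hm))

variable (L) in
/-- The extension of an ideal. -/
def extI (I : Ideal (𝓞 K)) : Ideal (𝓞 L) := I.map (algebraMap (𝓞 K) (𝓞 L))

omit [NumberField K] [NumberField L] in
theorem extI_ne_bot {I : Ideal (𝓞 K)} (h : I ≠ ⊥) : extI L I ≠ ⊥ := fun e =>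
  h ((Ideal.map_eq_bot_iff_of_injective (FaithfulSMul.algebraMap_injective _ _)).mp e)

omit [NumberField K] [NumberField L] in
theorem extI_mul (I J : Ideal (𝓞 K)) : extI L (I * J) = extI L I * extI L J := Ideal.map_mul _ _ _

omit [NumberField K] [NumberField L] in
theorem extI_pow (I : Ideal (𝓞 K)) (n : ℕ) : extI L (I ^ n) = extI L I ^ n := Ideal.map_pow _ _ _

omit [NumberField K] [NumberField L] in
theorem extI_span (a : 𝓞 K) :
    extI L (Ideal.span {a}) = Ideal.span {algebraMap (𝓞 K) (𝓞 L) a} := by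
  rw [extI, Ideal.map_span, Set.image_singleton]

/-- The data of a quadratic extension by a square root. -/
structure RootData (K L : Type) [Field K] [Field L] [Algebra K L] (b : K) (y : L) : Prop where
  two : finrank K L = 2
  notMem : y ∉ Set.range (algebraMap K L)
  sq : y ^ 2 = algebraMap K L b

omit [NumberField K] [NumberField L] in
theorem RootData.change {b b' r : 𝓞 K} {y : L} (h : RootData K L (b : K) y) (hb : b ≠ 0)
    (hb' : b' ≠ 0) (hr : b * b' = r ^ 2) :
    ∃ y' : L, RootData K L (b' : K) y' := by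
  have hy0 : y ≠ 0 := fun h0 => h.notMem ⟨0, by rw [h0, map_zero]⟩
  have hr0 : (r : K) ≠ 0 := RingOfIntegers.coe_ne_zero_iff.mpr fun h0 =>
    mul_ne_zero hb hb' (by rw [hr, h0, zero_pow two_ne_zero])
  refine ⟨algebraMap K L (r : K) / y, h.two, ?_, ?_⟩
  · rintro ⟨q, hq⟩
    refine h.notMem ⟨(r : K) / q, ?_⟩
    rw [map_div₀, hq, div_div_eq_mul_div, mul_div_assoc, mul_comm]
    rw [div_mul_cancel₀ _ ((_root_.map_ne_zero _).mpr hr0)]
  · rw [div_pow, h.sq, ← map_pow, ← map_div₀, ← map_pow (algebraMap (𝓞 K) K), ← hr, map_mul,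
      mul_div_cancel_left₀ _ (RingOfIntegers.coe_ne_zero_iff.mpr hb)]

/-- The coordinates of an integral element. -/
theorem RootData.coords {b : 𝓞 K} {y : L} (h : RootData K L (b : K) y) (Y : 𝓞 L) :
    ∃ u x : K, (Y : L) = algebraMap K L u + algebraMap K L x * y ∧ IsIntegral ℤ (2 * u) ∧
      IsIntegral ℤ (u ^ 2 - (b : K) * x ^ 2) := by
  have hli : LinearIndependent K ![(1 : L), y] := by
    rw [LinearIndependent.pair_iff' one_ne_zero]
    intro a ha
    exact h.notMem ⟨a, by rwa [Algebra.smul_def, mul_one] at ha⟩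
  let B := basisOfLinearIndependentOfCardEqFinrank hli (by simp [h.two])
  have hY : (Y : L) =
      algebraMap K L (B.repr (Y : L) 0) + algebraMap K L (B.repr (Y : L) 1) * y := by
    conv_lhs => rw [← B.sum_repr (Y : L), Fin.sum_univ_two]
    simp [B, Algebra.smul_def]
  set u := B.repr (Y : L) 0
  set x := B.repr (Y : L) 1
  refine ⟨u, x, hY, ?_⟩
  have hYint : IsIntegral ℤ (Y : L) := RingOfIntegers.isIntegral_coe Y
  by_cases hx : x = 0
  · rw [hx, map_zero, zero_mul, add_zero] at hY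
    have hu : IsIntegral ℤ u :=
      (isIntegral_algebraMap_iff (algebraMap K L).injective).mp (hY ▸ hYint)
    refine ⟨(map_ofNat (algebraMap ℤ K) 2 ▸ isIntegral_algebraMap (x := (2 : ℤ))).mul hu, ?_⟩
    rw [hx, zero_pow two_ne_zero, mul_zero, sub_zero]
    exact hu.pow 2
  · have hintK : IsIntegral K (Y : L) := IsIntegral.of_finite K _
    have hmin : minpoly K (Y : L) =
        X ^ 2 - C (2 * u) * X + C (u ^ 2 - (b : K) * x ^ 2) := by
      refine (eq_of_monic_of_dvd_of_natDegree_le (minpoly.monic hintK) (by monicity!)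
        (minpoly.dvd K _ ?_) ?_).symm
      · simp only [map_add, map_sub, map_mul, map_pow, aeval_X, aeval_C, map_ofNat]
        rw [hY]
        linear_combination (algebraMap K L x) ^ 2 * h.sq
      · refine le_trans (le_of_eq ?_) ((minpoly.two_le_natDegree_iff hintK).mpr ?_)
        · compute_degree!
        · rintro ⟨a, ha⟩
          refine h.notMem ⟨(a - u) / x, ?_⟩
          rw [map_div₀, map_sub, div_eq_iff ((_root_.map_ne_zero _).mpr hx), ha, hY]
          ring
    have hcoe := minpoly.isIntegrallyClosed_eq_field_fractions K L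
      (Algebra.IsIntegral.isIntegral (R := 𝓞 K) Y)
    rw [show algebraMap (𝓞 L) L Y = (Y : L) from rfl, hmin] at hcoe
    have hc : ∀ n, IsIntegral ℤ ((X ^ 2 - C (2 * u) * X + C (u ^ 2 - (b : K) * x ^ 2)).coeff n) :=
      fun n => by rw [hcoe, Polynomial.coeff_map]; exact RingOfIntegers.isIntegral_coe _
    have h1 := hc 1
    have h0 := hc 0
    simp only [coeff_add, coeff_sub, coeff_X_pow, coeff_C_mul, coeff_X, coeff_C] at h1 h0
    norm_num at h1 h0
    exact ⟨by simpa using h1, h0⟩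

/-- A local generator: `w (2 Θ + c₁) = 2 t y`, and `s` clears the conductor. -/
theorem exists_generator {b : 𝓞 K} (hb : b ≠ 0) {y : L} (h : RootData K L (b : K) y)
    (v : HeightOneSpectrum (𝓞 K)) {j : ℕ} {z : 𝓞 K} (hj : j ≤ twoExp v)
    (hz : b - z ^ 2 ∈ v.asIdeal ^ (2 * j))
    (hlocal : ∀ U X : 𝓞 K, U ^ 2 - b * X ^ 2 ∈ v.asIdeal ^ (2 * expo v (2 * b)) →
      U + X * z ∈ v.asIdeal ^ expo v (2 * b) ∧
        ∀ w ∈ v.asIdeal ^ j, X * w ∈ v.asIdeal ^ expo v (2 * b)) :
    ∃ (f : 𝓞 L) (w t : 𝓞 K) (R : Ideal (𝓞 L)),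
      w ≠ 0 ∧ expo v w = j ∧ t ∉ v.asIdeal ∧
      f ^ 2 * algebraMap (𝓞 K) (𝓞 L) (w ^ 2) = algebraMap (𝓞 K) (𝓞 L) (4 * t ^ 2 * b) ∧
      R * differentIdeal (𝓞 K) (𝓞 L) = Ideal.span {f} ∧
      ∀ P : Ideal (𝓞 L), P.IsPrime → P.comap (algebraMap (𝓞 K) (𝓞 L)) = v.asIdeal →
        ¬ R ≤ P := by
  obtain ⟨w, hw0, hw⟩ := exists_expo v j
  obtain ⟨t₁, ht₁, hdvd₁⟩ := exists_cofactor v hw0
  obtain ⟨t₂, ht₂, hdvd₂⟩ := exists_cofactor v (pow_ne_zero 2 hw0)
  rw [hw] at hdvd₁
  have hw2 : expo v (w ^ 2) = 2 * j := by rw [pow_two, expo_mul v hw0 hw0, hw]; omega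
  rw [hw2] at hdvd₂
  set t := t₁ * t₂
  have ht : t ∉ v.asIdeal := notMem_mul v ht₁ ht₂
  have ht0 : t ≠ 0 := fun h0 => ht (by rw [h0]; exact zero_mem _)
  obtain ⟨c₁, hc₁⟩ : w ∣ t * (2 * z) := by
    obtain ⟨m, hm⟩ := hdvd₁ (2 * z) (Ideal.mul_mem_right _ _ (two_mem_pow hj))
    exact ⟨t₂ * m, by simp only [t]; linear_combination t₂ * hm⟩
  obtain ⟨c₀, hc₀⟩ : w ^ 2 ∣ t ^ 2 * (z ^ 2 - b) := by
    obtain ⟨m, hm⟩ := hdvd₂ (z ^ 2 - b) (by
      rw [show z ^ 2 - b = -(b - z ^ 2) by ring]; exact Submodule.neg_mem _ hz)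
    exact ⟨t₁ ^ 2 * t₂ * m, by simp only [t]; linear_combination t₁ ^ 2 * t₂ * hm⟩
  have hwL : algebraMap K L (w : K) ≠ 0 := by
    simpa using (RingOfIntegers.coe_ne_zero_iff (x := w)).mpr hw0
  set θ : L := algebraMap K L (t : K) * (y - algebraMap K L (z : K)) / algebraMap K L (w : K)
  have hc₁' : (w : K) * (c₁ : K) = (t : K) * (2 * (z : K)) := by
    simpa [map_mul, map_ofNat] using congrArg (algebraMap (𝓞 K) K) hc₁.symm
  have hc₀' : (w : K) ^ 2 * (c₀ : K) = (t : K) ^ 2 * ((z : K) ^ 2 - (b : K)) := by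
    simpa [map_mul, map_pow, map_sub] using congrArg (algebraMap (𝓞 K) K) hc₀.symm
  have hθw : θ * algebraMap K L (w : K) =
      algebraMap K L (t : K) * (y - algebraMap K L (z : K)) := div_mul_cancel₀ _ hwL
  have hroot : θ ^ 2 + algebraMap K L (c₁ : K) * θ + algebraMap K L (c₀ : K) = 0 := by
    refine mul_right_cancel₀ (pow_ne_zero 2 hwL) ?_
    have e₁ := congrArg (algebraMap K L) hc₁'
    have e₀ := congrArg (algebraMap K L) hc₀'
    simp only [map_mul, map_pow, map_sub, map_ofNat] at e₁ e₀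
    rw [zero_mul]
    linear_combination (θ * algebraMap K L (w : K) + algebraMap K L (t : K) *
      (y - algebraMap K L (z : K)) + algebraMap K L (c₁ : K) * algebraMap K L (w : K)) * hθw +
      algebraMap K L (t : K) * (y - algebraMap K L (z : K)) * e₁ + e₀ +
      algebraMap K L (t : K) ^ 2 * h.sq
  have hθK : θ ∉ Set.range (algebraMap K L) := by
    rintro ⟨a, ha⟩
    have htK : (t : K) ≠ 0 := RingOfIntegers.coe_ne_zero_iff.mpr ht0
    refine h.notMem ⟨a * (w : K) / (t : K) + (z : K), ?_⟩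
    rw [map_add, map_div₀, map_mul, ha, hθw,
      mul_div_cancel_left₀ _ ((_root_.map_ne_zero _).mpr htK), sub_add_cancel]
  set p : (𝓞 K)[X] := X ^ 2 + C c₁ * X + C c₀ with hp
  have hpm : p.Monic := by rw [hp]; monicity!
  have hθint : IsIntegral ℤ θ := by
    refine isIntegral_trans (A := 𝓞 K) θ ⟨p, hpm, ?_⟩
    simp only [hp, eval₂_add, eval₂_mul, eval₂_X_pow, eval₂_C, eval₂_X]
    rw [IsScalarTower.algebraMap_apply (𝓞 K) K L, IsScalarTower.algebraMap_apply (𝓞 K) K L]
    exact hroot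
  set Θ : 𝓞 L := ⟨θ, hθint⟩
  have hmin : minpoly (𝓞 K) Θ = p := by
    have hintK : IsIntegral K θ := IsIntegral.of_finite K _
    have hdeg : 2 ≤ (minpoly K θ).natDegree := (minpoly.two_le_natDegree_iff hintK).mpr hθK
    refine Polynomial.map_injective (algebraMap (𝓞 K) K) RingOfIntegers.coe_injective ?_
    rw [← minpoly.isIntegrallyClosed_eq_field_fractions K L
      (Algebra.IsIntegral.isIntegral (R := 𝓞 K) Θ), show algebraMap (𝓞 L) L Θ = θ from rfl]
    refine (eq_of_monic_of_dvd_of_natDegree_le (minpoly.monic hintK) (hpm.map _)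
      (minpoly.dvd K _ ?_) (le_trans (natDegree_map_le.trans ?_) hdeg)).symm
    · rw [aeval_map_algebraMap]
      simp only [hp, map_add, map_mul, map_pow, aeval_X, aeval_C]
      rw [IsScalarTower.algebraMap_apply (𝓞 K) K L, IsScalarTower.algebraMap_apply (𝓞 K) K L]
      exact hroot
    · simp only [hp]; compute_degree!
  have htop : Algebra.adjoin K {algebraMap (𝓞 L) L Θ} = ⊤ := by
    rw [show algebraMap (𝓞 L) L Θ = θ from rfl,
      ← IntermediateField.adjoin_simple_toSubalgebra_of_isAlgebraic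
      (Algebra.IsAlgebraic.isAlgebraic _),
      IntermediateField.eq_of_le_of_finrank_eq (F := IntermediateField.adjoin K {θ}) (E := ⊤)
        le_top (by
        rw [IntermediateField.adjoin.finrank (IsIntegral.of_finite K θ),
          IntermediateField.finrank_top',
          h.two]
        exact le_antisymm (h.two ▸ minpoly.natDegree_le θ)
          ((minpoly.two_le_natDegree_iff (IsIntegral.of_finite K θ)).mpr hθK)),
      IntermediateField.top_toSubalgebra]
  set f : 𝓞 L := aeval Θ (derivative (minpoly (𝓞 K) Θ))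
  have hf : f = 2 * Θ + algebraMap (𝓞 K) (𝓞 L) c₁ := by
    simp only [f, hmin, hp, derivative_mul, derivative_C, derivative_X,
      derivative_X_pow, map_add, map_mul, aeval_X, aeval_C, Nat.cast_ofNat, map_ofNat,
      zero_mul, zero_add, add_zero, mul_one, pow_one, show (2 : ℕ) - 1 = 1 from rfl]
  have hf2 : f ^ 2 * algebraMap (𝓞 K) (𝓞 L) (w ^ 2) =
      algebraMap (𝓞 K) (𝓞 L) (4 * t ^ 2 * b) := by
    refine RingOfIntegers.coe_injective ?_
    show algebraMap (𝓞 L) L _ = algebraMap (𝓞 L) L _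
    rw [hf, map_mul, map_pow, map_add, map_mul, map_ofNat,
      ← IsScalarTower.algebraMap_apply, ← IsScalarTower.algebraMap_apply,
      ← IsScalarTower.algebraMap_apply, IsScalarTower.algebraMap_apply (𝓞 K) K L,
      IsScalarTower.algebraMap_apply (𝓞 K) K L, IsScalarTower.algebraMap_apply (𝓞 K) K L,
      show algebraMap (𝓞 L) L Θ = θ from rfl]
    have e₁ := congrArg (algebraMap K L) hc₁'
    simp only [map_mul, map_pow, map_ofNat] at e₁ ⊢
    linear_combination
      (2 * θ * algebraMap K L (w : K) + algebraMap K L (c₁ : K) * algebraMap K L (w : K) +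
        2 * algebraMap K L (t : K) * y) * (2 * hθw + e₁) +
      4 * algebraMap K L (t : K) ^ 2 * h.sq
  set B₂ : 𝓞 K := 2 * b
  have hB0 : B₂ ≠ 0 := mul_ne_zero two_ne_zero hb
  obtain ⟨r, hr, hdvd⟩ := exists_cofactor v hB0
  refine ⟨f, w, t, conductor (𝓞 K) Θ, hw0, hw, ht, hf2,
    conductor_mul_differentIdeal (𝓞 K) K L Θ htop, fun P hP hPv hle => ?_⟩
  have hs : algebraMap (𝓞 K) (𝓞 L) (r * t) ∈ conductor (𝓞 K) Θ := by
    rw [mem_conductor_iff]
    intro Y
    obtain ⟨u, x, hY, h2u, hux⟩ := h.coords Y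
    have hbx : IsIntegral ℤ (2 * (b : K) * x) := by
      refine IsIntegral.of_pow two_pos ?_
      rw [show (2 * (b : K) * x) ^ 2 =
        (b : K) * ((2 * u) ^ 2 - 2 ^ 2 * (u ^ 2 - (b : K) * x ^ 2)) by ring]
      exact (RingOfIntegers.isIntegral_coe b).mul ((h2u.pow 2).sub
        (((map_ofNat (algebraMap ℤ K) 2 ▸ isIntegral_algebraMap (x := (2 : ℤ))).pow 2).mul hux))
    have hbu : IsIntegral ℤ (2 * (b : K) * u) := by
      rw [show 2 * (b : K) * u = (b : K) * (2 * u) by ring]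
      exact (RingOfIntegers.isIntegral_coe b).mul h2u
    set U : 𝓞 K := ⟨_, hbu⟩
    set Xx : 𝓞 K := ⟨_, hbx⟩
    have hUX : B₂ ^ 2 ∣ U ^ 2 - b * Xx ^ 2 := by
      refine ⟨⟨_, hux⟩, RingOfIntegers.coe_injective ?_⟩
      simp only [map_sub, map_mul, map_pow, B₂, U, Xx, map_ofNat]
      show (2 * (b : K) * u) ^ 2 - (b : K) * (2 * (b : K) * x) ^ 2 =
        (2 * (b : K)) ^ 2 * (u ^ 2 - (b : K) * x ^ 2)
      ring
    obtain ⟨hA, hB⟩ := hlocal U Xx (by
      rw [pow_mul']
      obtain ⟨m, hm⟩ := hUX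
      rw [hm]
      exact Ideal.mul_mem_right _ _ (Ideal.pow_mem_pow ((mem_pow_iff v hB0 _).mpr le_rfl) 2))
    obtain ⟨A, hA⟩ := hdvd _ hA
    obtain ⟨B, hB⟩ := hdvd _ (hB w ((mem_pow_iff v hw0 _).mpr hw.ge))
    refine (show algebraMap (𝓞 K) (𝓞 L) (r * t) * Y =
      algebraMap (𝓞 K) (𝓞 L) (t * A) + algebraMap (𝓞 K) (𝓞 L) B * Θ from ?_) ▸
        add_mem (Subalgebra.algebraMap_mem _ _)
          (mul_mem (Subalgebra.algebraMap_mem _ _) (Algebra.self_mem_adjoin_singleton _ _))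
    refine RingOfIntegers.coe_injective (mul_right_cancel₀ (show algebraMap K L (B₂ : K) ≠ 0 by
      simpa using (RingOfIntegers.coe_ne_zero_iff (x := B₂)).mpr hB0) ?_)
    have eA : algebraMap K L (r : K) * (algebraMap K L ((U : K)) + algebraMap K L (Xx : K) *
        algebraMap K L (z : K)) = algebraMap K L (B₂ : K) * algebraMap K L (A : K) := by
      have e : (r : K) * ((U : K) + (Xx : K) * (z : K)) = (B₂ : K) * (A : K) := by
        simpa [map_mul, map_add] using congrArg (algebraMap (𝓞 K) K) hA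
      have e' := congrArg (algebraMap K L) e
      simpa only [map_mul, map_add] using e'
    have eB : algebraMap K L (r : K) * (algebraMap K L (Xx : K) * algebraMap K L (w : K)) =
        algebraMap K L (B₂ : K) * algebraMap K L (B : K) := by
      have e : (r : K) * ((Xx : K) * (w : K)) = (B₂ : K) * (B : K) := by
        simpa [map_mul] using congrArg (algebraMap (𝓞 K) K) hB
      have e' := congrArg (algebraMap K L) e
      simpa only [map_mul] using e'
    have hU : algebraMap K L (U : K) = algebraMap K L (B₂ : K) * algebraMap K L u := by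
      rw [← map_mul]
      exact congrArg _ (by simp [U, B₂, RingOfIntegers.map_mk, map_mul, map_ofNat])
    have hX : algebraMap K L (Xx : K) = algebraMap K L (B₂ : K) * algebraMap K L x := by
      rw [← map_mul]
      exact congrArg _ (by simp [Xx, B₂, RingOfIntegers.map_mk, map_mul, map_ofNat])
    show algebraMap (𝓞 L) L _ * _ = algebraMap (𝓞 L) L _ * _
    simp only [map_add, map_mul, ← IsScalarTower.algebraMap_apply (𝓞 K) (𝓞 L) L]
    rw [show algebraMap (𝓞 L) L Θ = θ from rfl, show algebraMap (𝓞 L) L Y = (Y : L) from rfl,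
      IsScalarTower.algebraMap_apply (𝓞 K) K L r, IsScalarTower.algebraMap_apply (𝓞 K) K L t,
      IsScalarTower.algebraMap_apply (𝓞 K) K L A, IsScalarTower.algebraMap_apply (𝓞 K) K L B, hY]
    linear_combination algebraMap K L (t : K) * eA + θ * eB -
      (algebraMap K L (r : K) * algebraMap K L (Xx : K)) * hθw -
      algebraMap K L (r : K) * algebraMap K L (t : K) * hU -
      algebraMap K L (r : K) * algebraMap K L (t : K) * y * hX
  exact notMem_mul v hr ht (hPv ▸ Ideal.mem_comap.mpr (hle hs))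

/-- **The data for a representative adapted to the prime.** -/
theorem exists_local_data (q : SqClass K) (v : HeightOneSpectrum (𝓞 K)) {b : (𝓞 K)⁰}
    {G : (Ideal (𝓞 K))⁰} (hb : sqc b = q) (hG : G.1 ⊔ v.asIdeal = ⊤)
    (hbG : Ideal.span {b.1} = (sqf q).1.1 * G.1 ^ 2) :
    ∃ z : 𝓞 K, b.1 - z ^ 2 ∈ v.asIdeal ^ (2 * lev q v) ∧
      ∀ U X : 𝓞 K, U ^ 2 - b.1 * X ^ 2 ∈ v.asIdeal ^ (2 * expo v (2 * b.1)) →
        U + X * z ∈ v.asIdeal ^ expo v (2 * b.1) ∧
          ∀ w ∈ v.asIdeal ^ lev q v, X * w ∈ v.asIdeal ^ expo v (2 * b.1) := by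
  have hb0 : b.1 ≠ 0 := nonZeroDivisors.coe_ne_zero b
  have hj : lev q v ≤ twoExp v := lev_le q v
  have h2b : expo v (2 * b.1) = twoExp v + expo v b.1 := expo_mul v two_ne_zero hb0
  have hGv : ¬ G.1 ≤ v.asIdeal := fun hle => v.isPrime.ne_top (by rwa [sup_eq_right.mpr hle] at hG)
  have hle' : (sqf q).1.1 * G.1 ^ 2 = Ideal.span {b.1} := hbG.symm
  by_cases hJv : (sqf q).1.1 ≤ v.asIdeal
  · have hj0 : lev q v = 0 := by
      by_contra hne
      have hmem := sqClassMod_mono (Ideal.pow_le_self hne) (mem_sqClassMod_lev q v)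
      have := (mem_copClass v.ne_bot).mp (sqClassMod_le hmem)
      exact v.isPrime.ne_top (by rwa [sup_eq_right.mpr hJv] at this)
    have hb1 : expo v b.1 = 1 := by
      have hmem : b.1 ∈ v.asIdeal := by
        have : b.1 ∈ (sqf q).1.1 * G.1 ^ 2 := by rw [hle']; exact Ideal.mem_span_singleton_self _
        exact hJv (Ideal.mul_le_left this)
      refine le_antisymm ?_ (Nat.one_le_iff_ne_zero.mpr ((expo_ne_zero_iff v hb0).mpr hmem))
      by_contra hlt
      have h2 : v.asIdeal ^ 2 ∣ (sqf q).1.1 * G.1 ^ 2 := by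
        rw [hle']; exact Ideal.dvd_span_singleton.mpr ((mem_pow_iff v hb0 2).mpr (by omega))
      have hco : IsCoprime (v.asIdeal ^ 2) (G.1 ^ 2) := by
        refine (IsCoprime.pow ?_).symm
        rw [Ideal.isCoprime_iff_sup_eq]
        exact hG
      have h3 := hco.dvd_of_dvd_mul_right h2
      rw [pow_two] at h3
      exact v.prime.not_isUnit ((sqf q).2 v.asIdeal h3)
    refine ⟨0, by simp [hj0], fun U X hUX => ?_⟩
    obtain ⟨hU, hX⟩ := local_odd v hb0 hb1 hUX
    exact ⟨by simpa using hU, fun w _ => Ideal.mul_mem_right _ _ hX⟩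
  · have hbv : b.1 ∉ v.asIdeal := fun hm => by
      have hle : (sqf q).1.1 * G.1 ^ 2 ≤ v.asIdeal := by
        rw [hle']; exact (Ideal.span_singleton_le_iff_mem _).mpr hm
      rcases v.isPrime.mul_le.mp hle with h' | h'
      · exact hJv h'
      · exact hGv (v.isPrime.le_of_pow_le h')
    have hcop : ∀ m, Ideal.span {b.1} ⊔ v.asIdeal ^ m = ⊤ := fun m => by
      rw [← Ideal.isCoprime_iff_sup_eq]
      refine IsCoprime.pow_right ?_
      rw [Ideal.isCoprime_iff_sup_eq]
      exact v.isMaximal.out.2 _ (lt_of_le_of_ne le_sup_right fun he =>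
        hbv ((Ideal.span_singleton_le_iff_mem _).mp (le_sup_left.trans he.ge)))
    obtain ⟨z, hz⟩ := square_mod_of_mem (mem_sqClassMod_lev q v) hb (hcop _)
    rw [← pow_mul'] at hz
    refine ⟨z, hz, fun U X hUX => ?_⟩
    rw [h2b, expo_notMem v hbv, add_zero] at hUX ⊢
    obtain ⟨hA, hX⟩ := local_unit v hj (two_mem_pow le_rfl) hz (fun m hjm hme z' hz' => by
      have := le_lev_iff.mpr (⟨hme, b, hb, hcop m, z', by rwa [← pow_mul']⟩ :
        m ≤ twoExp v ∧ q ∈ sqClassMod (v.asIdeal ^ m))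
      omega) hUX
    refine ⟨hA, fun w hw => ?_⟩
    rw [← Nat.sub_add_cancel hj, pow_add]
    exact Ideal.mul_mem_mul hX hw

omit [NumberField K] in
theorem mult_extI_notLe {v : HeightOneSpectrum (𝓞 K)} {P : Ideal (𝓞 L)}
    (hPv : P.comap (algebraMap (𝓞 K) (𝓞 L)) = v.asIdeal) (I : Ideal (𝓞 K))
    (hI : ¬ I ≤ v.asIdeal) : mult P (extI L I) = 0 :=
  mult_eq_zero fun hle => hI (hPv ▸ Ideal.map_le_iff_le_comap.mp hle)

theorem mult_extI_levIdeal (q : SqClass K) {v : HeightOneSpectrum (𝓞 K)} {P : Ideal (𝓞 L)}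
    (hPv : P.comap (algebraMap (𝓞 K) (𝓞 L)) = v.asIdeal) :
    mult P (extI L (levIdeal q)) = lev q v * mult P (extI L v.asIdeal) := by
  by_cases hv : v ∈ twoPrimes K
  · rw [levIdeal, ← Finset.mul_prod_erase _ _ hv, extI_mul,
      mult_mul (extI_ne_bot (pow_ne_zero _ v.ne_bot))
        (extI_ne_bot (Finset.prod_ne_zero_iff.mpr fun u _ => pow_ne_zero _ u.ne_bot)),
      mult_extI_notLe hPv (∏ u ∈ (twoPrimes K).erase v, u.asIdeal ^ lev q u) ?_, extI_pow,
      mult_pow, add_zero]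
    intro hle
    obtain ⟨u, hu, huv⟩ := (v.isPrime.prod_le).mp hle
    exact (Finset.mem_erase.mp hu).1 (HeightOneSpectrum.ext
      (u.isMaximal.eq_of_le v.isPrime.ne_top (v.isPrime.le_of_pow_le huv)))
  · have hj0 : lev q v = 0 := by
      have := lev_le q v
      rw [← twoExp_ne_zero, not_not] at hv; omega
    rw [hj0, zero_mul]
    refine mult_extI_notLe hPv _ fun hle => hv (mem_twoPrimes.mpr (hle ?_))
    rw [← Ideal.span_singleton_le_iff_mem, ← Ideal.dvd_iff_le, span_two_eq]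
    exact Finset.prod_dvd_prod_of_dvd _ _ fun u _ => pow_dvd_pow _ (lev_le q u)

theorem mult_extI_span {v : HeightOneSpectrum (𝓞 K)} {P : Ideal (𝓞 L)}
    (hPv : P.comap (algebraMap (𝓞 K) (𝓞 L)) = v.asIdeal) {w : 𝓞 K} (hw : w ≠ 0) :
    mult P (extI L (Ideal.span {w})) = expo v w * mult P (extI L v.asIdeal) := by
  obtain ⟨W, hW⟩ := Ideal.dvd_span_singleton.mpr ((mem_pow_iff v hw _).mpr le_rfl)
  have hW0 : W ≠ ⊥ := fun e => span_singleton_ne hw (by rw [hW, e]; simp)
  have hWn : ¬ W ≤ v.asIdeal := fun hle => by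
    have := (mem_pow_iff v hw (expo v w + 1)).mp (by
      have e : w ∈ v.asIdeal ^ expo v w * W := by
        rw [← hW]; exact Ideal.mem_span_singleton_self w
      rw [pow_succ]; exact Ideal.mul_mono le_rfl hle e)
    omega
  rw [hW, extI_mul, mult_mul (extI_ne_bot (pow_ne_zero _ v.ne_bot)) (extI_ne_bot hW0),
    mult_extI_notLe hPv W hWn, extI_pow, mult_pow, add_zero]

/-- **The different of `K(√b)`.** -/
theorem different_sq_eq {b₀ : (𝓞 K)⁰} {y₀ : L} (h : RootData K L (b₀.1 : K) y₀) :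
    differentIdeal (𝓞 K) (𝓞 L) ^ 2 * extI L (levIdeal (sqc b₀) ^ 2) =
      extI L (Ideal.span {(4 : 𝓞 K)} * (sqf (sqc b₀)).1.1) := by
  set q := sqc b₀
  set D := differentIdeal (𝓞 K) (𝓞 L)
  have hD : D ≠ ⊥ := differentIdeal_ne_bot
  have hc : levIdeal q ≠ ⊥ := levIdeal_ne_bot q
  have h4 : Ideal.span {(4 : 𝓞 K)} ≠ ⊥ := by simp
  have hJ0 : (sqf q).1.1 ≠ ⊥ := nonZeroDivisors.coe_ne_zero _
  have hl : D ^ 2 * extI L (levIdeal q ^ 2) ≠ ⊥ :=
    mul_ne_zero (pow_ne_zero 2 hD) (extI_ne_bot (pow_ne_zero 2 hc))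
  have hr : extI L (Ideal.span {(4 : 𝓞 K)} * (sqf q).1.1) ≠ ⊥ :=
    extI_ne_bot (mul_ne_zero h4 hJ0)
  suffices key : ∀ P : Ideal (𝓞 L), P.IsPrime → P ≠ ⊥ →
      2 * mult P D + mult P (extI L (levIdeal q ^ 2)) =
        mult P (extI L (Ideal.span {(4 : 𝓞 K)} * (sqf q).1.1)) by
    have e : UniqueFactorizationMonoid.normalizedFactors (D ^ 2 * extI L (levIdeal q ^ 2)) =
        UniqueFactorizationMonoid.normalizedFactors
          (extI L (Ideal.span {(4 : 𝓞 K)} * (sqf q).1.1)) := by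
      refine Multiset.ext' fun P => ?_
      by_cases hP : Prime P
      · have := key P (Ideal.isPrime_of_prime hP) hP.ne_zero
        rwa [← mult_pow, ← mult_mul (pow_ne_zero 2 hD) (extI_ne_bot (pow_ne_zero 2 hc))] at this
      · rw [Multiset.count_eq_zero.mpr fun hm =>
          hP (UniqueFactorizationMonoid.prime_of_normalized_factor P hm),
          Multiset.count_eq_zero.mpr fun hm =>
            hP (UniqueFactorizationMonoid.prime_of_normalized_factor P hm)]
    rw [← Ideal.prod_normalizedFactors_eq_self hl, ← Ideal.prod_normalizedFactors_eq_self hr, e]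
  intro P hP hP0
  obtain ⟨x₀, hx₀, hx₀'⟩ := Submodule.exists_mem_ne_zero_of_ne_bot hP0
  set v : HeightOneSpectrum (𝓞 K) := ⟨P.comap (algebraMap (𝓞 K) (𝓞 L)), hP.comap _,
    Ideal.comap_ne_bot_of_integral_mem hx₀' hx₀ (Algebra.IsIntegral.isIntegral x₀)⟩
  have hPv : P.comap (algebraMap (𝓞 K) (𝓞 L)) = v.asIdeal := rfl
  -- a representative adapted to `v`
  obtain ⟨b, G, hb, hG, hbG⟩ := exists_rep q v.ne_bot
  obtain ⟨r, hr'⟩ := sqc_eq_iff.mp (show sqc b₀ = sqc b from hb.symm)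
  obtain ⟨y, hy⟩ := h.change (nonZeroDivisors.coe_ne_zero b₀) (nonZeroDivisors.coe_ne_zero b) hr'
  have hb0 : b.1 ≠ 0 := nonZeroDivisors.coe_ne_zero b
  have hGv : ¬ G.1 ≤ v.asIdeal := fun hle => v.isPrime.ne_top (by rwa [sup_eq_right.mpr hle] at hG)
  obtain ⟨z, hz, hloc⟩ := exists_local_data q v hb hG hbG
  obtain ⟨f, w, t, R, hw0, hw, ht, hf, hRD, hRP⟩ := exists_generator hb0 hy v (lev_le q v) hz hloc
  have hmD : mult P D = mult P (Ideal.span {f}) := by
    have hR0 : R ≠ ⊥ := fun h0 => hRP P hP hPv (by rw [h0]; exact bot_le)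
    rw [← hRD, mult_mul hR0 hD, mult_eq_zero (hRP P hP hPv), zero_add]
  have ht0 : t ≠ 0 := fun h0 => ht (by rw [h0]; exact zero_mem _)
  have hts : ¬ Ideal.span {t} ≤ v.asIdeal := fun h' =>
    ht ((Ideal.span_singleton_le_iff_mem _).mp h')
  have hf0 : Ideal.span {f} ≠ ⊥ := fun e => by
    rw [Ideal.span_singleton_eq_bot] at e
    rw [e, zero_pow two_ne_zero, zero_mul, eq_comm, ← map_zero (algebraMap (𝓞 K) (𝓞 L))] at hf
    exact mul_ne_zero (mul_ne_zero (by norm_num) (pow_ne_zero 2 ht0)) hb0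
      (FaithfulSMul.algebraMap_injective _ _ hf)
  have hwv : mult P (extI L (Ideal.span {w})) = lev q v * mult P (extI L v.asIdeal) := by
    rw [mult_extI_span hPv hw0, hw]
  have hcv := mult_extI_levIdeal q hPv
  have e := congrArg (fun x => mult P (Ideal.span {x})) hf
  simp only [← Ideal.span_singleton_mul_span_singleton, ← Ideal.span_singleton_pow, ← extI_span,
    extI_mul, extI_pow] at e
  rw [mult_mul (pow_ne_zero 2 hf0) (pow_ne_zero 2 (extI_ne_bot (span_singleton_ne hw0))), hbG,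
    extI_mul, extI_pow,
    mult_mul (mul_ne_zero (extI_ne_bot h4) (pow_ne_zero 2 (extI_ne_bot (span_singleton_ne ht0))))
      (mul_ne_zero (extI_ne_bot hJ0)
        (pow_ne_zero 2 (extI_ne_bot (nonZeroDivisors.coe_ne_zero G)))),
    mult_mul (extI_ne_bot h4) (pow_ne_zero 2 (extI_ne_bot (span_singleton_ne ht0))),
    mult_mul (extI_ne_bot hJ0) (pow_ne_zero 2 (extI_ne_bot (nonZeroDivisors.coe_ne_zero G))),
    mult_pow, mult_pow, mult_pow, mult_pow, hwv, mult_extI_notLe hPv _ hts,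
    mult_extI_notLe hPv _ hGv] at e
  rw [extI_pow, mult_pow, hcv, extI_mul, mult_mul (extI_ne_bot h4) (extI_ne_bot hJ0), hmD]
  omega

/-- **The norm of the different of `K(√b)`.** -/
theorem absNorm_different {b : (𝓞 K)⁰} {y : L} (h : RootData K L (b.1 : K) y) :
    (Ideal.absNorm (differentIdeal (𝓞 K) (𝓞 L)) : ℝ) = relDisc (sqc b) := by
  have e := congrArg Ideal.absNorm (different_sq_eq h)
  simp only [extI, map_mul, map_pow, Ideal.absNorm_algebraMap] at e
  rw [← IsFractionRing.finrank_eq (𝓞 K) K (𝓞 L) L, h.two] at e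
  have h4 : Ideal.absNorm (Ideal.span {(4 : 𝓞 K)}) = 4 ^ finrank ℚ K := by
    rw [show (4 : 𝓞 K) = 2 * 2 by norm_num, ← Ideal.span_singleton_mul_span_singleton, map_mul,
      absNorm_two, ← mul_pow]
    norm_num
  rw [h4, ← mul_pow] at e
  have e' := Nat.pow_left_injective two_ne_zero e
  have h0 := absNorm_pos' (levIdeal_ne_bot (sqc b))
  rw [relDisc, eq_div_iff (pow_ne_zero 2 h0.ne'), mul_comm (Ideal.absNorm (sqf (sqc b)).1.1 : ℝ)]
  exact_mod_cast e'

end FA.DihedralQuartic
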