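import Fermat.Agent.DihedralQuartic.Index
import Fermat.Agent.BrumerSilverman.Key

/-!
# The levels at the primes above two

The largest `v ^ j ∣ 2` modulo whose square a class is a square gives the relative discriminant
`N J · 4 ^ n / N c ^ 2`; summing over the levels, the square classes of relative discriminant at
most `Y` number `~ 2 ^ (-r₂) res / ζ_K(2) · Y`.
-/

set_option autoImplicit false
set_option linter.style.haveILetI false

noncomputable section

open NumberField IsDedekindDomain Module Filter Topology FA.Hecke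
open FA.BrumerSilverman (expo expo_ne_zero_iff span_singleton_ne)
open scoped nonZeroDivisors Classical

namespace FA.DihedralQuartic

variable {K : Type} [Field K] [NumberField K]

theorem two_span_ne_bot : Ideal.span {(2 : 𝓞 K)} ≠ ⊥ := by simp

/-- The primes above two. -/
def twoPrimes (K : Type) [Field K] [NumberField K] : Finset (HeightOneSpectrum (𝓞 K)) :=
  modPrimes (two_span_ne_bot (K := K))

theorem mem_twoPrimes {v : HeightOneSpectrum (𝓞 K)} : v ∈ twoPrimes K ↔ (2 : 𝓞 K) ∈ v.asIdeal := by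
  rw [twoPrimes, mem_modPrimes, Ideal.dvd_span_singleton]

/-- The exponent of `v` in `2`. -/
def twoExp (v : HeightOneSpectrum (𝓞 K)) : ℕ := expo v (2 : 𝓞 K)

theorem twoExp_ne_zero {v : HeightOneSpectrum (𝓞 K)} : twoExp v ≠ 0 ↔ v ∈ twoPrimes K := by
  rw [twoExp, expo_ne_zero_iff v two_ne_zero, mem_twoPrimes]

theorem span_two_eq :
    Ideal.span {(2 : 𝓞 K)} = ∏ v ∈ twoPrimes K, v.asIdeal ^ twoExp v := by
  have hs : Function.mulSupport (fun v : HeightOneSpectrum (𝓞 K) =>
      v.maxPowDividing (Ideal.span {(2 : 𝓞 K)})) ⊆ (twoPrimes K : Set _) := by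
    intro v hv
    rw [Finset.mem_coe, ← twoExp_ne_zero]
    intro h
    refine hv ?_
    show v.asIdeal ^ expo v (2 : 𝓞 K) = 1
    rw [show expo v (2 : 𝓞 K) = 0 from h, pow_zero]
  conv_lhs => rw [← Ideal.finprod_heightOneSpectrum_factorization (span_singleton_ne two_ne_zero),
    finprod_eq_prod_of_mulSupport_subset _ hs]
  exact Finset.prod_congr rfl fun v _ => rfl

theorem two_mem_pow {v : HeightOneSpectrum (𝓞 K)} {j : ℕ} (hj : j ≤ twoExp v) :
    (2 : 𝓞 K) ∈ v.asIdeal ^ j := by
  by_cases hv : v ∈ twoPrimes K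
  · rw [← Ideal.span_singleton_le_iff_mem, ← Ideal.dvd_iff_le, span_two_eq]
    exact (pow_dvd_pow _ hj).trans (Finset.dvd_prod_of_mem _ hv)
  · rw [← twoExp_ne_zero, not_not] at hv
    simp [show j = 0 by omega]

theorem sqClassMod_top (q : SqClass K) : q ∈ sqClassMod (⊤ : Ideal (𝓞 K)) := by
  obtain ⟨b, hb⟩ := sqc_surjective q
  exact ⟨b, hb, by simp, 0, by simp [← Ideal.one_eq_top]⟩

theorem sqClassMod_mono {c c' : Ideal (𝓞 K)} (h : c ≤ c') :
    sqClassMod c ≤ sqClassMod (K := K) c' := fun _ ⟨b, hb, hc, z, hz⟩ =>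
  ⟨b, hb, top_le_iff.mp (hc ▸ sup_le_sup_left h _), z, Ideal.pow_right_mono h 2 hz⟩

/-- **Coprime moduli combine.** -/
theorem sqClassMod_mul {c c' : Ideal (𝓞 K)} (hc : c ≠ ⊥) (hc' : c' ≠ ⊥) (h : c ⊔ c' = ⊤)
    (q : SqClass K) : q ∈ sqClassMod (c * c') ↔ q ∈ sqClassMod c ∧ q ∈ sqClassMod c' := by
  refine ⟨fun hq => ⟨sqClassMod_mono Ideal.mul_le_left hq, sqClassMod_mono Ideal.mul_le_right hq⟩,
    fun ⟨h1, h2⟩ => ?_⟩
  have hJ1 := (mem_copClass hc).mp (sqClassMod_le h1)
  have hJ2 := (mem_copClass hc').mp (sqClassMod_le h2)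
  have hJ : (sqf q).1.1 ⊔ c * c' = ⊤ := by
    rw [← Ideal.isCoprime_iff_sup_eq] at hJ1 hJ2 ⊢
    exact hJ1.mul_right hJ2
  obtain ⟨b, hb, hbc⟩ := (mem_copClass (mul_ne_zero hc hc')).mpr hJ
  obtain ⟨z, hz⟩ := square_mod_of_mem h1 hb
    (top_le_iff.mp (hbc ▸ sup_le_sup_left Ideal.mul_le_left _))
  obtain ⟨z', hz'⟩ := square_mod_of_mem h2 hb
    (top_le_iff.mp (hbc ▸ sup_le_sup_left Ideal.mul_le_right _))
  have hco : c ^ 2 ⊔ c' ^ 2 = ⊤ := by
    rw [← Ideal.isCoprime_iff_sup_eq] at h ⊢; exact h.pow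
  obtain ⟨e, he, e', he', hee⟩ := Submodule.mem_sup.mp ((Ideal.eq_top_iff_one _).mp hco)
  refine ⟨b, hb, hbc, z * e' + z' * e, ?_⟩
  rw [mul_pow, Ideal.mul_eq_inf_of_coprime hco]
  constructor
  · show _ ∈ c ^ 2
    rw [show b.1 - (z * e' + z' * e) ^ 2 = (b.1 - z ^ 2) +
        e * ((z - z') * (2 * z + e * (z' - z))) by
      linear_combination (-(z * (z * e' + 2 * z' * e + z * (1 - e)))) * hee]
    exact Ideal.add_mem _ hz (Ideal.mul_mem_right _ _ he)
  · show _ ∈ c' ^ 2
    rw [show b.1 - (z * e' + z' * e) ^ 2 = (b.1 - z' ^ 2) +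
        e' * ((z' - z) * (2 * z' + e' * (z - z'))) by
      linear_combination (-(z' * (2 * z * e' + z' * e + z' * (1 - e')))) * hee]
    exact Ideal.add_mem _ hz' (Ideal.mul_mem_right _ _ he')

theorem sqClassMod_prod (k : HeightOneSpectrum (𝓞 K) → ℕ) (q : SqClass K)
    (S : Finset (HeightOneSpectrum (𝓞 K))) :
    q ∈ sqClassMod (∏ v ∈ S, v.asIdeal ^ k v) ↔ ∀ v ∈ S, q ∈ sqClassMod (v.asIdeal ^ k v) := by
  induction S using Finset.induction_on with
  | empty => simp [sqClassMod_top q]
  | insert w S hw ih =>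
    rw [Finset.prod_insert hw, sqClassMod_mul (pow_ne_zero _ w.ne_bot)
      (Finset.prod_ne_zero_iff.mpr fun v _ => pow_ne_zero _ v.ne_bot), ih, Finset.forall_mem_insert]
    rw [← Ideal.isCoprime_iff_sup_eq]
    refine IsCoprime.prod_right fun v hv => IsCoprime.pow ?_
    rw [Ideal.isCoprime_iff_sup_eq]
    exact w.isMaximal.coprime_of_ne v.isMaximal fun e =>
      hw (HeightOneSpectrum.ext e ▸ hv)

/-- The largest `j` with the class a square modulo `v ^ (2 j)`. -/
def lev (q : SqClass K) (v : HeightOneSpectrum (𝓞 K)) : ℕ :=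
  Nat.findGreatest (fun j => q ∈ sqClassMod (v.asIdeal ^ j)) (twoExp v)

theorem lev_le (q : SqClass K) (v : HeightOneSpectrum (𝓞 K)) : lev q v ≤ twoExp v :=
  Nat.findGreatest_le _

theorem mem_sqClassMod_lev (q : SqClass K) (v : HeightOneSpectrum (𝓞 K)) :
    q ∈ sqClassMod (v.asIdeal ^ lev q v) :=
  Nat.findGreatest_spec (P := fun j => q ∈ sqClassMod (v.asIdeal ^ j)) (Nat.zero_le _)
    (by rw [pow_zero, Ideal.one_eq_top]; exact sqClassMod_top q)

theorem le_lev_iff {q : SqClass K} {v : HeightOneSpectrum (𝓞 K)} {j : ℕ} :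
    j ≤ lev q v ↔ j ≤ twoExp v ∧ q ∈ sqClassMod (v.asIdeal ^ j) :=
  ⟨fun h => ⟨h.trans (lev_le q v),
    sqClassMod_mono (Ideal.pow_le_pow_right h) (mem_sqClassMod_lev q v)⟩,
    fun h => Nat.le_findGreatest h.1 h.2⟩

/-- The part of two modulo whose square the class is a square. -/
def levIdeal (q : SqClass K) : Ideal (𝓞 K) := ∏ v ∈ twoPrimes K, v.asIdeal ^ lev q v

/-- `N J · 4 ^ n / N c ^ 2`. -/
def relDisc (q : SqClass K) : ℝ :=
  (Ideal.absNorm (sqf q).1.1 : ℝ) * 4 ^ finrank ℚ K / (Ideal.absNorm (levIdeal q) : ℝ) ^ 2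

theorem absNorm_two : Ideal.absNorm (Ideal.span {(2 : 𝓞 K)}) = 2 ^ finrank ℚ K := by
  rw [Ideal.absNorm_span_singleton, show (2 : 𝓞 K) = algebraMap ℤ (𝓞 K) 2 from (map_ofNat _ 2).symm,
    Algebra.norm_algebraMap, RingOfIntegers.rank, Int.natAbs_pow]
  rfl

theorem absNorm_pos' {I : Ideal (𝓞 K)} (h : I ≠ ⊥) : (0 : ℝ) < Ideal.absNorm I :=
  Nat.cast_pos.mpr (Nat.pos_of_ne_zero (by rwa [Ne, Ideal.absNorm_eq_zero_iff]))

theorem absNorm_prod_pow (k : HeightOneSpectrum (𝓞 K) → ℕ)
    (S : Finset (HeightOneSpectrum (𝓞 K))) :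
    (Ideal.absNorm (∏ v ∈ S, v.asIdeal ^ k v) : ℝ) =
      ∏ v ∈ S, (Ideal.absNorm v.asIdeal : ℝ) ^ k v := by
  rw [map_prod, Nat.cast_prod]
  exact Finset.prod_congr rfl fun v _ => by rw [map_pow, Nat.cast_pow]

theorem levIdeal_ne_bot (q : SqClass K) : levIdeal q ≠ ⊥ :=
  Finset.prod_ne_zero_iff.mpr fun v _ => pow_ne_zero _ v.ne_bot

theorem absNorm_sqf_le (q : SqClass K) : (Ideal.absNorm (sqf q).1.1 : ℝ) ≤ relDisc q := by
  have h0 := absNorm_pos' (levIdeal_ne_bot q)
  rw [relDisc, le_div_iff₀ (pow_pos h0 2)]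
  refine mul_le_mul_of_nonneg_left ?_ (Nat.cast_nonneg _)
  rw [show (4 : ℝ) ^ finrank ℚ K = ((2 : ℝ) ^ finrank ℚ K) ^ 2 by
    rw [← pow_mul, mul_comm, pow_mul]; norm_num]
  refine pow_le_pow_left₀ h0.le ?_ 2
  have hd : levIdeal q ∣ Ideal.span {(2 : 𝓞 K)} :=
    span_two_eq (K := K) ▸ Finset.prod_dvd_prod_of_dvd _ _ fun v _ => pow_dvd_pow _ (lev_le q v)
  exact_mod_cast absNorm_two (K := K) ▸ Nat.le_of_dvd
    (Nat.pos_of_ne_zero (by rw [Ne, Ideal.absNorm_eq_zero_iff]; exact two_span_ne_bot))
    (map_dvd Ideal.absNorm hd)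

theorem mul_mem_virtUnits {q q' : SqClass K} (h : sqf q = sqf q') : q * q' ∈ virtUnits K := by
  obtain ⟨b₁, G, hb₁, -, h1⟩ := exists_rep q (top_ne_bot (α := Ideal (𝓞 K)))
  obtain ⟨b₂, G', hb₂, -, h2⟩ := exists_rep q' (top_ne_bot (α := Ideal (𝓞 K)))
  refine ⟨b₁ * b₂, (sqf q').1 * (G * G'), by rw [map_mul, hb₁, hb₂], ?_⟩
  rw [Submonoid.coe_mul, ← Ideal.span_singleton_mul_span_singleton, h1, h2, h,
    Submonoid.coe_mul, Submonoid.coe_mul, mul_pow, mul_pow]
  ring

theorem finite_sqf_le (Y : ℝ) :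
    {q : SqClass K | (Ideal.absNorm (sqf q).1.1 : ℝ) ≤ Y}.Finite := by
  haveI : Finite (virtUnits K) := finite_virtUnits
  refine (finite_norm_le (K := K) Y).biUnion (t := fun J => {q : SqClass K | sqf q = J})
    (fun J _ => ?_) |>.subset fun q hq => Set.mem_biUnion (x := sqf q) hq rfl
  rcases Set.eq_empty_or_nonempty {q : SqClass K | sqf q = J} with he | ⟨q₀, hq₀⟩
  · rw [he]; exact Set.finite_empty
  · refine ((Set.toFinite (virtUnits K : Set (SqClass K))).image (· * q₀)).subset fun q hq =>
      ⟨q * q₀, mul_mem_virtUnits (hq.trans hq₀.symm), ?_⟩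
    show q * q₀ * q₀ = q
    rw [mul_assoc, sqClass_mul_self]
    exact mul_one (q : SqClass K)

theorem finite_relDisc_le (Y : ℝ) : {q : SqClass K | relDisc q ≤ Y}.Finite :=
  (finite_sqf_le Y).subset fun q hq => (absNorm_sqf_le q).trans hq

/-- The factor of a prime in the density at level `j`. -/
def levFactor (v : HeightOneSpectrum (𝓞 K)) (j : ℕ) : ℝ :=
  if j = 0 then 1 else if j ≤ twoExp v then
    (Ideal.absNorm v.asIdeal : ℝ) / ((Ideal.absNorm v.asIdeal : ℝ) + 1) /
      (Ideal.absNorm v.asIdeal : ℝ) ^ j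
  else 0

/-- The main constant before the levels. -/
def baseDensity (K : Type) [Field K] [NumberField K] : ℝ :=
  2 ^ (Units.rank K + 1) * (dedekindZeta_residue K / zetaTwo K)

/-- Exact levels on `S`, lower bounds elsewhere. -/
def levSet (S : Finset (HeightOneSpectrum (𝓞 K))) (k : HeightOneSpectrum (𝓞 K) → ℕ) (Y : ℝ) :
    Set (SqClass K) :=
  {q | (∀ v ∈ twoPrimes K, if v ∈ S then lev q v = k v else k v ≤ lev q v) ∧
    (Ideal.absNorm (sqf q).1.1 : ℝ) ≤ Y}

theorem tendsto_levSet_empty (k : HeightOneSpectrum (𝓞 K) → ℕ) :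
    Tendsto (fun Y => ((levSet ∅ k Y).ncard : ℝ) / Y) atTop
      (𝓝 (baseDensity K * ∏ v ∈ twoPrimes K, levFactor v (k v))) := by
  by_cases hk : ∀ v ∈ twoPrimes K, k v ≤ twoExp v
  · set c := ∏ v ∈ twoPrimes K, v.asIdeal ^ k v
    have hc : c ≠ ⊥ := Finset.prod_ne_zero_iff.mpr fun v _ => pow_ne_zero _ v.ne_bot
    have h2 : (2 : 𝓞 K) ∈ c := by
      rw [← Ideal.span_singleton_le_iff_mem, ← Ideal.dvd_iff_le, span_two_eq]
      exact Finset.prod_dvd_prod_of_dvd _ _ fun v hv => pow_dvd_pow _ (hk v hv)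
    convert tendsto_sqClassMod hc h2 using 2
    · congr 3
      ext q
      simp only [levSet, Finset.notMem_empty, if_false, Set.mem_ofPred_eq, c, sqClassMod_prod]
      exact and_congr_left fun _ => forall₂_congr fun v hv =>
        ⟨fun h => (le_lev_iff.mp h).2, fun h => le_lev_iff.mpr ⟨hk v hv, h⟩⟩
    · rw [sqfDensity, baseDensity, absNorm_prod_pow]
      have hS : modPrimes (pow_ne_zero 2 hc) = (twoPrimes K).filter fun v => k v ≠ 0 := by
        ext v
        rw [mem_modPrimes, Finset.mem_filter]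
        constructor
        · intro h
          obtain ⟨w, hw, hwv⟩ := (Prime.dvd_finsetProd_iff v.prime _).mp
            (v.prime.dvd_of_dvd_pow h)
          have hk0 : k w ≠ 0 := fun h0 => v.prime.not_dvd_one (by simpa [h0] using hwv)
          have e : v = w := HeightOneSpectrum.ext ((w.isMaximal.eq_of_le v.isPrime.ne_top
            (Ideal.dvd_iff_le.mp (v.prime.dvd_of_dvd_pow hwv))).symm)
          exact e ▸ ⟨hw, hk0⟩
        · rintro ⟨hv, hk0⟩
          exact ((dvd_pow_self _ hk0).trans
            (Finset.dvd_prod_of_mem (fun v : HeightOneSpectrum (𝓞 K) => v.asIdeal ^ k v) hv)).trans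
            (dvd_pow_self _ two_ne_zero)
      rw [hS, Finset.prod_filter, div_mul_eq_mul_div, mul_div_assoc, mul_div_assoc,
        ← Finset.prod_div_distrib, mul_assoc]
      congr 2
      refine Finset.prod_congr rfl fun v hv => ?_
      rw [levFactor]
      rcases eq_or_ne (k v) 0 with h0 | h0
      · simp [h0]
      · rw [if_neg h0, if_pos (hk v hv), if_pos h0]
  · obtain ⟨v, hv, hlt⟩ : ∃ v ∈ twoPrimes K, twoExp v < k v := by
      push Not at hk; exact hk
    have h0 : levFactor v (k v) = 0 := by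
      rw [levFactor, if_neg (by omega), if_neg (by omega)]
    rw [Finset.prod_eq_zero hv h0, mul_zero]
    refine Tendsto.congr (fun Y => ?_) tendsto_const_nhds
    rw [show levSet ∅ k Y = ∅ from Set.eq_empty_of_forall_notMem fun q hq => by
      have := (hq.1 v hv)
      simp only [Finset.notMem_empty, if_false] at this
      have := lev_le q v
      omega]
    simp

theorem tendsto_levSet (S : Finset (HeightOneSpectrum (𝓞 K))) :
    S ⊆ twoPrimes K → ∀ k : HeightOneSpectrum (𝓞 K) → ℕ,
    Tendsto (fun Y => ((levSet S k Y).ncard : ℝ) / Y) atTop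
      (𝓝 (baseDensity K * ∏ v ∈ twoPrimes K,
        if v ∈ S then levFactor v (k v) - levFactor v (k v + 1) else levFactor v (k v))) := by
  induction S using Finset.induction_on with
  | empty => exact fun _ k => by simpa using tendsto_levSet_empty k
  | insert w S hw ih =>
    intro hS k
    rw [Finset.insert_subset_iff] at hS
    have h := (ih hS.2 k).sub (ih hS.2 (Function.update k w (k w + 1)))
    have hsplit : ∀ Y, ((levSet (insert w S) k Y).ncard : ℝ) =
        (levSet S k Y).ncard - (levSet S (Function.update k w (k w + 1)) Y).ncard := fun Y => by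
      have hdisj : Disjoint (levSet (insert w S) k Y)
          (levSet S (Function.update k w (k w + 1)) Y) := by
        rw [Set.disjoint_left]
        intro q h1 h2
        have e1 := h1.1 w hS.1
        have e2 := h2.1 w hS.1
        rw [if_pos (Finset.mem_insert_self w S)] at e1
        rw [if_neg hw, Function.update_self] at e2
        omega
      have hU : levSet S k Y = levSet (insert w S) k Y ∪
          levSet S (Function.update k w (k w + 1)) Y := by
        ext q
        constructor
        · rintro ⟨h1, h2⟩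
          have := h1 w hS.1
          rw [if_neg hw] at this
          rcases this.eq_or_lt with e | e
          · refine Or.inl ⟨fun v hv => ?_, h2⟩
            by_cases hvw : v = w
            · subst hvw; simp [e]
            · simpa [Finset.mem_insert, hvw] using h1 v hv
          · refine Or.inr ⟨fun v hv => ?_, h2⟩
            by_cases hvw : v = w
            · subst hvw; simp [hw]; omega
            · simpa [Function.update_of_ne hvw] using h1 v hv
        · rintro (⟨h1, h2⟩ | ⟨h1, h2⟩) <;> refine ⟨fun v hv => ?_, h2⟩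
          · by_cases hvw : v = w
            · subst hvw
              have := h1 v hv
              simp at this
              simp [hw, this]
            · simpa [Finset.mem_insert, hvw] using h1 v hv
          · by_cases hvw : v = w
            · subst hvw
              have := h1 v hv
              simp [hw] at this
              simp [hw]; omega
            · simpa [Function.update_of_ne hvw] using h1 v hv
      have hfin : ∀ (S : Finset (HeightOneSpectrum (𝓞 K))) k, (levSet S k Y).Finite := fun S k =>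
        (finite_sqf_le Y).subset fun q hq => hq.2
      rw [hU, Set.ncard_union_eq hdisj (hfin _ _) (hfin _ _), Nat.cast_add, add_sub_cancel_right]
    convert h using 2
    · rw [hsplit, sub_div]
    · rw [← mul_sub]
      congr 1
      rw [← Finset.mul_prod_erase _ _ hS.1, ← Finset.mul_prod_erase _ _ hS.1,
        ← Finset.mul_prod_erase _ _ hS.1, if_pos (Finset.mem_insert_self w S), if_neg hw, if_neg hw,
        Function.update_self, sub_mul]
      have e : ∀ v ∈ (twoPrimes K).erase w,
          (if v ∈ insert w S then levFactor v (k v) - levFactor v (k v + 1)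
            else levFactor v (k v)) =
            if v ∈ S then levFactor v (k v) - levFactor v (k v + 1) else levFactor v (k v) :=
        fun v hv => by simp [Finset.mem_insert, (Finset.mem_erase.mp hv).1]
      have e' : ∀ v ∈ (twoPrimes K).erase w,
          (if v ∈ S then levFactor v (Function.update k w (k w + 1) v) -
              levFactor v (Function.update k w (k w + 1) v + 1)
            else levFactor v (Function.update k w (k w + 1) v)) =
            if v ∈ S then levFactor v (k v) - levFactor v (k v + 1) else levFactor v (k v) :=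
        fun v hv => by rw [Function.update_of_ne (Finset.mem_erase.mp hv).1]
      rw [Finset.prod_congr rfl e, Finset.prod_congr rfl e']

theorem sum_levFactor (v : HeightOneSpectrum (𝓞 K)) :
    ∑ j ∈ Finset.range (twoExp v + 1), (levFactor v j - levFactor v (j + 1)) *
      (Ideal.absNorm v.asIdeal : ℝ) ^ (2 * j) = (Ideal.absNorm v.asIdeal : ℝ) ^ twoExp v := by
  have hq := absNorm_pos' v.ne_bot
  set q := (Ideal.absNorm v.asIdeal : ℝ) with hqdef
  have key : ∀ m ≤ twoExp v, ∑ j ∈ Finset.range m, (levFactor v j - levFactor v (j + 1)) *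
      q ^ (2 * j) + levFactor v m * q ^ (2 * m) = q ^ m := by
    intro m
    induction m with
    | zero => simp [levFactor]
    | succ m ih =>
      intro hm
      rw [Finset.sum_range_succ]
      have h := ih (by omega)
      have hstep : levFactor v (m + 1) * (q ^ (2 * (m + 1)) - q ^ (2 * m)) =
          q ^ (m + 1) - q ^ m := by
        rw [levFactor, if_neg (Nat.succ_ne_zero m), if_pos hm, ← hqdef]
        have h1 : q + 1 ≠ 0 := by linarith
        field_simp
        ring
      linear_combination h + hstep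
  rw [Finset.sum_range_succ]
  have h := key (twoExp v) le_rfl
  have h0 : levFactor v (twoExp v + 1) = 0 := by
    rw [levFactor, if_neg (Nat.succ_ne_zero _), if_neg (by omega)]
  rw [h0, sub_zero]
  exact h

/-- `2 ^ (-r₂) res / ζ_K (2)`. -/
def quadDensity (K : Type) [Field K] [NumberField K] : ℝ :=
  dedekindZeta_residue K / (2 ^ InfinitePlace.nrComplexPlaces K * zetaTwo K)

theorem quadDensity_pos : 0 < quadDensity K := by
  have := dedekindZeta_two (K := K)
  exact div_pos (dedekindZeta_residue_pos K) (mul_pos (by positivity) (by linarith [this.2]))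

/-- **Square classes by relative discriminant.** -/
theorem tendsto_relDisc_count :
    Tendsto (fun Y => ({q : SqClass K | relDisc q ≤ Y}.ncard : ℝ) / Y) atTop
      (𝓝 (quadDensity K)) := by
  set P := twoPrimes K
  set T : Finset (P → ℕ) := Fintype.piFinset fun v => Finset.range (twoExp v.1 + 1)
  let ex : (P → ℕ) → HeightOneSpectrum (𝓞 K) → ℕ := fun k v =>
    if h : v ∈ P then k ⟨v, h⟩ else 0
  set A : ℝ := 4 ^ finrank ℚ K
  have hA : 0 < A := by positivity
  let sc : (P → ℕ) → ℝ := fun k => (∏ v : P, (Ideal.absNorm v.1.asIdeal : ℝ) ^ (2 * k v)) / A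
  have hsc : ∀ k, 0 < sc k := fun k =>
    div_pos (Finset.prod_pos fun v _ => pow_pos (absNorm_pos' v.1.ne_bot) _) hA
  have hlim : ∀ k, Tendsto (fun Y => ((levSet P (ex k) (Y * sc k)).ncard : ℝ) / Y) atTop
      (𝓝 (baseDensity K * (∏ v : P, (levFactor v.1 (k v) - levFactor v.1 (k v + 1))) * sc k)) := by
    intro k
    have h := ((tendsto_levSet P subset_rfl (ex k)).comp
      (tendsto_id.atTop_mul_const (hsc k))).mul_const (sc k)
    refine (h.congr' ?_).trans (le_of_eq ?_)
    · filter_upwards [eventually_gt_atTop 0] with Y hY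
      have := (hsc k).ne'
      simp only [Function.comp_apply, id]
      field_simp
    · congr 2
      congr 1
      rw [← Finset.prod_coe_sort P]
      refine Finset.prod_congr rfl fun v _ => ?_
      rw [if_pos v.2]
      simp [ex]
  have hcongr : ∀ Y, ({q : SqClass K | relDisc q ≤ Y}.ncard : ℝ) =
      ∑ k ∈ T, ((levSet P (ex k) (Y * sc k)).ncard : ℝ) := by
    intro Y
    set F := (finite_relDisc_le (K := K) Y).toFinset
    rw [Set.ncard_eq_toFinset_card _ (finite_relDisc_le Y),
      Finset.card_eq_sum_card_fiberwise (f := fun q => fun v : P => lev q v.1) (t := T)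
        (fun q _ => Fintype.mem_piFinset.mpr fun v => Finset.mem_range.mpr
          (Nat.lt_succ_of_le (lev_le q v.1))), Nat.cast_sum]
    refine Finset.sum_congr rfl fun k _ => ?_
    congr 1
    rw [Set.ncard_eq_toFinset_card _ ((finite_sqf_le _).subset fun q hq => hq.2)]
    congr 1
    ext q
    simp only [Finset.mem_filter, Set.Finite.mem_toFinset, Set.mem_ofPred_eq, levSet]
    have hiff : (∀ v ∈ twoPrimes K, if v ∈ P then lev q v = ex k v else ex k v ≤ lev q v) ↔
        (fun v : P => lev q v.1) = k := by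
      refine ⟨fun h => funext fun v => ?_, fun h v hv => ?_⟩
      · simpa [ex, v.2] using h v.1 v.2
      · subst h; simp [ex, show v ∈ P from hv]
    rw [hiff]
    constructor
    · rintro ⟨h1, rfl⟩
      refine ⟨rfl, ?_⟩
      rw [relDisc, levIdeal, absNorm_prod_pow, ← Finset.prod_pow, ← Finset.prod_coe_sort,
        div_le_iff₀ (Finset.prod_pos fun v _ => pow_pos (pow_pos (absNorm_pos' v.1.ne_bot) _) 2),
        ← le_div_iff₀ hA] at h1
      refine h1.trans (le_of_eq ?_)
      simp only [sc, A, ← pow_mul, mul_comm 2, mul_div_assoc]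
      rfl
    · rintro ⟨rfl, h2⟩
      refine ⟨?_, rfl⟩
      rw [relDisc, levIdeal, absNorm_prod_pow, ← Finset.prod_pow, ← Finset.prod_coe_sort,
        div_le_iff₀ (Finset.prod_pos fun v _ => pow_pos (pow_pos (absNorm_pos' v.1.ne_bot) _) 2),
        ← le_div_iff₀ hA]
      refine h2.trans (le_of_eq ?_)
      simp only [sc, A, ← pow_mul, mul_comm 2, mul_div_assoc]
      rfl
  have h := tendsto_finsetSum T fun k _ => hlim k
  convert h using 2
  · rw [hcongr, Finset.sum_div]
  · have hprod : ∑ k ∈ T, ∏ v : P, (levFactor v.1 (k v) - levFactor v.1 (k v + 1)) *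
        (Ideal.absNorm v.1.asIdeal : ℝ) ^ (2 * k v) = 2 ^ finrank ℚ K := by
      rw [← Finset.prod_univ_sum (f := fun (v : P) j =>
        (levFactor v.1 j - levFactor v.1 (j + 1)) * (Ideal.absNorm v.1.asIdeal : ℝ) ^ (2 * j))]
      simp only [sum_levFactor]
      rw [Finset.prod_coe_sort P (fun v => (Ideal.absNorm v.asIdeal : ℝ) ^ twoExp v),
        ← absNorm_prod_pow, ← span_two_eq, absNorm_two]
      push_cast; rfl
    have e : ∀ k, baseDensity K * (∏ v : P, (levFactor v.1 (k v) - levFactor v.1 (k v + 1))) *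
        sc k = baseDensity K / A * ∏ v : P, (levFactor v.1 (k v) - levFactor v.1 (k v + 1)) *
          (Ideal.absNorm v.1.asIdeal : ℝ) ^ (2 * k v) := fun k => by
      rw [Finset.prod_mul_distrib]; simp only [sc]; ring
    rw [Finset.sum_congr rfl fun k _ => e k, ← Finset.mul_sum, hprod, quadDensity, baseDensity]
    have hn := InfinitePlace.card_add_two_mul_card_eq_rank K
    have hc := InfinitePlace.card_eq_nrRealPlaces_add_nrComplexPlaces (K := K)
    have hr : Units.rank K + 1 + InfinitePlace.nrComplexPlaces K = finrank ℚ K := by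
      have : 0 < Fintype.card (InfinitePlace K) := Fintype.card_pos
      rw [Units.rank]; omega
    have h4 : A = 2 ^ finrank ℚ K * 2 ^ finrank ℚ K := by
      simp only [A, ← mul_pow]; norm_num
    have hz := dedekindZeta_two (K := K)
    have : zetaTwo K ≠ 0 := by linarith [hz.2]
    rw [h4, ← hr, pow_add]
    field_simp
    ring

end FA.DihedralQuartic
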