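import Fermat.Agent.DihedralQuartic.Levels

/-!
# Integrality in a quadratic extension at one prime

If `U² - b X² ∈ v ^ (2 k)`, `k` the exponent of `v` in `2 b`, and `b ≡ z²` modulo `v ^ (2 j)` with
`j` as large as possible, then `U + X z` and `X w`, `w` of exponent `j`, lie in `v ^ k`.
-/

set_option autoImplicit false
set_option linter.style.haveILetI false

noncomputable section

open NumberField IsDedekindDomain Module
open FA.BrumerSilverman (expo expo_mul expo_ne_zero_iff span_singleton_ne)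
open scoped nonZeroDivisors Classical

namespace FA.DihedralQuartic

variable {K : Type} [Field K] [NumberField K] (v : HeightOneSpectrum (𝓞 K))

theorem mem_pow_iff {z : 𝓞 K} (hz : z ≠ 0) (i : ℕ) : z ∈ v.asIdeal ^ i ↔ i ≤ expo v z := by
  have hI := span_singleton_ne hz
  rw [← Ideal.dvd_span_singleton, ← Associates.mk_le_mk_iff_dvd, Associates.mk_pow,
    Associates.prime_pow_dvd_iff_le (Associates.mk_ne_zero.mpr hI) v.associates_irreducible]

/-- An element of the exact exponent. -/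
theorem exists_expo (j : ℕ) : ∃ w : 𝓞 K, w ≠ 0 ∧ expo v w = j := by
  obtain ⟨w, h1, h2⟩ := SetLike.exists_of_lt
    (Ideal.pow_succ_lt_pow (P := v.asIdeal) v.ne_bot j)
  have hw : w ≠ 0 := fun h => h2 (by rw [h]; exact zero_mem _)
  rw [mem_pow_iff v hw] at h1 h2
  exact ⟨w, hw, by omega⟩

/-- **A cofactor.** -/
theorem exists_cofactor {z : 𝓞 K} (hz : z ≠ 0) :
    ∃ r : 𝓞 K, r ∉ v.asIdeal ∧ ∀ m ∈ v.asIdeal ^ expo v z, z ∣ r * m := by
  obtain ⟨R, hR⟩ := Ideal.dvd_span_singleton.mpr ((mem_pow_iff v hz _).mpr le_rfl)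
  have hnle : ¬ R ≤ v.asIdeal := fun h => by
    have := (mem_pow_iff v hz (expo v z + 1)).mp (by
      have e : z ∈ v.asIdeal ^ expo v z * R := hR ▸ Ideal.mem_span_singleton_self z
      rw [pow_succ]
      exact Ideal.mul_mono le_rfl h e)
    omega
  obtain ⟨r, hrR, hrv⟩ := SetLike.not_le_iff_exists.mp hnle
  refine ⟨r, hrv, fun m hm => ?_⟩
  rw [← Ideal.mem_span_singleton, hR, mul_comm r]
  exact Ideal.mul_mem_mul hm hrR

omit [NumberField K] in
theorem notMem_mul {a c : 𝓞 K} (ha : a ∉ v.asIdeal) (hc : c ∉ v.asIdeal) :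
    a * c ∉ v.asIdeal := fun h => (v.isPrime.mem_or_mem h).elim ha hc

theorem expo_notMem {a : 𝓞 K} (ha : a ∉ v.asIdeal) : expo v a = 0 := by
  by_contra h
  exact ha ((expo_ne_zero_iff v (fun h0 : a = 0 => ha (by rw [h0]; exact zero_mem _))).mp h)

theorem mem_pow_of_mul {a c : 𝓞 K} {l m : ℕ} (ha0 : a ≠ 0) (hl : expo v a ≤ l)
    (h : a * c ∈ v.asIdeal ^ (l + m)) : c ∈ v.asIdeal ^ m := by
  rcases eq_or_ne c 0 with rfl | hc
  · exact zero_mem _
  rw [mem_pow_iff v (mul_ne_zero ha0 hc), expo_mul v ha0 hc] at h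
  rw [mem_pow_iff v hc]
  omega

theorem mem_or_mem_half {a c : 𝓞 K} {e : ℕ} (h : a * c ∈ v.asIdeal ^ (2 * e)) :
    a ∈ v.asIdeal ^ e ∨ c ∈ v.asIdeal ^ e := by
  rcases eq_or_ne a 0 with rfl | ha
  · exact Or.inl (zero_mem _)
  rcases eq_or_ne c 0 with rfl | hc
  · exact Or.inr (zero_mem _)
  rw [mem_pow_iff v (mul_ne_zero ha hc), expo_mul v ha hc] at h
  rw [mem_pow_iff v ha, mem_pow_iff v hc]
  omega

theorem mem_pow_of_sq {a : 𝓞 K} {i n : ℕ} (hn : 2 * i ≤ n + 1) (h : a ^ 2 ∈ v.asIdeal ^ n) :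
    a ∈ v.asIdeal ^ i := by
  rcases eq_or_ne a 0 with rfl | ha
  · exact zero_mem _
  rw [pow_two, mem_pow_iff v (mul_ne_zero ha ha), expo_mul v ha ha] at h
  rw [mem_pow_iff v ha]
  omega

/-- **At a prime of odd exponent.** -/
theorem local_odd {b U X : 𝓞 K} (hb : b ≠ 0) (hb1 : expo v b = 1) {k : ℕ}
    (h : U ^ 2 - b * X ^ 2 ∈ v.asIdeal ^ (2 * k)) :
    U ∈ v.asIdeal ^ k ∧ X ∈ v.asIdeal ^ k := by
  suffices ∀ i ≤ k, U ∈ v.asIdeal ^ i ∧ X ∈ v.asIdeal ^ i from this k le_rfl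
  intro i
  induction i with
  | zero => simp
  | succ i ih =>
    intro hi
    obtain ⟨-, hX⟩ := ih (by omega)
    have hbv : b ∈ v.asIdeal ^ 1 := (mem_pow_iff v hb 1).mpr hb1.ge
    have h1 : b * X ^ 2 ∈ v.asIdeal ^ (1 + 2 * i) := by
      rw [pow_add, pow_mul']
      exact Ideal.mul_mem_mul hbv (Ideal.pow_mem_pow hX 2)
    have hU : U ∈ v.asIdeal ^ (i + 1) := mem_pow_of_sq v (n := 1 + 2 * i) (by omega) (by
      rw [show U ^ 2 = (U ^ 2 - b * X ^ 2) + b * X ^ 2 by ring]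
      exact Ideal.add_mem _ (Ideal.pow_le_pow_right (by omega) h) h1)
    refine ⟨hU, mem_pow_of_sq v (n := 2 * i + 1) (by omega)
      (mem_pow_of_mul v hb hb1.le (m := 2 * i + 1) ?_)⟩
    rw [show b * X ^ 2 = U ^ 2 - (U ^ 2 - b * X ^ 2) by ring]
    refine Ideal.sub_mem _ ?_ (Ideal.pow_le_pow_right (by omega) h)
    rw [show 1 + (2 * i + 1) = (i + 1) * 2 by ring, pow_mul]
    exact Ideal.pow_mem_pow hU 2

/-- **At a prime not dividing `b`.** -/
theorem local_unit {b U X z : 𝓞 K} {e j : ℕ} (hje : j ≤ e) (he : (2 : 𝓞 K) ∈ v.asIdeal ^ e)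
    (hz : b - z ^ 2 ∈ v.asIdeal ^ (2 * j))
    (hmax : ∀ m, j < m → m ≤ e → ∀ z' : 𝓞 K, b - z' ^ 2 ∉ v.asIdeal ^ (2 * m))
    (h : U ^ 2 - b * X ^ 2 ∈ v.asIdeal ^ (2 * e)) :
    U + X * z ∈ v.asIdeal ^ e ∧ X ∈ v.asIdeal ^ (e - j) := by
  have hX : X ∈ v.asIdeal ^ (e - j) := by
    suffices ∀ i ≤ e - j, X ∈ v.asIdeal ^ i from this _ le_rfl
    intro i
    induction i with
    | zero => simp
    | succ i ih =>
      intro hi
      have hXi := ih (by omega)
      by_contra hXs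
      have hX0 : X ≠ 0 := fun h0 => hXs (h0 ▸ zero_mem _)
      have hex : expo v X = i := by
        rw [mem_pow_iff v hX0] at hXi hXs
        omega
      have hU : U ∈ v.asIdeal ^ i := mem_pow_of_sq v (n := 2 * i) (by omega) (by
        rw [show U ^ 2 = (U ^ 2 - b * X ^ 2) + b * X ^ 2 by ring]
        refine Ideal.add_mem _ (Ideal.pow_le_pow_right (by omega) h) (Ideal.mul_mem_left _ _ ?_)
        rw [pow_mul']
        exact Ideal.pow_mem_pow hXi 2)
      obtain ⟨r, hr, hdvd⟩ := exists_cofactor v hX0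
      rw [hex] at hdvd
      obtain ⟨m, hm⟩ := hdvd U hU
      have h1 : b * r ^ 2 - m ^ 2 ∈ v.asIdeal ^ (2 * (e - i)) := by
        refine mem_pow_of_mul v (pow_ne_zero 2 hX0) (l := 2 * i)
          (by rw [pow_two, expo_mul v hX0 hX0]; omega) ?_
        rw [show 2 * i + 2 * (e - i) = 2 * e by omega, show X ^ 2 * (b * r ^ 2 - m ^ 2) =
          -(r ^ 2 * (U ^ 2 - b * X ^ 2)) by linear_combination (r * U + X * m) * hm]
        exact Submodule.neg_mem _ (Ideal.mul_mem_left _ _ h)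
      obtain ⟨t, ht, c, hc, htc⟩ := Submodule.mem_sup.mp ((Ideal.eq_top_iff_one _).mp
        (show Ideal.span {r} ⊔ v.asIdeal ^ (2 * (e - i)) = ⊤ from Ideal.isCoprime_iff_sup_eq.mp
          (IsCoprime.pow_right (Ideal.isCoprime_iff_sup_eq.mpr
            (sup_comm (Ideal.span {r}) v.asIdeal ▸ v.isMaximal.out.2 _
              (lt_of_le_of_ne le_sup_left fun he' => hr
                ((Ideal.span_singleton_le_iff_mem _).mp (le_sup_right.trans he'.ge))))))))
      obtain ⟨r', rfl⟩ := Ideal.mem_span_singleton.mp ht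
      refine hmax (e - i) (by omega) (by omega) (m * r') ?_
      rw [show b - (m * r') ^ 2 = (b * r ^ 2 - m ^ 2) * r' ^ 2 + b * (1 + r * r') * c by
        linear_combination (-(b * (1 + r * r'))) * htc]
      exact Ideal.add_mem _ (Ideal.mul_mem_right _ _ h1) (Ideal.mul_mem_left _ _ hc)
  refine ⟨?_, hX⟩
  have h2 : 2 * X * z ∈ v.asIdeal ^ e := Ideal.mul_mem_right _ _ (Ideal.mul_mem_right _ _ he)
  rcases mem_or_mem_half v (a := U + X * z) (c := U - X * z) (e := e) (by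
    rw [show (U + X * z) * (U - X * z) = (U ^ 2 - b * X ^ 2) + X ^ 2 * (b - z ^ 2) by ring]
    refine Ideal.add_mem _ h ?_
    rw [show 2 * e = 2 * (e - j) + 2 * j by omega, pow_add, pow_mul' v.asIdeal 2 (e - j)]
    exact Ideal.mul_mem_mul (Ideal.pow_mem_pow hX 2) hz) with h' | h'
  · exact h'
  · rw [show U + X * z = (U - X * z) + 2 * X * z by ring]
    exact Ideal.add_mem _ h' h2

end FA.DihedralQuartic
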