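import Fermat.Agent.DihedralQuartic.Quartic

/-!
# The asymptotic counts

Quadratic extensions of a fixed field are its nontrivial square classes. Over a quadratic field
the classes moved by conjugation come in pairs, one for each non-Galois quartic field, and the
fixed ones are few; the sum over the quadratic fields is dominated by `|d| ^ (-9/8)`.
-/

set_option autoImplicit false
set_option linter.style.haveILetI false

noncomputable section

open NumberField Module Filter Topology
open scoped nonZeroDivisors Classical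

namespace FA.DihedralQuartic

/-- Rescaling the variable. -/
theorem tendsto_scaled {f : ℝ → ℝ} {l : ℝ} (hf : Tendsto (fun Y => f Y / Y) atTop (𝓝 l)) {c : ℝ}
    (hc : 0 < c) : Tendsto (fun X => f (X / c) / X) atTop (𝓝 (l / c)) := by
  refine ((hf.comp (tendsto_id.atTop_div_const hc)).div_const c).congr fun X => ?_
  show f (X / c) / (X / c) / c = _
  rw [div_div, div_mul_cancel₀ X hc.ne']

theorem abs_discr_eq (L : Type) [Field L] [NumberField L] :
    |(discr L : ℝ)| = ((discr L).natAbs : ℝ) := by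
  rw [Nat.cast_natAbs, Int.cast_abs]

/-! ### Quadratic extensions -/

section Extensions

variable {K : Type} [Field K] [NumberField K]

theorem tendsto_classes_ne_one :
    Tendsto (fun Y => ({q : SqClass K | q ≠ 1 ∧ relDisc q ≤ Y}.ncard : ℝ) / Y) atTop
      (𝓝 (quadDensity K)) := by
  have hlow : Tendsto (fun Y => ({q : SqClass K | relDisc q ≤ Y}.ncard : ℝ) / Y - 1 / Y) atTop
      (𝓝 (quadDensity K)) := by
    simpa using (tendsto_relDisc_count (K := K)).sub
      ((tendsto_const_nhds (x := (1 : ℝ))).div_atTop tendsto_id)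
  refine tendsto_of_tendsto_of_tendsto_of_le_of_le' hlow tendsto_relDisc_count ?_ ?_ <;>
    filter_upwards [eventually_gt_atTop (0 : ℝ)] with Y hY
  · rw [← sub_div]
    refine div_le_div_of_nonneg_right ?_ hY.le
    rw [sub_le_iff_le_add]
    have h : {q : SqClass K | relDisc q ≤ Y} ⊆ insert 1 {q | q ≠ 1 ∧ relDisc q ≤ Y} := fun q hq =>
      (em (q = 1)).imp id fun h => ⟨h, hq⟩
    exact_mod_cast (Set.ncard_le_ncard h (((finite_relDisc_le Y).subset fun q hq => hq.2).insert
      1)).trans (Set.ncard_insert_le _ _)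
  · refine div_le_div_of_nonneg_right (Nat.cast_le.mpr ?_) hY.le
    exact Set.ncard_le_ncard (fun q hq => hq.2) (finite_relDisc_le Y)

/-- **Quadratic extensions of a number field.** -/
theorem extensions_asymptotic {I : Type} (L : I → Type) [∀ i, Field (L i)]
    [∀ i, NumberField (L i)] [∀ i, Algebra K (L i)] (h2 : ∀ i, finrank K (L i) = 2)
    (hne : ∀ i j, Nonempty (L i ≃ₐ[K] L j) → i = j)
    (hall : ∀ (M : Type) [Field M] [NumberField M] [Algebra K M], finrank K M = 2 →
      ∃ i, Nonempty (M ≃ₐ[K] L i)) :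
    Tendsto (fun Y : ℝ =>
      ({i | (Ideal.absNorm (differentIdeal (𝓞 K) (𝓞 (L i))) : ℝ) ≤ Y}.ncard : ℝ) / Y) atTop
      (𝓝 (quadDensity K)) := by
  have hd : ∀ i, finrank ℚ (L i) = 2 * finrank ℚ K := fun i => by
    rw [← Module.finrank_mul_finrank ℚ K (L i), h2 i, mul_comm]
  choose q hq using fun i => exists_hasClass (algebraMap K (L i)) (hd i)
  have hinj : Function.Injective q := fun i j h => by
    obtain ⟨φ, hφ⟩ := (hq i).exists_equiv (h ▸ hq j : HasClass _ (q i))
    exact hne i j ⟨AlgEquiv.ofRingEquiv (f := φ) (RingHom.congr_fun hφ)⟩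
  refine tendsto_classes_ne_one.congr fun Y => ?_
  congr 2
  rw [← Set.ncard_image_of_injective _ hinj]
  congr 1
  ext c
  constructor
  · rintro ⟨hc, hcY⟩
    obtain ⟨M, hM, hN, ι, hι⟩ := exists_field hc
    letI := ι.toAlgebra
    obtain ⟨i, ⟨e⟩⟩ := hall M (finrank_two ι hι.1)
    have h := hι.map e.toRingEquiv
    rw [show ((e.toRingEquiv : M →+* L i).comp ι) = algebraMap K (L i) from
      RingHom.ext fun x => e.commutes x] at h
    refine ⟨i, ?_, (hq i).unique h⟩
    rw [Set.mem_ofPred_eq, h.absNorm_different]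
    exact hcY
  · rintro ⟨i, hi, rfl⟩
    exact ⟨(hq i).ne_one, ((hq i).absNorm_different).symm.trans_le hi⟩

/-- Representatives of the quadratic extensions. -/
theorem exists_extensions_system (K : Type) [Field K] [NumberField K] :
    ∃ (I : Type) (L : I → Type) (_ : ∀ i, Field (L i)) (_ : ∀ i, NumberField (L i))
      (_ : ∀ i, Algebra K (L i)), (∀ i, finrank K (L i) = 2) ∧
      (∀ i j, Nonempty (L i ≃ₐ[K] L j) → i = j) ∧
      ∀ (M : Type) [Field M] [NumberField M] [Algebra K M], finrank K M = 2 →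
        ∃ i, Nonempty (M ≃ₐ[K] L i) := by
  choose F hF hN ι hι using fun q : {q : SqClass K // q ≠ 1} => exists_field q.2
  let A := fun q => (ι q).toAlgebra
  refine ⟨_, F, hF, hN, A, fun q => finrank_two (ι q) (hι q).1, fun p q ⟨e⟩ => ?_,
    fun M _ _ _ hM => ?_⟩
  · have h := (hι p).map e.toRingEquiv
    rw [show ((e.toRingEquiv : F p →+* F q).comp (ι p)) = ι q from
      RingHom.ext fun x => e.commutes x] at h
    exact Subtype.ext (h.unique (hι q))
  · obtain ⟨c, hc⟩ := exists_hasClass (algebraMap K M)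
      (by rw [← Module.finrank_mul_finrank ℚ K M, hM, mul_comm])
    obtain ⟨φ, hφ⟩ := hc.exists_equiv (hι ⟨c, hc.ne_one⟩)
    letI := A ⟨c, hc.ne_one⟩
    exact ⟨⟨c, hc.ne_one⟩, ⟨AlgEquiv.ofRingEquiv (f := φ) (RingHom.congr_fun hφ)⟩⟩

end Extensions

/-! ### Systems of representatives -/

/-- Representatives of the number fields with an invariant property. -/
theorem exists_system (P : ∀ (F : Type) [Field F] [NumberField F], Prop)
    (hP : ∀ (F G : Type) [Field F] [NumberField F] [Field G] [NumberField G],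
      Nonempty (F ≃+* G) → P F → P G) :
    ∃ (I : Type) (L : I → Type) (_ : ∀ i, Field (L i)) (_ : ∀ i, NumberField (L i)),
      (∀ i, P (L i)) ∧ (∀ i j, Nonempty (L i ≃+* L j) → i = j) ∧
      ∀ (M : Type) [Field M] [NumberField M], P M → ∃ i, Nonempty (M ≃+* L i) := by
  let T := {R : IntermediateField ℚ ℂ // ∃ h : NumberField R, @P R _ h}
  let S : Setoid T := ⟨fun R R' => Nonempty (R.1 ≃+* R'.1),
    ⟨fun _ => ⟨RingEquiv.refl _⟩, fun ⟨e⟩ => ⟨e.symm⟩, fun ⟨e⟩ ⟨e'⟩ => ⟨e.trans e'⟩⟩⟩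
  refine ⟨Quotient S, fun i => ↥i.out.1, fun i => inferInstance, fun i => i.out.2.choose,
    fun i => i.out.2.choose_spec, fun i j h => ?_, fun M _ _ hM => ?_⟩
  · rw [← Quotient.out_eq i, ← Quotient.out_eq j]
    exact Quotient.sound h
  · obtain ⟨e⟩ : Nonempty (M →+* ℂ) := inferInstance
    let φ : M ≃+* e.toRatAlgHom.fieldRange :=
      (AlgEquiv.ofInjectiveField e.toRatAlgHom).toRingEquiv
    haveI : NumberField e.toRatAlgHom.fieldRange := NumberField.of_ringEquiv M _ φ
    let R : T := ⟨e.toRatAlgHom.fieldRange, inferInstance, hP M _ ⟨φ⟩ hM⟩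
    obtain ⟨ψ⟩ := (Quotient.mk_out R : Nonempty _)
    exact ⟨Quotient.mk S R, ⟨φ.trans ψ.symm⟩⟩

theorem hasQuad_of_hom {k L : Type} [Field k] [NumberField k] [Field L] [NumberField L]
    (hk : finrank ℚ k = 2) (ι : k →+* L) : ∃ R : IntermediateField ℚ L, finrank ℚ R = 2 :=
  ⟨ι.toRatAlgHom.fieldRange, by
    let e : k ≃ₐ[ℚ] ι.toRatAlgHom.fieldRange := AlgEquiv.ofInjectiveField ι.toRatAlgHom
    rw [← e.toLinearEquiv.finrank_eq, hk]⟩

theorem hasQuad_congr {L M : Type} [Field L] [NumberField L] [Field M] [NumberField M]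
    (e : L ≃+* M) (h : ∃ R : IntermediateField ℚ L, finrank ℚ R = 2) :
    ∃ R : IntermediateField ℚ M, finrank ℚ R = 2 := by
  obtain ⟨R, hR⟩ := h
  exact hasQuad_of_hom hR ((e : L →+* M).comp R.val.toRingHom)

theorem isGalois_congr {L M : Type} [Field L] [NumberField L] [Field M] [NumberField M]
    (e : L ≃+* M) (h : IsGalois ℚ L) : IsGalois ℚ M :=
  IsGalois.of_algEquiv e.toRatAlgEquiv

/-! ### One quadratic field -/

section Fibre

variable {k : Type} [Field k] [NumberField k] {I : Type} (L : I → Type) [∀ i, Field (L i)]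
  [∀ i, NumberField (L i)]

/-- The fields above `k`. -/
def fibre (k : Type) [Field k] [NumberField k] (X : ℝ) : Set I :=
  {i | |(discr (L i) : ℝ)| ≤ X ∧ Nonempty (k →+* L i)}

theorem relDisc_le_iff {M : Type} [Field M] [NumberField M] {ι : k →+* M} {q : SqClass k}
    (h : HasClass ι q) (X : ℝ) :
    |(discr M : ℝ)| ≤ X ↔ relDisc q ≤ X / ((discr k).natAbs : ℝ) ^ 2 := by
  rw [abs_discr_eq, h.natAbs_discr, le_div_iff₀ (pow_pos (Nat.cast_pos.mpr
    (Int.natAbs_pos.mpr (discr_ne_zero k))) 2)]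

variable (hk : finrank ℚ k = 2) (h4 : ∀ i, finrank ℚ (L i) = 4)
  (hne : ∀ i j, Nonempty (L i ≃+* L j) → i = j)

include hk in
theorem tendsto_fixed :
    Tendsto (fun Y => ((fixedSet hk Y).ncard : ℝ) / Y) atTop (𝓝 0) := by
  set V := (Nat.card (virtUnits k) : ℝ)
  set d := ((discr k).natAbs : ℝ)
  have hup : Tendsto (fun Y : ℝ => V * Real.sqrt d / Real.sqrt Y + V / Y) atTop (𝓝 0) := by
    simpa using (tendsto_const_nhds.div_atTop Real.tendsto_sqrt_atTop).add
      (tendsto_const_nhds.div_atTop tendsto_id)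
  refine squeeze_zero' ?_ ?_ hup <;> filter_upwards [eventually_gt_atTop (0 : ℝ)] with Y hY
  · exact div_nonneg (Nat.cast_nonneg _) hY.le
  · refine (div_le_div_of_nonneg_right (ncard_fixedSet_le hk hY.le) hY.le).trans (le_of_eq ?_)
    rw [Real.sqrt_mul (Nat.cast_nonneg _), mul_add, mul_one, add_div, ← mul_assoc, mul_div_assoc,
      Real.sqrt_div_self', mul_one_div]

include hk in
/-- The classes moved by conjugation. -/
theorem tendsto_moving :
    Tendsto (fun Y => ({q : SqClass k | relDisc q ≤ Y ∧ conjClass hk q ≠ q}.ncard : ℝ) / Y) atTop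
      (𝓝 (quadDensity k)) := by
  have h := (tendsto_relDisc_count (K := k)).sub (tendsto_fixed hk)
  rw [sub_zero] at h
  refine h.congr fun Y => ?_
  rw [← sub_div]
  have he : {q : SqClass k | relDisc q ≤ Y ∧ conjClass hk q ≠ q} =
      {q | relDisc q ≤ Y} \ fixedSet hk Y := by
    ext q
    exact ⟨fun h => ⟨h.1, fun h' => h.2 h'.1⟩, fun h => ⟨h.1, fun h' => h.2 ⟨h', h.1⟩⟩⟩
  rw [he, eq_comm]
  have h' := Set.ncard_sdiff_add_ncard_of_subset (s := fixedSet hk Y)
    (t := {q : SqClass k | relDisc q ≤ Y}) (fun q hq => hq.2) (finite_relDisc_le Y)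
  congr 1
  rw [← h']
  push_cast
  ring

include hk h4 hne in
/-- **The pairs of classes are the non-Galois fields.** -/
theorem two_mul_fibre (hng : ∀ i, ¬ IsGalois ℚ (L i))
    (hall : ∀ (M : Type) [Field M] [NumberField M], finrank ℚ M = 4 →
      (∃ R : IntermediateField ℚ M, finrank ℚ R = 2) → ¬ IsGalois ℚ M →
        ∃ i, Nonempty (M ≃+* L i)) (X : ℝ) :
    (fibre L k X).ncard * 2 =
      {q : SqClass k | relDisc q ≤ X / ((discr k).natAbs : ℝ) ^ 2 ∧ conjClass hk q ≠ q}.ncard := by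
  let ι := fun i : fibre L k X => i.2.2.some
  have hd : ∀ i : fibre L k X, finrank ℚ (L i.1) = 2 * finrank ℚ k := fun i => by rw [h4, hk]
  choose q hq using fun i : fibre L k X => exists_hasClass (ι i) (hd i)
  have hmv : ∀ i, conjClass hk (q i) ≠ q i := fun i h =>
    hng _ ((isGalois_iff hk (hq i)).mpr h)
  have hconj : ∀ i, HasClass ((ι i).comp (conj hk : k →+* k)) (conjClass hk (q i)) := fun i => by
    have e := (hq i).twist (conj hk)
    rwa [conj_symm] at e
  have hle := fun i : fibre L k X => (relDisc_le_iff (hq i) X).mp i.2.1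
  set T := {q : SqClass k | relDisc q ≤ X / ((discr k).natAbs : ℝ) ^ 2 ∧ conjClass hk q ≠ q}
  let Φ : fibre L k X × Bool → T := fun p => if p.2 then
      ⟨conjClass hk (q p.1), by
        refine ⟨?_, ?_⟩
        · rw [relDisc_conjClass hk (hq p.1).ne_one]
          exact hle p.1
        · rw [conjClass_conjClass]
          exact fun h => hmv p.1 h.symm⟩
    else ⟨q p.1, hle p.1, hmv p.1⟩
  have hΦ : Function.Bijective Φ := by
    constructor
    · have same : ∀ i j, q i = q j → i = j := fun i j h => by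
        obtain ⟨φ, -⟩ := (hq i).exists_equiv (h ▸ hq j : HasClass _ (q i))
        exact Subtype.ext (hne _ _ ⟨φ⟩)
      have cross : ∀ i j, q i ≠ conjClass hk (q j) := fun i j h => by
        obtain ⟨φ, -⟩ := (hq i).exists_equiv (h ▸ hconj j : HasClass _ (q i))
        obtain rfl : i = j := Subtype.ext (hne _ _ ⟨φ⟩)
        exact hmv i h.symm
      rintro ⟨i, _ | _⟩ ⟨j, _ | _⟩ h <;> replace h := congrArg Subtype.val h <;>
        simp only [Φ, Bool.false_eq_true, if_true, if_false] at h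
      · rw [same i j h]
      · exact absurd h (cross i j)
      · exact absurd h.symm (cross j i)
      · rw [same i j (by rw [← conjClass_conjClass hk (q i), h, conjClass_conjClass])]
    · rintro ⟨c, hc, hcm⟩
      obtain ⟨M, hM, hN, ψ, hψ⟩ := exists_field (q := c) (fun h => hcm (by rw [h, map_one]))
      obtain ⟨i, ⟨e⟩⟩ := hall M (by rw [hψ.1, hk]) (hasQuad_of_hom hk ψ)
        (fun h => hcm ((isGalois_iff hk hψ).mp h))
      have h := hψ.map e
      have hi : i ∈ fibre L k X := ⟨(relDisc_le_iff h X).mpr hc, ⟨(e : M →+* L i).comp ψ⟩⟩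
      rcases conj_hom hk (ι ⟨i, hi⟩) ((e : M →+* L i).comp ψ) with he | he <;> rw [he] at h
      · exact ⟨⟨⟨i, hi⟩, false⟩, Subtype.ext ((hq ⟨i, hi⟩).unique h)⟩
      · exact ⟨⟨⟨i, hi⟩, true⟩, Subtype.ext ((hconj ⟨i, hi⟩).unique h)⟩
  have h := Nat.card_congr (Equiv.ofBijective Φ hΦ)
  rwa [Nat.card_prod, Nat.card_eq_fintype_card (α := Bool), Fintype.card_bool,
    Nat.card_coe_set_eq, Nat.card_coe_set_eq] at h

include hk h4 hne in
/-- **The limit over one field.** -/
theorem tendsto_fibre (hng : ∀ i, ¬ IsGalois ℚ (L i))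
    (hall : ∀ (M : Type) [Field M] [NumberField M], finrank ℚ M = 4 →
      (∃ R : IntermediateField ℚ M, finrank ℚ R = 2) → ¬ IsGalois ℚ M →
        ∃ i, Nonempty (M ≃+* L i)) :
    Tendsto (fun X => ((fibre L k X).ncard : ℝ) / X) atTop
      (𝓝 (quadDensity k / (2 * ((discr k).natAbs : ℝ) ^ 2))) := by
  have hd : (0 : ℝ) < ((discr k).natAbs : ℝ) ^ 2 :=
    pow_pos (Nat.cast_pos.mpr (Int.natAbs_pos.mpr (discr_ne_zero k))) 2
  have h := (tendsto_scaled (tendsto_moving hk) hd).div_const 2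
  rw [div_div, mul_comm] at h
  refine h.congr fun X => ?_
  rw [← two_mul_fibre L hk h4 hne hng hall X]
  push_cast
  ring

include hk h4 hne in
/-- **The Galois fields over one field.** -/
theorem tendsto_fibre_galois (hG : ∀ i, IsGalois ℚ (L i)) :
    Tendsto (fun X => ((fibre L k X).ncard : ℝ) / X) atTop (𝓝 0) := by
  have hd : (0 : ℝ) < ((discr k).natAbs : ℝ) ^ 2 :=
    pow_pos (Nat.cast_pos.mpr (Int.natAbs_pos.mpr (discr_ne_zero k))) 2
  have hup := tendsto_scaled (tendsto_fixed hk) hd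
  rw [zero_div] at hup
  refine squeeze_zero' ?_ ?_ hup <;> filter_upwards [eventually_gt_atTop (0 : ℝ)] with X hX
  · exact div_nonneg (Nat.cast_nonneg _) hX.le
  · refine div_le_div_of_nonneg_right (Nat.cast_le.mpr ?_) hX.le
    let ι := fun i : fibre L k X => i.2.2.some
    choose q hq using fun i : fibre L k X => exists_hasClass (ι i) (by rw [h4, hk])
    have hmem : ∀ i, q i ∈ fixedSet hk (X / ((discr k).natAbs : ℝ) ^ 2) := fun i =>
      ⟨(isGalois_iff hk (hq i)).mp (hG _), (relDisc_le_iff (hq i) X).mp i.2.1⟩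
    haveI : Finite (fixedSet hk (X / ((discr k).natAbs : ℝ) ^ 2)) :=
      ((finite_relDisc_le _).subset fun c hc => hc.2).to_subtype
    rw [← Nat.card_coe_set_eq, ← Nat.card_coe_set_eq]
    refine Nat.card_le_card_of_injective (fun i => ⟨q i, hmem i⟩) fun i j h => ?_
    have h' : q i = q j := congrArg Subtype.val h
    obtain ⟨φ, -⟩ := (hq i).exists_equiv (h' ▸ hq j : HasClass _ (q i))
    exact Subtype.ext (hne _ _ ⟨φ⟩)

end Fibre

/-! ### The sum over the quadratic fields -/

section Sum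

variable {J : Type} (k : J → Type) [∀ j, Field (k j)] [∀ j, NumberField (k j)]
  (hk2 : ∀ j, finrank ℚ (k j) = 2) (hkne : ∀ j j', Nonempty (k j ≃+* k j') → j = j')
  (hkall : ∀ (F : Type) [Field F] [NumberField F], finrank ℚ F = 2 →
    ∃ j, Nonempty (F ≃+* k j))
  {I : Type} (L : I → Type) [∀ i, Field (L i)] [∀ i, NumberField (L i)]
  (h4 : ∀ i, finrank ℚ (L i) = 4)
  (hquad : ∀ i, ∃ R : IntermediateField ℚ (L i), finrank ℚ R = 2)
  (hne : ∀ i j, Nonempty (L i ≃+* L j) → i = j)

omit [∀ j, NumberField (k j)] in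
include hkall in
theorem exists_index {M : Type} [Field M] [NumberField M]
    (h : ∃ R : IntermediateField ℚ M, finrank ℚ R = 2) : ∃ j, Nonempty (k j →+* M) := by
  obtain ⟨R, hR⟩ := h
  obtain ⟨j, ⟨e⟩⟩ := hkall R hR
  exact ⟨j, ⟨(R.val : R →+* M).comp (e.symm : k j →+* R)⟩⟩

include h4 hquad hne in
theorem finite_bounded (X : ℝ) : {i | |(discr (L i) : ℝ)| ≤ X}.Finite := by
  obtain ⟨C, -, hC⟩ := FA.QuarticFieldsCount.exists_quartic_bound
  rcases le_or_gt 0 X with hX | hX
  · exact Set.finite_coe_iff.mp (hC X hX {i // |(discr (L i) : ℝ)| ≤ X} (fun i => L i.1)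
      (fun i => h4 i.1) (fun i => hquad i.1) (fun i => i.2)
      fun i j h => Subtype.ext (hne _ _ h)).1
  · convert Set.finite_empty
    exact Set.eq_empty_of_forall_notMem fun i hi => absurd hi (by
      simpa using hX.trans_le (abs_nonneg _))

include hk2 hkne h4 hne in
/-- **Domination.** -/
theorem exists_dominant : ∃ b : J → ℝ, Summable b ∧ ∀ X : ℝ, 0 < X → ∀ j,
    ((fibre L (k j) X).ncard : ℝ) / X ≤ b j := by
  obtain ⟨C, hC, hfib⟩ := FA.QuarticFieldsCount.exists_fibre_bound
  have hinj : Function.Injective fun j => discr (k j) := fun j j' h =>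
    hkne j j' (FA.QuarticFieldsCount.iso_of_discr_eq (hk2 j) (hk2 j') h)
  refine ⟨fun j => C * |((discr (k j) : ℤ) : ℝ)| ^ (-(9 / 8) : ℝ),
    ((Real.summable_abs_int_rpow (show (1 : ℝ) < 9 / 8 by norm_num)).comp_injective hinj).mul_left
      C,
    fun X hX j => ?_⟩
  obtain ⟨-, h⟩ := hfib (k j) (hk2 j) ⌊X⌋₊ (fibre L (k j) X) (fun i => L i.1) (fun i => h4 i.1)
    (fun i => i.2.2) (fun i => Nat.le_floor (by rw [← abs_discr_eq]; exact i.2.1))
    fun i j' e => Subtype.ext (hne _ _ e)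
  rw [Nat.card_coe_set_eq] at h
  rw [div_le_iff₀ hX]
  exact h.trans (mul_le_mul_of_nonneg_left (Nat.floor_le hX.le)
    (mul_nonneg hC (Real.rpow_nonneg (abs_nonneg _) _)))

include hk2 hkne hkall h4 hquad hne in
/-- **The non-Galois quartic fields with a quadratic subfield.** -/
theorem quartic_asymptotic (hng : ∀ i, ¬ IsGalois ℚ (L i))
    (hall : ∀ (M : Type) [Field M] [NumberField M], finrank ℚ M = 4 →
      (∃ R : IntermediateField ℚ M, finrank ℚ R = 2) → ¬ IsGalois ℚ M →
        ∃ i, Nonempty (M ≃+* L i)) :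
    Summable (fun j => quadDensity (k j) / (2 * ((discr (k j)).natAbs : ℝ) ^ 2)) ∧
      (0 : ℝ) < ∑' j, quadDensity (k j) / (2 * ((discr (k j)).natAbs : ℝ) ^ 2) ∧
      Tendsto (fun X : ℝ => ({i | |(discr (L i) : ℝ)| ≤ X}.ncard : ℝ) / X) atTop
        (𝓝 (∑' j, quadDensity (k j) / (2 * ((discr (k j)).natAbs : ℝ) ^ 2))) := by
  obtain ⟨b, hb, hle⟩ := exists_dominant k hk2 hkne L h4 hne
  set g := fun j => quadDensity (k j) / (2 * ((discr (k j)).natAbs : ℝ) ^ 2)
  have hlim : ∀ j, Tendsto (fun X => ((fibre L (k j) X).ncard : ℝ) / X) atTop (𝓝 (g j)) :=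
    fun j => tendsto_fibre L (hk2 j) h4 hne hng hall
  have hpos : ∀ j, 0 < g j := fun j => div_pos quadDensity_pos (mul_pos two_pos
    (pow_pos (Nat.cast_pos.mpr (Int.natAbs_pos.mpr (discr_ne_zero _))) 2))
  have hg : Summable g := Summable.of_nonneg_of_le (fun j => (hpos j).le) (fun j =>
    le_of_tendsto (hlim j) ((eventually_gt_atTop 0).mono fun X hX => hle X hX j)) hb
  have hJ : Nonempty J := by
    obtain ⟨F, hF, hN, hA, h2, -⟩ :=
      FA.QuarticLower.exists_sqrt_field (K := ℚ) (α := 2) (by norm_num)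
    rw [Subsingleton.elim hA DivisionRing.toRatAlgebra] at h2
    exact ⟨(hkall F h2).choose⟩
  refine ⟨hg, hg.tsum_pos (fun j => (hpos j).le) hJ.some (hpos _), ?_⟩
  refine (tendsto_tsum_of_dominated_convergence hb hlim ((eventually_gt_atTop 0).mono
    fun X hX j => ?_)).congr' ((eventually_gt_atTop 0).mono fun X hX => ?_)
  · rw [Real.norm_of_nonneg (div_nonneg (Nat.cast_nonneg _) hX.le)]
    exact hle X hX j
  · show (∑' j, ((fibre L (k j) X).ncard : ℝ) / X) =
      ({i | |(discr (L i) : ℝ)| ≤ X}.ncard : ℝ) / X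
    choose f hf using fun i => exists_index k hkall (hquad i)
    have huniq : ∀ i j, Nonempty (k j →+* L i) → f i = j := fun i j ⟨ψ⟩ =>
      hkne _ _ (FA.QuarticFieldsCount.iso_of_discr_eq (hk2 _) (hk2 j)
        (discr_eq_of_not_galois (hk2 _) (hk2 j) (h4 i) (hng i) (hf i).some ψ))
    set S := (finite_bounded L h4 hquad hne X).toFinset
    have hA : ∀ j, (fibre L (k j) X).ncard = (S.filter fun i => f i = j).card := fun j => by
      rw [← Set.ncard_coe_finset]
      congr 1
      ext i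
      simp only [S, Finset.coe_filter, Set.Finite.mem_toFinset, Set.mem_ofPred_eq]
      exact ⟨fun h => ⟨h.1, huniq i j h.2⟩, fun h => ⟨h.1, h.2 ▸ hf i⟩⟩
    rw [tsum_div_const, Set.ncard_eq_toFinset_card _ (finite_bounded L h4 hquad hne X),
      tsum_eq_sum (s := S.image f) fun j hj => ?_]
    · rw [Finset.card_eq_sum_card_image f S, Nat.cast_sum]
      simp only [hA]
    · rw [Nat.cast_eq_zero, hA, Finset.card_eq_zero, Finset.filter_eq_empty_iff]
      exact fun i hi h => hj (Finset.mem_image.mpr ⟨i, hi, h⟩)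

include h4 hquad hne in
/-- **The Galois fields are negligible.** -/
theorem galois_negligible (hG : ∀ i, IsGalois ℚ (L i)) :
    Tendsto (fun X : ℝ => ({i | |(discr (L i) : ℝ)| ≤ X}.ncard : ℝ) / X) atTop (𝓝 0) := by
  obtain ⟨J, k, _, _, hk2, hkne, hkall⟩ := exists_system (fun F _ _ => finrank ℚ F = 2)
    fun F G _ _ _ _ ⟨e⟩ h => e.toRatAlgEquiv.toLinearEquiv.finrank_eq.symm.trans h
  obtain ⟨b, hb, hle⟩ := exists_dominant k hk2 hkne L h4 hne
  have hup : Tendsto (fun X => ∑' j, ((fibre L (k j) X).ncard : ℝ) / X) atTop (𝓝 (0 : ℝ)) := by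
    simpa using tendsto_tsum_of_dominated_convergence (g := fun _ => (0 : ℝ)) hb
      (fun j => tendsto_fibre_galois L (hk2 j) h4 hne hG) ((eventually_gt_atTop 0).mono
        fun X hX j => by
          rw [Real.norm_of_nonneg (div_nonneg (Nat.cast_nonneg _) hX.le)]
          exact hle X hX j)
  refine squeeze_zero' ?_ ?_ hup <;> filter_upwards [eventually_gt_atTop (0 : ℝ)] with X hX
  · exact div_nonneg (Nat.cast_nonneg _) hX.le
  · choose f hf using fun i => exists_index k hkall (hquad i)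
    have hsum : Summable fun j => ((fibre L (k j) X).ncard : ℝ) / X :=
      Summable.of_nonneg_of_le (fun j => div_nonneg (Nat.cast_nonneg _) hX.le) (hle X hX) hb
    set S := (finite_bounded L h4 hquad hne X).toFinset
    rw [Set.ncard_eq_toFinset_card _ (finite_bounded L h4 hquad hne X),
      Finset.card_eq_sum_card_image f S, Nat.cast_sum, Finset.sum_div]
    refine (Finset.sum_le_sum fun j _ => ?_).trans
      (hsum.sum_le_tsum _ fun j _ => div_nonneg (Nat.cast_nonneg _) hX.le)
    refine div_le_div_of_nonneg_right (Nat.cast_le.mpr ?_) hX.le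
    rw [← Set.ncard_coe_finset]
    refine Set.ncard_le_ncard (fun i hi => ?_)
      ((finite_bounded L h4 hquad hne X).subset fun i hi => hi.1)
    simp only [S, Finset.coe_filter, Set.Finite.mem_toFinset, Set.mem_ofPred_eq] at hi
    exact ⟨hi.1, hi.2 ▸ hf i⟩

include hk2 hkne hkall h4 hquad hne in
/-- **All quartic fields with a quadratic subfield.** -/
theorem quartic_all_asymptotic
    (hall : ∀ (M : Type) [Field M] [NumberField M], finrank ℚ M = 4 →
      (∃ R : IntermediateField ℚ M, finrank ℚ R = 2) → ∃ i, Nonempty (M ≃+* L i)) :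
    Tendsto (fun X : ℝ => ({i | |(discr (L i) : ℝ)| ≤ X}.ncard : ℝ) / X) atTop
      (𝓝 (∑' j, quadDensity (k j) / (2 * ((discr (k j)).natAbs : ℝ) ^ 2))) := by
  have h1 := (quartic_asymptotic k hk2 hkne hkall (fun i : {i // ¬ IsGalois ℚ (L i)} => L i.1)
    (fun i => h4 i.1) (fun i => hquad i.1) (fun i j e => Subtype.ext (hne _ _ e)) (fun i => i.2)
    fun M _ _ hM hR hMG => by
      obtain ⟨i, ⟨e⟩⟩ := hall M hM hR
      exact ⟨⟨i, fun h => hMG (isGalois_congr e.symm h)⟩, ⟨e⟩⟩).2.2
  have h2 := galois_negligible (fun i : {i // IsGalois ℚ (L i)} => L i.1)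
    (fun i => h4 i.1) (fun i => hquad i.1) (fun i j e => Subtype.ext (hne _ _ e)) (fun i => i.2)
  have h := h1.add h2
  rw [add_zero] at h
  refine h.congr fun X => ?_
  rw [← add_div]
  congr 1
  set S := {i | |(discr (L i) : ℝ)| ≤ X}
  have e : ∀ P : I → Prop,
      ({i : {i // P i} | |(discr (L i.1) : ℝ)| ≤ X}.ncard) = (S ∩ {i | P i}).ncard := fun P => by
    rw [← Set.ncard_image_of_injective _ Subtype.val_injective]
    congr 1
    ext i
    exact ⟨fun ⟨a, ha, e⟩ => e ▸ ⟨ha, a.2⟩, fun h => ⟨⟨i, h.2⟩, h.1, rfl⟩⟩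
  rw [e, e, add_comm, ← Nat.cast_add]
  exact congrArg Nat.cast (Set.ncard_inter_add_ncard_sdiff_eq_ncard S {i | IsGalois ℚ (L i)}
    (finite_bounded L h4 hquad hne X))

end Sum

end FA.DihedralQuartic
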