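import Fermat.Agent.DihedralQuartic.Invariant

/-!
# Quartic fields with a quadratic subfield

Over a quadratic field the extension of class `q` is Galois over `ℚ` exactly when conjugation fixes
`q`; a quartic field that is not Galois has at most one quadratic subfield.
-/

set_option autoImplicit false
set_option linter.style.haveILetI false

noncomputable section

open NumberField Module
open scoped nonZeroDivisors Classical

namespace FA.DihedralQuartic

variable {k : Type} [Field k] [NumberField k] {L : Type} [Field L] [NumberField L]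

/-- **Galois exactly when the class is fixed.** -/
theorem isGalois_iff (hk : finrank ℚ k = 2) {ι : k →+* L} {q : SqClass k} (h : HasClass ι q) :
    IsGalois ℚ L ↔ conjClass hk q = q := by
  have ht : HasClass (ι.comp (conj hk : k →+* k)) (conjClass hk q) := by
    have e := h.twist (conj hk)
    rwa [conj_symm] at e
  constructor
  · intro hG
    letI := ι.toAlgebra
    let χ : k ≃ₐ[ℚ] k := (conj hk).toRatAlgEquiv
    have hΦ : ((χ.liftNormal L).toRingEquiv : L →+* L).comp ι = ι.comp (conj hk : k →+* k) :=
      RingHom.ext fun x => χ.liftNormal_commutes L x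
    have h2 := h.map (χ.liftNormal L).toRingEquiv
    rw [hΦ] at h2
    exact ht.unique h2
  · intro hq
    rw [hq] at ht
    obtain ⟨φ, hφ⟩ := h.exists_equiv ht
    obtain ⟨hd, b, y, -, hy, hyb⟩ := h
    have hny : -y ∉ Set.range ι := fun ⟨x, hx⟩ => hy ⟨-x, by rw [map_neg, hx, neg_neg]⟩
    obtain ⟨τ, hτ, hτy⟩ :=
      exists_equiv_of_roots hd hd hy hny hyb (show (-y) ^ 2 = _ by rw [neg_sq]; exact hyb)
    have hy0 : y ≠ 0 := fun h0 => hy ⟨0, by rw [map_zero, h0]⟩
    obtain ⟨x, hx⟩ : ∃ x, conj hk x ≠ x := by
      by_contra hcon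
      push Not at hcon
      exact conj_ne hk (RingHom.ext hcon)
    have hφx : φ (ι x) = ι (conj hk x) := RingHom.congr_fun hφ x
    have hτx : τ (ι x) = ι x := RingHom.congr_fun hτ x
    have hne : ι (conj hk x) ≠ ι x := fun e => hx (ι.injective e)
    have hτ1 : τ.toRatAlgEquiv ≠ 1 := fun e => hy0 (by
      have h' : τ y = y := AlgEquiv.congr_fun e y
      rw [hτy] at h'
      exact CharZero.eq_neg_self_iff.mp h'.symm)
    have hcard : finrank ℚ L = 4 := by rw [hd, hk]
    refine IsGalois.of_card_aut_eq_finrank ℚ L (le_antisymm ?_ ?_)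
    · rw [Nat.card_eq_fintype_card]; exact AlgEquiv.card_le
    · rw [hcard, Nat.card_eq_fintype_card]
      have hs : ({1, τ.toRatAlgEquiv, φ.toRatAlgEquiv,
          φ.toRatAlgEquiv * τ.toRatAlgEquiv} : Finset (L ≃ₐ[ℚ] L)).card = 4 := by
        rw [Finset.card_insert_of_notMem, Finset.card_insert_of_notMem,
          Finset.card_insert_of_notMem, Finset.card_singleton]
        · simp only [Finset.mem_singleton]
          exact fun e => hτ1 (mul_left_cancel (e.symm.trans (mul_one φ.toRatAlgEquiv).symm))
        · simp only [Finset.mem_insert, Finset.mem_singleton, not_or]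
          constructor <;> intro e
          · have e' : τ (ι x) = φ (ι x) := AlgEquiv.congr_fun e (ι x)
            exact hne (by rw [← hφx, ← e', hτx])
          · have e' : τ (ι x) = φ (τ (ι x)) := AlgEquiv.congr_fun e (ι x)
            rw [hτx, hφx] at e'
            exact hne e'.symm
        · simp only [Finset.mem_insert, Finset.mem_singleton, not_or]
          refine ⟨fun e => hτ1 e.symm, fun e => ?_, fun e => ?_⟩
          · have e' : ι x = φ (ι x) := AlgEquiv.congr_fun e (ι x)
            rw [hφx] at e'
            exact hne e'.symm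
          · have e' : ι x = φ (τ (ι x)) := AlgEquiv.congr_fun e (ι x)
            rw [hτx, hφx] at e'
            exact hne e'.symm
      exact hs.symm.le.trans (Finset.card_le_univ _)

theorem isGalois_of_sup {F E : Type} [Field F] [CharZero F] [Field E] [Algebra F E]
    (A B : IntermediateField F E) (hA : finrank F A = 2) (hB : finrank F B = 2)
    (h : A ⊔ B = ⊤) : IsGalois F E := by
  haveI : Algebra.IsQuadraticExtension F A := ⟨hA⟩
  haveI : Algebra.IsQuadraticExtension F B := ⟨hB⟩
  haveI : FiniteDimensional F A := FiniteDimensional.of_finrank_eq_succ hA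
  haveI : FiniteDimensional F B := FiniteDimensional.of_finrank_eq_succ hB
  haveI : Normal F (A ⊔ B : IntermediateField F E) := inferInstance
  rw [h] at this
  haveI : Normal F E := Normal.of_algEquiv IntermediateField.topEquiv
  exact ⟨⟩

/-- **A single quadratic subfield.** -/
theorem discr_eq_of_not_galois {k' : Type} [Field k'] [NumberField k'] (hk : finrank ℚ k = 2)
    (hk' : finrank ℚ k' = 2) (h4 : finrank ℚ L = 4) (hL : ¬ IsGalois ℚ L) (ι : k →+* L)
    (ι' : k' →+* L) : discr k = discr k' := by
  set K₁ := ι.toRatAlgHom.fieldRange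
  set K₂ := ι'.toRatAlgHom.fieldRange
  let e₁ : k ≃ₐ[ℚ] K₁ := AlgEquiv.ofInjectiveField ι.toRatAlgHom
  let e₂ : k' ≃ₐ[ℚ] K₂ := AlgEquiv.ofInjectiveField ι'.toRatAlgHom
  have h₁ : finrank ℚ K₁ = 2 := by rw [← e₁.toLinearEquiv.finrank_eq, hk]
  have h₂ : finrank ℚ K₂ = 2 := by rw [← e₂.toLinearEquiv.finrank_eq, hk']
  have hKK : K₁ = K₂ := by
    by_contra hne
    apply hL
    have htop : K₁ ⊔ K₂ = ⊤ := by
      have hle : K₁ ≤ K₁ ⊔ K₂ := le_sup_left
      have hd₁ := IntermediateField.finrank_dvd_of_le_right hle
      have hd₂ := IntermediateField.finrank_dvd_of_le_right (le_top : K₁ ⊔ K₂ ≤ ⊤)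
      rw [IntermediateField.finrank_top', h4] at hd₂
      have hlt : finrank ℚ K₁ < finrank ℚ (K₁ ⊔ K₂ : IntermediateField ℚ L) := by
        refine lt_of_le_of_ne (Nat.le_of_dvd finrank_pos hd₁) fun h => hne ?_
        have h' := IntermediateField.eq_of_le_of_finrank_eq hle h
        exact (IntermediateField.eq_of_le_of_finrank_eq (h' ▸ le_sup_right) (h₂.trans h₁.symm)).symm
      refine IntermediateField.eq_of_le_of_finrank_eq le_top ?_
      rw [IntermediateField.finrank_top', h4]
      rw [h₁] at hlt
      have := Nat.le_of_dvd (by norm_num) hd₂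
      interval_cases hm : finrank ℚ (K₁ ⊔ K₂ : IntermediateField ℚ L)
      · norm_num at hd₂
      · rfl
    exact isGalois_of_sup K₁ K₂ h₁ h₂ htop
  have e₁' := NumberField.discr_eq_discr_of_algEquiv k e₁
  rw [e₁', NumberField.discr_eq_discr_of_algEquiv k' e₂]
  exact NumberField.discr_eq_discr_of_algEquiv _ (IntermediateField.equivOfEq hKK)

end FA.DihedralQuartic
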