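import Fermat.Agent.DihedralQuartic.SquarefreeSeries

/-!
# Square classes of a number field

A class of `Kˣ / Kˣ²` has a squarefree ideal, the primes of odd exponent; the classes with trivial
ideal are `2 ^ (r₁ + r₂) · #Cl[2]` in number.
-/

set_option autoImplicit false
set_option linter.style.haveILetI false

noncomputable section

open NumberField Module FA.Hecke
open scoped nonZeroDivisors Classical

namespace FA.DihedralQuartic

variable {K : Type} [Field K] [NumberField K]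

/-- `Kˣ / Kˣ²`. -/
abbrev SqClass (K : Type) [Field K] : Type := Kˣ ⧸ (powMonoidHom 2 : Kˣ →* Kˣ).range

omit [NumberField K] in
theorem sqClass_mul_self (q : SqClass K) : q * q = 1 := by
  obtain ⟨x, rfl⟩ := QuotientGroup.mk'_surjective _ q
  rw [← map_mul, QuotientGroup.mk'_apply]
  exact (QuotientGroup.eq_one_iff _).mpr ⟨x, by simp [pow_two]⟩

omit [NumberField K] in
theorem sqClass_inv (q : SqClass K) : q⁻¹ = q := inv_eq_of_mul_eq_one_right (sqClass_mul_self q)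

/-- A nonzero integer as a unit of the field. -/
def fieldUnit : (𝓞 K)⁰ →* Kˣ where
  toFun b := Units.mk0 (b.1 : K)
    (RingOfIntegers.coe_ne_zero_iff.mpr (nonZeroDivisors.coe_ne_zero b))
  map_one' := Units.ext (by simp)
  map_mul' b b' := Units.ext (by simp)

/-- The square class of an integer. -/
def sqc : (𝓞 K)⁰ →* SqClass K := (QuotientGroup.mk' _).comp fieldUnit

theorem sqc_surjective : Function.Surjective (sqc (K := K)) := by
  intro q
  obtain ⟨x, rfl⟩ := QuotientGroup.mk'_surjective _ q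
  obtain ⟨a, s, hs, hx⟩ := IsFractionRing.div_surjective (A := 𝓞 K) (x : K)
  have hs0 : (s : K) ≠ 0 := RingOfIntegers.coe_ne_zero_iff.mpr (nonZeroDivisors.ne_zero hs)
  have ha : a ≠ 0 := by rintro rfl; exact x.ne_zero (by simp [← hx])
  refine ⟨⟨a * s, mem_nonZeroDivisors_of_ne_zero (mul_ne_zero ha (nonZeroDivisors.ne_zero hs))⟩, ?_⟩
  rw [sqc, MonoidHom.comp_apply, QuotientGroup.mk'_apply, QuotientGroup.mk'_apply,
    QuotientGroup.eq]
  refine ⟨Units.mk0 ((s : K)⁻¹) (inv_ne_zero hs0), Units.ext ?_⟩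
  have haK : (a : K) ≠ 0 := RingOfIntegers.coe_ne_zero_iff.mpr ha
  simp only [powMonoidHom_apply, Units.val_pow_eq_pow_val, Units.val_mk0, Units.val_mul,
    Units.val_inv_eq_inv_val, fieldUnit, MonoidHom.coe_mk, OneHom.coe_mk]
  rw [show (x : K) = (a : K) / (s : K) from hx.symm,
    show ((a * s : 𝓞 K) : K) = (a : K) * (s : K) by push_cast; rfl]
  field_simp

omit [NumberField K] in
/-- **Integers of one square class multiply to a square.** -/
theorem sqc_eq_iff {b b' : (𝓞 K)⁰} : sqc b = sqc b' ↔ ∃ r : 𝓞 K, b.1 * b'.1 = r ^ 2 := by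
  constructor
  · intro h
    have h1 : sqc (b * b') = 1 := by rw [map_mul, h, sqClass_mul_self]
    obtain ⟨w, hw⟩ := (QuotientGroup.eq_one_iff _).mp h1
    have hw' : (w : K) ^ 2 = ((b * b' : (𝓞 K)⁰).1 : K) := congrArg Units.val hw
    refine ⟨⟨(w : K), IsIntegral.of_pow two_pos (hw' ▸ RingOfIntegers.isIntegral_coe _)⟩,
      RingOfIntegers.ext ?_⟩
    exact hw'.symm
  · rintro ⟨r, hr⟩
    have hr0 : r ≠ 0 := fun h0 => mul_ne_zero (nonZeroDivisors.coe_ne_zero b)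
      (nonZeroDivisors.coe_ne_zero b') (by rw [hr, h0, zero_pow two_ne_zero])
    have h1 : sqc b * sqc b' = 1 := by
      rw [← map_mul, show b * b' = ⟨r, mem_nonZeroDivisors_of_ne_zero hr0⟩ ^ 2 from
        Subtype.ext (by simp [hr]), map_pow, pow_two, sqClass_mul_self]
    rw [eq_comm, ← sqClass_inv (sqc b)]
    exact (inv_eq_of_mul_eq_one_right h1).symm

omit [NumberField K] in
/-- The class is unchanged by a square factor. -/
theorem sqc_mul_sq (b g : (𝓞 K)⁰) : sqc (b * g ^ 2) = sqc b := by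
  rw [map_mul, map_pow, pow_two, sqClass_mul_self (sqc g)]
  exact MulOneClass.mul_one (sqc b)

omit [NumberField K] in
theorem span_ne_bot (b : (𝓞 K)⁰) : Ideal.span {b.1} ≠ ⊥ := by
  simp [nonZeroDivisors.coe_ne_zero b]

theorem exists_sqf (q : SqClass K) : ∃ (J : SqfIdeal K) (b : (𝓞 K)⁰) (G : Ideal (𝓞 K)),
    G ≠ ⊥ ∧ sqc b = q ∧ Ideal.span {b.1} = J.1.1 * G ^ 2 := by
  obtain ⟨b, rfl⟩ := sqc_surjective q
  obtain ⟨J, G, hJ, hG, hsq, h⟩ :=
    FA.QuarticLower.exists_squarefree_mul_sq _ (span_ne_bot b)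
  exact ⟨⟨⟨J, mem_nonZeroDivisors_of_ne_zero hJ⟩, hsq⟩, b, G, hG, rfl, h⟩

/-- The primes of odd exponent, as a squarefree ideal. -/
def sqf (q : SqClass K) : SqfIdeal K := (exists_sqf q).choose

theorem sqf_eq {q : SqClass K} {b : (𝓞 K)⁰} {J : Ideal (𝓞 K)} {G : Ideal (𝓞 K)}
    (hq : sqc b = q) (hJ : Squarefree J) (h : Ideal.span {b.1} = J * G ^ 2) :
    (sqf q).1.1 = J := by
  obtain ⟨b', G', hG', hq', h'⟩ := (exists_sqf q).choose_spec
  obtain ⟨r, hr⟩ := sqc_eq_iff.mp (hq.trans hq'.symm)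
  have hb := span_ne_bot b
  rw [h] at hb
  have hJ0 : J ≠ ⊥ := left_ne_zero_of_mul hb
  have hG : G ≠ ⊥ := fun e => right_ne_zero_of_mul hb (by rw [e]; simp)
  have hJ'0 : (sqf q).1.1 ≠ ⊥ := nonZeroDivisors.coe_ne_zero _
  have hr0 : Ideal.span {r} ≠ ⊥ := fun e => by
    rw [Ideal.span_singleton_eq_bot] at e
    rw [e, zero_pow two_ne_zero] at hr
    exact mul_ne_zero (nonZeroDivisors.coe_ne_zero b) (nonZeroDivisors.coe_ne_zero b') hr
  -- `J (J' G G') ^ 2 = J' (r) ^ 2`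
  refine (FA.QuarticLower.eq_of_squarefree hJ (sqf q).2 hJ0 hJ'0
    (G := (sqf q).1.1 * G * G') (G' := Ideal.span {r})
    (mul_ne_zero (mul_ne_zero hJ'0 hG) hG') hr0 ?_).symm
  rw [Ideal.span_singleton_pow, ← hr, ← Ideal.span_singleton_mul_span_singleton, h, h']
  show J * ((sqf q).1.1 * G * G') ^ 2 = (sqf q).1.1 * (J * G ^ 2 * ((sqf q).1.1 * G' ^ 2))
  ring

/-- **A representative with the square part prime to a given ideal.** -/
theorem exists_rep (q : SqClass K) {c : Ideal (𝓞 K)} (hc : c ≠ ⊥) :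
    ∃ (b : (𝓞 K)⁰) (G : (Ideal (𝓞 K))⁰), sqc b = q ∧ G.1 ⊔ c = ⊤ ∧
      Ideal.span {b.1} = (sqf q).1.1 * G.1 ^ 2 := by
  obtain ⟨J, b₀, G₀, hG₀, hq, h⟩ := exists_sqf q
  have e : (sqf q).1.1 = J.1.1 := sqf_eq hq J.2 h
  set G₀' : (Ideal (𝓞 K))⁰ := ⟨G₀, mem_nonZeroDivisors_of_ne_zero hG₀⟩
  obtain ⟨G, hG, hGc⟩ := exists_coprime_class hc (ClassGroup.mk0 G₀')⁻¹
  rw [inv_inv] at hG
  obtain ⟨x, y, hx, hy, hxy⟩ := ClassGroup.mk0_eq_mk0_iff.mp hG.symm
  have e2 : Ideal.span {b₀.1 * x ^ 2} = Ideal.span {y ^ 2} * (J.1.1 * G.1 ^ 2) := by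
    rw [← Ideal.span_singleton_mul_span_singleton, ← Ideal.span_singleton_pow, h, mul_assoc,
      ← mul_pow, mul_comm G₀, show Ideal.span {x} * G₀ = Ideal.span {y} * G.1 from hxy, mul_pow,
      ← Ideal.span_singleton_pow, mul_left_comm]
  obtain ⟨b, hb⟩ := Ideal.span_singleton_le_span_singleton.mp
    (e2.le.trans Ideal.mul_le_left : Ideal.span {b₀.1 * x ^ 2} ≤ Ideal.span {y ^ 2})
  have hb0 : b ≠ 0 := fun h0 => mul_ne_zero (nonZeroDivisors.coe_ne_zero b₀)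
    (pow_ne_zero 2 hx) (by rw [hb, h0, mul_zero])
  refine ⟨⟨b, mem_nonZeroDivisors_of_ne_zero hb0⟩, G, ?_, hGc, ?_⟩
  · set b' : (𝓞 K)⁰ := ⟨b, mem_nonZeroDivisors_of_ne_zero hb0⟩
    set y' : (𝓞 K)⁰ := ⟨y, mem_nonZeroDivisors_of_ne_zero hy⟩
    set x' : (𝓞 K)⁰ := ⟨x, mem_nonZeroDivisors_of_ne_zero hx⟩
    rw [← hq, ← sqc_mul_sq b' y', ← sqc_mul_sq b₀ x',
      show b₀ * x' ^ 2 = b' * y' ^ 2 from Subtype.ext (by
        show b₀.1 * x ^ 2 = b * y ^ 2
        rw [hb, mul_comm])]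
  · rw [e]
    show Ideal.span {b} = _
    refine mul_left_cancel₀ (show Ideal.span {y ^ 2} ≠ (0 : Ideal (𝓞 K)) by simp [hy]) ?_
    rw [← e2, hb, Ideal.span_singleton_mul_span_singleton]

/-- The virtual units: classes of trivial squarefree part. -/
def virtUnits (K : Type) [Field K] [NumberField K] : Subgroup (SqClass K) where
  carrier := {q | ∃ (b : (𝓞 K)⁰) (G : (Ideal (𝓞 K))⁰), sqc b = q ∧ Ideal.span {b.1} = G.1 ^ 2}
  one_mem' := ⟨1, 1, map_one _, by simp [← Ideal.one_eq_top]⟩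
  mul_mem' := fun {q q'} ⟨b, G, hb, hG⟩ ⟨b', G', hb', hG'⟩ =>
    ⟨b * b', G * G', by rw [map_mul, hb, hb'], by
      rw [Submonoid.coe_mul, ← Ideal.span_singleton_mul_span_singleton, hG, hG', Submonoid.coe_mul,
        mul_pow]⟩
  inv_mem' := fun {q} h => by rwa [sqClass_inv]

theorem mem_virtUnits {q : SqClass K} : q ∈ virtUnits K ↔ (sqf q).1.1 = ⊤ := by
  refine ⟨fun ⟨b, G, hb, hG⟩ => sqf_eq hb ?_ (G := G.1) (by rw [hG, Ideal.top_mul]), fun h => ?_⟩
  · rw [← Ideal.one_eq_top]; exact squarefree_one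
  · obtain ⟨b, G, hb, -, hG⟩ := exists_rep q (top_ne_bot (α := Ideal (𝓞 K)))
    exact ⟨b, G, hb, by rwa [h, Ideal.top_mul] at hG⟩

/-- A unit as a square class. -/
def unitClass : (𝓞 K)ˣ →* SqClass K :=
  (QuotientGroup.mk' _).comp (Units.map (algebraMap (𝓞 K) K).toMonoidHom)

omit [NumberField K] in
theorem unitClass_eq (u : (𝓞 K)ˣ) :
    unitClass u = sqc ⟨(u : 𝓞 K), mem_nonZeroDivisors_of_ne_zero u.ne_zero⟩ :=
  congrArg (QuotientGroup.mk' _) (Units.ext rfl)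

/-- **The units modulo squares.** -/
theorem card_range_unitClass :
    Nat.card (unitClass (K := K)).range = 2 ^ (Units.rank K + 1) := by
  obtain ⟨g, hg⟩ := IsCyclic.exists_generator (α := Units.torsion K)
  set ζ : (𝓞 K)ˣ := g.1
  let F : Fin 2 × (Fin (Units.rank K) → Fin 2) → (unitClass (K := K)).range := fun e =>
    ⟨unitClass (ζ ^ (e.1 : ℕ) * ∏ i, Units.fundSystem K i ^ (e.2 i : ℕ)), _, rfl⟩
  rw [← Nat.card_eq_of_bijective F ⟨?_, ?_⟩]
  · rw [Nat.card_eq_fintype_card, Fintype.card_prod, Fintype.card_fin, Fintype.card_fun,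
      Fintype.card_fin, Fintype.card_fin, pow_succ']
  · rintro ⟨t, e⟩ ⟨t', e'⟩ h
    have h' := congrArg Subtype.val h
    simp only [F] at h'
    rw [unitClass_eq, unitClass_eq, sqc_eq_iff] at h'
    obtain ⟨r, hr⟩ := h'
    have hru : IsUnit r := (isUnit_pow_iff two_ne_zero).mp (by
      rw [← hr]
      exact IsUnit.mul
        (show IsUnit ((ζ ^ (t : ℕ) * ∏ i, Units.fundSystem K i ^ (e i : ℕ) : (𝓞 K)ˣ) : 𝓞 K) from
          Units.isUnit _)
        (show IsUnit ((ζ ^ (t' : ℕ) * ∏ i, Units.fundSystem K i ^ (e' i : ℕ) : (𝓞 K)ˣ) : 𝓞 K) from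
          Units.isUnit _))
    obtain ⟨w, rfl⟩ := hru
    obtain ⟨⟨τ, f⟩, hw, -⟩ := Units.exist_unique_eq_mul_prod K w
    have hτ : ∃ a : ℤ, (τ : (𝓞 K)ˣ) = ζ ^ a := by
      obtain ⟨a, ha⟩ := Subgroup.mem_zpowers_iff.mp (hg τ)
      exact ⟨a, by rw [← ha]; rfl⟩
    obtain ⟨a, ha⟩ := hτ
    have e1 : ζ ^ ((t : ℤ) + t' - 2 * a) *
        ∏ i, Units.fundSystem K i ^ ((e i : ℤ) + e' i - 2 * f i) =
        (1 : (𝓞 K)ˣ) := by
      have hr' : (ζ ^ (t : ℕ) * ∏ i, Units.fundSystem K i ^ (e i : ℕ)) *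
          (ζ ^ (t' : ℕ) * ∏ i, Units.fundSystem K i ^ (e' i : ℕ)) = w ^ 2 := Units.ext hr
      rw [hw, ha] at hr'
      simp only [zpow_sub, zpow_add, zpow_natCast, Finset.prod_mul_distrib, Finset.prod_inv_distrib,
        mul_comm (2 : ℤ), zpow_mul, zpow_ofNat, Finset.prod_pow]
      rw [mul_mul_mul_comm, ← mul_inv, ← mul_pow, ← hr', mul_inv_eq_one, mul_mul_mul_comm]
    have huniq := Units.exist_unique_eq_mul_prod K (1 : (𝓞 K)ˣ)
    have key := huniq.unique (y₁ := (g ^ ((t : ℤ) + t' - 2 * a),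
        fun i => (e i : ℤ) + e' i - 2 * f i)) (y₂ := (1, 0))
      (by rw [show ((g ^ ((t : ℤ) + t' - 2 * a) : Units.torsion K) : (𝓞 K)ˣ) =
        ζ ^ ((t : ℤ) + t' - 2 * a) from rfl]; exact e1.symm) (by simp)
    rw [Prod.mk.injEq] at key
    refine Prod.ext ?_ (funext fun i => ?_)
    · have hneg : (-1 : (𝓞 K)ˣ) ∈ Units.torsion K :=
        ((CommGroup.mem_torsion _).mpr (isOfFinOrder_iff_pow_eq_one.mpr ⟨2, two_pos, by simp⟩))
      obtain ⟨m, hm⟩ := Subgroup.mem_zpowers_iff.mp (hg ⟨-1, hneg⟩)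
      have hm' : (g : (𝓞 K)ˣ) ^ m = -1 := congrArg Subtype.val hm
      have h2 : (orderOf g : ℤ) ∣ (t : ℤ) + t' - 2 * a := orderOf_dvd_iff_zpow_eq_one.mpr key.1
      have heven : 2 ∣ orderOf g := by
        have hg1 : orderOf (⟨-1, hneg⟩ : Units.torsion K) = 2 :=
          orderOf_eq_prime (Subtype.ext (by simp)) fun h1 => by
            have h' : (-1 : 𝓞 K) = 1 := by
              simpa using congrArg (fun x : Units.torsion K => ((x : (𝓞 K)ˣ) : 𝓞 K)) h1
            exact two_ne_zero (α := 𝓞 K) (by linear_combination -h')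
        rw [← hg1, ← hm]
        exact orderOf_dvd_of_pow_eq_one (by
          rw [← zpow_natCast, ← zpow_mul, mul_comm, zpow_mul, zpow_natCast, pow_orderOf_eq_one,
            one_zpow])
      have h3 : (2 : ℤ) ∣ (t : ℤ) + t' - 2 * a := (Int.natCast_dvd_natCast.mpr heven).trans h2
      have := t.isLt
      have := t'.isLt
      show t = t'
      exact Fin.ext (by omega)
    · have h3 := congrFun key.2 i
      simp only [Pi.zero_apply] at h3
      show e i = e' i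
      exact Fin.ext (by omega)
  · rintro ⟨q, u, rfl⟩
    obtain ⟨⟨t, e⟩, hu, -⟩ := Units.exist_unique_eq_mul_prod K u
    obtain ⟨a, ha⟩ := Subgroup.mem_zpowers_iff.mp (hg t)
    have hdiv : ∀ (x : (𝓞 K)ˣ) (n : ℤ), unitClass (x ^ n) = unitClass (x ^ (n % 2).toNat) := by
      intro x n
      rw [show x ^ n = x ^ (n % 2).toNat * (x ^ (n / 2)) ^ 2 by
        rw [← zpow_natCast, ← zpow_natCast (x ^ (n / 2)), ← zpow_mul, ← zpow_add]
        congr 1
        omega, map_mul, map_pow unitClass (x ^ (n / 2)) 2, pow_two, sqClass_mul_self]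
      exact mul_one (unitClass (x ^ (n % 2).toNat) : SqClass K)
    refine ⟨(⟨(a % 2).toNat, by omega⟩, fun i => ⟨(e i % 2).toNat, by omega⟩), Subtype.ext ?_⟩
    simp only [F, map_mul, map_prod, ← hdiv]
    rw [show ζ ^ a = (t : (𝓞 K)ˣ) by rw [← ha]; rfl, hu, map_mul, map_prod]

/-- The class of the square root of the ideal of a virtual unit. -/
def rootFun (q : virtUnits K) : ClassGroup (𝓞 K) :=
  ClassGroup.mk0 (Classical.choose (Classical.choose_spec
    (q.2 : ∃ (b : (𝓞 K)⁰) (G : (Ideal (𝓞 K))⁰),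
      sqc b = q.1 ∧ Ideal.span {b.1} = G.1 ^ 2)))

theorem rootFun_eq (q : virtUnits K) {b : (𝓞 K)⁰} {G : (Ideal (𝓞 K))⁰} (hb : sqc b = q.1)
    (hG : Ideal.span {b.1} = G.1 ^ 2) : rootFun q = ClassGroup.mk0 G := by
  have hq : ∃ (b : (𝓞 K)⁰) (G : (Ideal (𝓞 K))⁰),
      sqc b = q.1 ∧ Ideal.span {b.1} = G.1 ^ 2 := q.2
  obtain ⟨hb', hG'⟩ := hq.choose_spec.choose_spec
  obtain ⟨r, hr⟩ := sqc_eq_iff.mp (hb'.trans hb.symm)
  show ClassGroup.mk0 hq.choose_spec.choose = _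
  rw [ClassGroup.mk0_eq_mk0_iff]
  have hr0 : r ≠ 0 := fun h0 => by
    rw [h0, zero_pow two_ne_zero] at hr
    exact mul_ne_zero (nonZeroDivisors.coe_ne_zero _) (nonZeroDivisors.coe_ne_zero _) hr
  refine ⟨b.1, r, nonZeroDivisors.coe_ne_zero b, hr0, pow_left_injective two_ne_zero ?_⟩
  show (Ideal.span {b.1} * hq.choose_spec.choose.1) ^ 2 = (Ideal.span {r} * G.1) ^ 2
  have e : Ideal.span {r} ^ 2 = hq.choose_spec.choose.1 ^ 2 * G.1 ^ 2 := by
    rw [Ideal.span_singleton_pow, ← hr, ← Ideal.span_singleton_mul_span_singleton]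
    exact congrArg₂ (· * ·) hG' hG
  rw [mul_pow, mul_pow, e, hG]
  ring

/-- The map to the two-torsion of the class group. -/
def rootHom : virtUnits K →* ClassGroup (𝓞 K) :=
  MonoidHom.mk' rootFun fun q q' => by
    obtain ⟨b, G, hb, hG⟩ := q.2
    obtain ⟨b', G', hb', hG'⟩ := q'.2
    rw [rootFun_eq q hb hG, rootFun_eq q' hb' hG', ← map_mul]
    refine rootFun_eq _ (b := b * b') (by rw [map_mul, hb, hb']; rfl) ?_
    rw [Submonoid.coe_mul, ← Ideal.span_singleton_mul_span_singleton, hG, hG', Submonoid.coe_mul,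
      mul_pow]

theorem rootHom_eq (q : virtUnits K) {b : (𝓞 K)⁰} {G : (Ideal (𝓞 K))⁰} (hb : sqc b = q.1)
    (hG : Ideal.span {b.1} = G.1 ^ 2) : rootHom q = ClassGroup.mk0 G := rootFun_eq q hb hG

/-- `#Cl[2]`. -/
def twoRank (K : Type) [Field K] [NumberField K] : ℕ :=
  Nat.card (powMonoidHom 2 : ClassGroup (𝓞 K) →* ClassGroup (𝓞 K)).ker

theorem range_rootHom :
    (rootHom (K := K)).range = (powMonoidHom 2 : ClassGroup (𝓞 K) →* ClassGroup (𝓞 K)).ker := by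
  ext C
  constructor
  · rintro ⟨q, rfl⟩
    obtain ⟨b, G, hb, hG⟩ := q.2
    show rootHom q ^ 2 = 1
    rw [rootHom_eq q hb hG, ← map_pow]
    exact (ClassGroup.mk0_eq_one_iff (SetLike.coe_mem (G ^ 2))).mpr
      ⟨b.1, show ((G ^ 2 : (Ideal (𝓞 K))⁰) : Ideal (𝓞 K)) = Ideal.span {b.1} by
        rw [SubmonoidClass.coe_pow, hG]⟩
  · intro hC
    obtain ⟨G, rfl⟩ := ClassGroup.mk0_surjective C
    rw [MonoidHom.mem_ker, powMonoidHom_apply, ← map_pow] at hC
    obtain ⟨b, hb⟩ := (ClassGroup.mk0_eq_one_iff (SetLike.coe_mem (G ^ 2))).mp hC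
    have hb' : G.1 ^ 2 = Ideal.span {b} := hb
    have hb0 : b ≠ 0 := fun h0 => pow_ne_zero 2 (nonZeroDivisors.coe_ne_zero G) (by
      rw [hb', h0]; simp)
    let b₀ : (𝓞 K)⁰ := ⟨b, mem_nonZeroDivisors_of_ne_zero hb0⟩
    exact ⟨⟨sqc b₀, b₀, G, rfl, hb'.symm⟩, rootHom_eq _ rfl hb'.symm⟩

theorem ker_rootHom :
    (rootHom (K := K)).ker.map (virtUnits K).subtype = (unitClass (K := K)).range := by
  ext q
  constructor
  · rintro ⟨q, hq, rfl⟩
    obtain ⟨b, G, hb, hG⟩ := q.2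
    rw [SetLike.mem_coe, MonoidHom.mem_ker, rootHom_eq q hb hG] at hq
    obtain ⟨g, hg⟩ := (ClassGroup.mk0_eq_one_iff (SetLike.coe_mem G)).mp hq
    rw [show G.1 = Ideal.span {g} from hg, Ideal.span_singleton_pow] at hG
    obtain ⟨u, hu⟩ := Ideal.span_singleton_eq_span_singleton.mp hG.symm
    refine ⟨u, ?_⟩
    rw [unitClass_eq, show (virtUnits K).subtype q = sqc b from hb.symm, sqc_eq_iff]
    exact ⟨(u : 𝓞 K) * g, by show (u : 𝓞 K) * b.1 = _; rw [← hu]; ring⟩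
  · rintro ⟨u, rfl⟩
    have hu : Ideal.span {((u : 𝓞 K))} = (1 : (Ideal (𝓞 K))⁰).1 ^ 2 := by
      rw [Ideal.span_singleton_eq_top.mpr u.isUnit]
      simp [← Ideal.one_eq_top]
    refine ⟨⟨unitClass u, _, 1, (unitClass_eq u).symm, hu⟩, ?_, rfl⟩
    rw [SetLike.mem_coe, MonoidHom.mem_ker, rootHom_eq _ (unitClass_eq u).symm hu, map_one]

/-- **The virtual units.** -/
theorem card_virtUnits : Nat.card (virtUnits K) = 2 ^ (Units.rank K + 1) * twoRank K := by
  rw [Subgroup.card_eq_card_quotient_mul_card_subgroup (rootHom (K := K)).ker,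
    ← Subgroup.index_eq_card, Subgroup.index_ker, range_rootHom, ← card_range_unitClass,
    ← ker_rootHom, mul_comm]
  congr 1
  exact (Subgroup.card_map_of_injective (virtUnits K).subtype_injective).symm

theorem finite_virtUnits : Finite (virtUnits K) :=
  Nat.finite_of_card_ne_zero (by
    rw [card_virtUnits]
    exact mul_ne_zero (pow_ne_zero _ two_ne_zero) Nat.card_pos.ne')

end FA.DihedralQuartic
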