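import Fermat.Agent.NaturalChebotarev.RayClass
import Fermat.Agent.QuarticLower.Quadratic
import Fermat.Agent.WienerIkehara.Series

/-!
# Squarefree ideals in ray classes

Every ideal is uniquely a squarefree ideal times a square, so
`L (s, f) = L♭ (s, f) · L (2 s, f²)`, `L♭` running over the squarefree ideals. The Wiener–Ikehara
theorem gives the number of squarefree ideals whose class lies in a subgroup containing the squares.
-/

set_option autoImplicit false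
set_option linter.style.haveILetI false

noncomputable section

open NumberField IsDedekindDomain Filter Topology FA.Hecke
open FA.Ext (primeIdeal two_le_absNorm)
open FA.AbelianZeta (normPow)
open FA.PrimeIdeal (primePow)
open scoped nonZeroDivisors Classical

namespace FA.DihedralQuartic

variable {K : Type} [Field K] [NumberField K] {𝔪 : Ideal (𝓞 K)}

/-- The squarefree ideals. -/
abbrev SqfIdeal (K : Type) [Field K] [NumberField K] : Type :=
  {J : (Ideal (𝓞 K))⁰ // Squarefree J.1}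

/-- A squarefree ideal and the root of the square. -/
def sqfEquiv (K : Type) [Field K] [NumberField K] :
    SqfIdeal K × (Ideal (𝓞 K))⁰ ≃ (Ideal (𝓞 K))⁰ :=
  Equiv.ofBijective (fun p => p.1.1 * p.2 ^ 2) ⟨fun p q h => by
    have h' : p.1.1.1 * p.2.1 ^ 2 = q.1.1.1 * q.2.1 ^ 2 := by
      simpa using congrArg Subtype.val h
    have e := FA.QuarticLower.eq_of_squarefree p.1.2 q.1.2 (nonZeroDivisors.coe_ne_zero _)
      (nonZeroDivisors.coe_ne_zero _) (nonZeroDivisors.coe_ne_zero _)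
      (nonZeroDivisors.coe_ne_zero _) h'
    rw [e] at h'
    refine Prod.ext (Subtype.ext (Subtype.ext e)) (Subtype.ext ?_)
    exact pow_left_injective two_ne_zero (mul_left_cancel₀ (nonZeroDivisors.coe_ne_zero _) h'),
  fun I => by
    obtain ⟨J, G, hJ, hG, hsq, h⟩ :=
      FA.QuarticLower.exists_squarefree_mul_sq I.1 (nonZeroDivisors.coe_ne_zero I)
    exact ⟨⟨⟨⟨J, mem_nonZeroDivisors_of_ne_zero hJ⟩, hsq⟩, ⟨G, mem_nonZeroDivisors_of_ne_zero hG⟩⟩,
      Subtype.ext (by simpa using h.symm)⟩⟩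

theorem sqfEquiv_apply (p : SqfIdeal K × (Ideal (𝓞 K))⁰) : sqfEquiv K p = p.1.1 * p.2 ^ 2 := rfl

/-- `L♭ (s, f)`. -/
def sqfL (f : Ideal (𝓞 K) →* ℂ) (s : ℂ) : ℂ := ∑' J : SqfIdeal K, lHom f s J.1

/-- **The series over squarefree ideals.** -/
theorem heckeL_eq_sqfL_mul {f : Ideal (𝓞 K) →* ℂ} (h : IsRayChar 𝔪 f) {s : ℂ} (hs : 1 < s.re) :
    heckeL f s = sqfL f s * heckeL (f * f) (2 * s) := by
  have h2 : 1 < (2 * s).re := by simp; linarith
  rw [heckeL, sqfL, heckeL, tsum_mul_tsum_of_summable_norm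
    ((h.summable_lHom hs).comp_injective Subtype.val_injective) ((h.mul h).summable_lHom h2),
    ← (sqfEquiv K).tsum_eq]
  refine tsum_congr fun p => ?_
  have hpow : normPow (2 * s) p.2 = normPow s p.2 ^ 2 := by
    show ((Ideal.absNorm p.2.1 : ℕ) : ℂ) ^ (-(2 * s)) = _
    rw [show -(2 * s) = ((2 : ℕ) : ℂ) * (-s) by push_cast; ring, Complex.cpow_nat_mul]
    rfl
  rw [sqfEquiv_apply, map_mul, map_pow, lHom_apply, lHom_apply, lHom_apply, hpow,
    MonoidHom.mul_apply]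
  ring

/-- The principal character modulo `𝔪`. -/
def prin (h𝔪 : 𝔪 ≠ ⊥) : Ideal (𝓞 K) →* ℂ := rayCharFn h𝔪 1

theorem isRayChar_prin (h𝔪 : 𝔪 ≠ ⊥) : IsRayChar 𝔪 (prin h𝔪) := isRayChar_rayCharFn h𝔪 1

theorem prin_apply (h𝔪 : 𝔪 ≠ ⊥) (I : Ideal (𝓞 K)) :
    prin h𝔪 I = if I ≠ ⊥ ∧ I ⊔ 𝔪 = ⊤ then 1 else 0 := by
  show (if h : I ≠ ⊥ ∧ I ⊔ 𝔪 = ⊤ then _ else 0) = _
  split_ifs with h
  · rw [MonoidHom.one_apply, Units.val_one]
  · rfl

theorem prin_trivial (h𝔪 : 𝔪 ≠ ⊥) : ¬ IsNontrivial (prin h𝔪) := by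
  rintro ⟨I, -, h0, h1⟩
  rw [prin_apply] at h0 h1
  split_ifs at h0 h1 with h
  · exact h1 rfl
  · exact h0 rfl

/-- The primes dividing `𝔪`. -/
def modPrimes (h𝔪 : 𝔪 ≠ ⊥) : Finset (HeightOneSpectrum (𝓞 K)) :=
  (Ideal.finite_factors h𝔪).toFinset

theorem mem_modPrimes (h𝔪 : 𝔪 ≠ ⊥) {v : HeightOneSpectrum (𝓞 K)} :
    v ∈ modPrimes h𝔪 ↔ v.asIdeal ∣ 𝔪 := Set.Finite.mem_toFinset _

theorem finite_zero_prin (h𝔪 : 𝔪 ≠ ⊥) :
    (isRayChar_prin h𝔪).finite_zero.toFinset = modPrimes h𝔪 := by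
  ext v
  rw [mem_modPrimes, Set.Finite.mem_toFinset, Set.mem_ofPred_eq, prin_apply, Ideal.dvd_iff_le]
  constructor
  · intro h
    by_contra hle
    rw [if_pos ⟨v.ne_bot, v.isMaximal.out.2 _ (lt_of_le_of_ne le_sup_left fun he =>
      hle (sup_eq_left.mp he.symm))⟩] at h
    exact one_ne_zero h
  · intro h
    rw [if_neg]
    rintro ⟨-, ht⟩
    rw [sup_eq_left.mpr h] at ht
    exact v.isPrime.ne_top ht

/-- `ζ_K (2)`, as a real number. -/
def zetaTwo (K : Type) [Field K] [NumberField K] : ℝ := (dedekindZeta K 2).re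

theorem dedekindZeta_two : dedekindZeta K 2 = (zetaTwo K : ℂ) ∧ 1 ≤ zetaTwo K := by
  have h2 : 1 < (2 : ℂ).re := by norm_num
  set a : (Ideal (𝓞 K))⁰ → ℝ := fun I => ((Ideal.absNorm I.1 : ℝ) ^ 2)⁻¹
  have ha : ∀ I, normPow (2 : ℂ) I = (a I : ℂ) := fun I => by
    show ((Ideal.absNorm I.1 : ℕ) : ℂ) ^ (-(2 : ℂ)) = _
    rw [Complex.cpow_neg, show (2 : ℂ) = ((2 : ℕ) : ℂ) by norm_num, Complex.cpow_natCast]
    push_cast [a]
    rfl
  have hs : Summable a := by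
    exact Complex.summable_ofReal.mp
      ((FA.AbelianZeta.summable_norm_normPow (F := K) h2).of_norm.congr ha)
  have he : dedekindZeta K 2 = ((∑' I, a I : ℝ) : ℂ) := by
    rw [FA.AbelianZeta.dedekindZeta_eq_tsum h2, Complex.ofReal_tsum]
    exact tsum_congr ha
  rw [zetaTwo, he, Complex.ofReal_re]
  refine ⟨rfl, le_trans (le_of_eq ?_) (hs.le_tsum 1 fun I _ => by positivity)⟩
  simp [a]

/-- The density of the squarefree ideals prime to `𝔪`. -/
def sqfDensity (h𝔪 : 𝔪 ≠ ⊥) : ℝ :=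
  dedekindZeta_residue K / zetaTwo K *
    ∏ v ∈ modPrimes h𝔪,
      (Ideal.absNorm v.asIdeal : ℝ) / ((Ideal.absNorm v.asIdeal : ℝ) + 1)

/-- The value at `1` of the continued ratio. -/
theorem ratio_one (h𝔪 : 𝔪 ≠ ⊥) {G : ℂ → ℂ} (hG : Differentiable ℂ G)
    (hG' : ∀ s : ℂ, 1 < s.re → (s - 1) * heckeL (prin h𝔪) s = G s) :
    G 1 / G 2 = (sqfDensity h𝔪 : ℂ) := by
  have h := isRayChar_prin h𝔪
  obtain ⟨G₀, hG₀, h₀, hG₀'⟩ :=
    FA.PrimeIdeal.exists_charG (1 : ClassGroup (𝓞 K) →* ℂˣ)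
  rw [if_pos rfl] at h₀
  set S := modPrimes h𝔪
  have hd : Differentiable ℂ fun s => ∏ v ∈ S, (1 - primePow s v) :=
    Differentiable.fun_finsetProd fun v _ => (differentiable_neg.const_cpow
      (Or.inl (Nat.cast_ne_zero.mpr (zero_lt_two.trans_le (two_le_absNorm v)).ne'))).const_sub 1
  have e : G = G₀ * fun s => ∏ v ∈ S, (1 - primePow s v) :=
    FA.PrimeIdeal.eq_of_eq_halfPlane hG (hG₀.mul hd) fun s hs => by
      rw [Pi.mul_apply, ← hG' s hs, ← hG₀' s hs,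
        heckeL_of_trivial h (prin_trivial h𝔪) hs, FA.PrimeIdeal.classLC_one hs, mul_assoc,
        finite_zero_prin]
  have h21 : 1 < (2 : ℂ).re := by norm_num
  have e2 : G₀ 2 = (zetaTwo K : ℂ) := by
    rw [← hG₀' 2 h21, FA.PrimeIdeal.classLC_one h21, dedekindZeta_two.1]
    ring
  rw [e, Pi.mul_apply, Pi.mul_apply, h₀, e2, sqfDensity, mul_div_mul_comm,
    ← Finset.prod_div_distrib, Complex.ofReal_mul, Complex.ofReal_div, Complex.ofReal_prod]
  congr 1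
  refine Finset.prod_congr rfl fun v _ => ?_
  set q : ℝ := (Ideal.absNorm v.asIdeal : ℝ)
  have hq : (2 : ℝ) ≤ q := by
    show (2 : ℝ) ≤ ((Ideal.absNorm v.asIdeal : ℕ) : ℝ)
    exact_mod_cast two_le_absNorm v
  have hp1 : primePow (1 : ℂ) v = ((q⁻¹ : ℝ) : ℂ) := by
    show ((Ideal.absNorm v.asIdeal : ℕ) : ℂ) ^ (-(1 : ℂ)) = _
    rw [Complex.cpow_neg_one]
    simp [q]
  have hp2 : primePow (2 : ℂ) v = ((q ^ 2)⁻¹ : ℝ) := by
    show ((Ideal.absNorm v.asIdeal : ℕ) : ℂ) ^ (-(2 : ℂ)) = _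
    rw [Complex.cpow_neg, show (2 : ℂ) = ((2 : ℕ) : ℂ) by norm_num, Complex.cpow_natCast]
    simp [q]
  rw [hp1, hp2, ← Complex.ofReal_one, ← Complex.ofReal_sub, ← Complex.ofReal_sub,
    ← Complex.ofReal_div, Complex.ofReal_inj]
  have h1 : q ≠ 0 := by linarith
  have h2 : q + 1 ≠ 0 := by linarith
  have h3 : q ^ 2 - 1 ≠ 0 := by nlinarith
  field_simp
  ring

/-- The squarefree ideals of norm at most `Y` with class in `S`. -/
def sqfSet (h𝔪 : 𝔪 ≠ ⊥) (S : Subgroup (RayClassGroup 𝔪)) (Y : ℝ) : Set (SqfIdeal K) :=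
  {J | (Ideal.absNorm J.1.1 : ℝ) ≤ Y ∧ ∃ h : J.1.1 ⊔ 𝔪 = ⊤, rayClass h𝔪 ⟨J.1, h⟩ ∈ S}

theorem finite_norm_le (Y : ℝ) : {J : SqfIdeal K | (Ideal.absNorm J.1.1 : ℝ) ≤ Y}.Finite :=
  ((Ideal.finite_setOfPred_absNorm_le (S := 𝓞 K) ⌊Y⌋₊).preimage
    (Set.injOn_of_injective (Subtype.val_injective.comp Subtype.val_injective))).subset
    fun _ hJ => Nat.le_floor hJ

instance countable_sqfIdeal : Countable (SqfIdeal K) :=
  Set.countable_univ_iff.mp ((Set.countable_iUnion fun n : ℕ =>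
    (finite_norm_le (K := K) n).countable).mono fun J _ =>
      Set.mem_iUnion.mpr ⟨Ideal.absNorm J.1.1, show (_ : ℝ) ≤ _ from le_rfl⟩)

theorem sqfSet_finite (h𝔪 : 𝔪 ≠ ⊥) (S : Subgroup (RayClassGroup 𝔪)) (Y : ℝ) :
    (sqfSet h𝔪 S Y).Finite :=
  (finite_norm_le Y).subset fun _ hJ => hJ.1

/-- **Squarefree ideals in a subgroup of the ray classes.** -/
theorem tendsto_sqf_count (h𝔪 : 𝔪 ≠ ⊥) (S : Subgroup (RayClassGroup 𝔪))
    (hS : ∀ γ : RayClassGroup 𝔪, γ ^ 2 ∈ S) :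
    Tendsto (fun Y : ℝ => ((sqfSet h𝔪 S Y).ncard : ℝ) / Y) atTop
      (𝓝 (sqfDensity h𝔪 / S.index)) := by
  have := finite_rayClassGroup h𝔪
  have : Fintype (RayClassGroup 𝔪 ⧸ S) := Fintype.ofFinite _
  let _ : Fintype (RayClassGroup 𝔪 ⧸ S →* ℂˣ) :=
    FA.Weight1.fintypeDual (U := RayClassGroup 𝔪 ⧸ S)
  set n : ℂ := (Fintype.card (RayClassGroup 𝔪 ⧸ S) : ℂ)
  have hn : n ≠ 0 := Nat.cast_ne_zero.mpr Fintype.card_ne_zero
  have hnS : n = (S.index : ℂ) := by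
    show ((Fintype.card _ : ℕ) : ℂ) = _
    rw [Subgroup.index_eq_card, Nat.card_eq_fintype_card]
  let F : (RayClassGroup 𝔪 ⧸ S →* ℂˣ) → (Ideal (𝓞 K) →* ℂ) := fun χ =>
    rayCharFn h𝔪 (χ.comp (QuotientGroup.mk' S))
  have hF : ∀ χ, IsRayChar 𝔪 (F χ) := fun χ => isRayChar_rayCharFn h𝔪 _
  have hFF : ∀ χ, F χ * F χ = prin h𝔪 := fun χ => MonoidHom.ext fun I => by
    rw [MonoidHom.mul_apply, prin_apply]
    show (if h : I ≠ ⊥ ∧ I ⊔ 𝔪 = ⊤ then _ else 0) * (if h : I ≠ ⊥ ∧ I ⊔ 𝔪 = ⊤ then _ else 0) = _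
    split_ifs with h
    · rw [← Units.val_mul, ← map_mul, MonoidHom.comp_apply, QuotientGroup.mk'_apply,
        (QuotientGroup.eq_one_iff _).mpr (by rw [← pow_two]; exact hS _), map_one, Units.val_one]
    · rw [mul_zero]
  have h₀ := isRayChar_prin h𝔪
  have ht := prin_trivial h𝔪
  obtain ⟨G₀, hG₀, -, hG₀'⟩ := exists_heckeG h₀
  have hne : ∀ s : ℂ, 1 ≤ s.re → G₀ (2 * s) ≠ 0 := fun s hs =>
    h₀.heckeG_ne_zero ht hG₀ hG₀' (by simp; linarith)
  set U := {s : ℂ | G₀ (2 * s) ≠ 0}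
  have hUo : IsOpen U :=
    isOpen_ne.preimage (hG₀.continuous.comp (continuous_const.mul continuous_id))
  have hmain : ∀ χ, ∃ H : ℂ → ℂ, DifferentiableOn ℂ H U ∧
      H 1 = (if χ = 1 then G₀ 1 / G₀ 2 else 0) ∧
      ∀ s : ℂ, 1 < s.re → (s - 1) * sqfL (F χ) s = H s := by
    intro χ
    obtain ⟨G, hG, hG1, hG'⟩ := exists_heckeG (hF χ)
    refine ⟨fun s => G s * (2 * s - 1) / G₀ (2 * s), ((hG.mul ((differentiable_id.const_mul
      (2 : ℂ)).sub_const 1)).differentiableOn).div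
      (hG₀.comp (differentiable_id.const_mul (2 : ℂ))).differentiableOn fun s hs => hs, ?_,
      fun s hs => ?_⟩
    · split_ifs with hχ
      · subst hχ
        have he : G = G₀ := FA.PrimeIdeal.eq_of_eq_halfPlane hG hG₀ fun s hs => by
          rw [← hG' s hs, ← hG₀' s hs]
          rfl
        subst he
        norm_num
      · show G 1 * (2 * 1 - 1) / G₀ (2 * 1) = 0
        rw [hG1 ?_]
        · simp
        obtain ⟨δ, hδ⟩ : ∃ δ, χ δ ≠ 1 := not_forall.mp fun h' => hχ (MonoidHom.ext h')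
        obtain ⟨γ, rfl⟩ := QuotientGroup.mk'_surjective S δ
        obtain ⟨I, rfl⟩ := rayClass_surjective h𝔪 γ
        refine ⟨I.1.1, nonZeroDivisors.coe_ne_zero I.1, ?_, ?_⟩
        · rw [rayCharFn_apply]; exact Units.ne_zero _
        · rw [rayCharFn_apply]; exact fun h' => hδ (Units.ext h')
    · have h2 : 1 < (2 * s).re := by simp; linarith
      have e := heckeL_eq_sqfL_mul (hF χ) hs
      rw [hFF] at e
      show _ = G s * (2 * s - 1) / G₀ (2 * s)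
      rw [eq_div_iff (hne s hs.le), ← hG' s hs, ← hG₀' _ h2, e]
      ring
  choose H hHd hH1 hH' using hmain
  have hU1 : U ∈ 𝓝 (1 : ℂ) := hUo.mem_nhds (hne 1 (by simp))
  set A : ℝ := sqfDensity h𝔪 / S.index
  set Gt : ℂ → ℂ := fun s => n⁻¹ * ∑ χ, dslope (H χ) 1 s
  have hGc : ContinuousOn Gt {s | 1 ≤ s.re} := by
    refine (continuousOn_const.mul (continuousOn_finsetSum _ fun χ _ => ?_)).mono
      (fun s hs => (hne s hs : s ∈ U))
    exact ((Complex.differentiableOn_dslope hU1).mpr (hHd χ)).continuousOn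
  set w : SqfIdeal K → ℝ := fun J =>
    if ∃ h : J.1.1 ⊔ 𝔪 = ⊤, rayClass h𝔪 ⟨J.1, h⟩ ∈ S then 1 else 0
  have hw : ∀ J, 0 ≤ w J := fun J => by simp only [w]; split_ifs <;> norm_num
  set x : SqfIdeal K → ℝ := fun J => Real.log (Ideal.absNorm J.1.1)
  have hN : ∀ J : SqfIdeal K, (1 : ℝ) ≤ Ideal.absNorm J.1.1 := fun J => by
    exact_mod_cast Nat.one_le_iff_ne_zero.mpr
      (Ideal.absNorm_ne_zero_of_nonZeroDivisors J.1)
  have hexp : ∀ (s : ℂ) (J : SqfIdeal K), Complex.exp (-(s * x J)) = normPow s J.1 := fun s J => by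
    show _ = ((Ideal.absNorm J.1.1 : ℕ) : ℂ) ^ (-s)
    rw [Complex.cpow_def_of_ne_zero (by
      exact_mod_cast Ideal.absNorm_ne_zero_of_nonZeroDivisors J.1), Complex.natCast_log]
    congr 1
    ring
  have hwsum : ∀ J : SqfIdeal K, (w J : ℂ) = n⁻¹ * ∑ χ, F χ J.1.1 := by
    intro J
    simp only [w]
    by_cases hJ : J.1.1 ⊔ 𝔪 = ⊤
    · have : ∀ χ, F χ J.1.1 = ((χ (QuotientGroup.mk' S (rayClass h𝔪 ⟨J.1, hJ⟩)) : ℂˣ) : ℂ) :=
        fun χ => rayCharFn_apply h𝔪 _ ⟨J.1, hJ⟩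
      rw [Finset.sum_congr rfl fun χ _ => this χ,
        FA.Weight1.sum_char_apply (U := RayClassGroup 𝔪 ⧸ S), QuotientGroup.mk'_apply]
      by_cases hc : rayClass h𝔪 ⟨J.1, hJ⟩ ∈ S
      · rw [if_pos ⟨hJ, hc⟩, if_pos ((QuotientGroup.eq_one_iff _).mpr hc)]
        show ((1 : ℝ) : ℂ) = n⁻¹ * n
        rw [inv_mul_cancel₀ hn, Complex.ofReal_one]
      · rw [if_neg fun ⟨_, h⟩ => hc h, if_neg fun h => hc ((QuotientGroup.eq_one_iff _).mp h)]
        simp
    · rw [if_neg fun ⟨h, _⟩ => hJ h, Finset.sum_eq_zero fun χ _ =>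
        (hF χ).eq_zero_of_not (nonZeroDivisors.coe_ne_zero J.1) hJ]
      simp
  have hsum : ∀ σ > (1 : ℝ), Summable fun J => w J * Real.exp (-(σ * x J)) := by
    intro σ hσ
    refine Summable.of_nonneg_of_le (fun J => mul_nonneg (hw J) (Real.exp_pos _).le)
      (fun J => ?_) ((FA.AbelianZeta.summable_norm_normPow (F := K) (s := (σ : ℂ))
        (by simpa using hσ)).comp_injective Subtype.val_injective)
    simp only [Function.comp_apply, ← hexp, Complex.norm_exp]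
    refine le_trans (mul_le_of_le_one_left (Real.exp_pos _).le ?_) (le_of_eq (by simp))
    simp only [w]; split_ifs <;> norm_num
  have heq : ∀ s : ℂ, 1 < s.re →
      Gt s = (∑' J, (w J : ℂ) * Complex.exp (-(s * x J))) - (A : ℂ) / (s - 1) := by
    intro s hs
    have hs1 : s - 1 ≠ 0 := FA.PrimeIdeal.sub_one_ne_zero hs
    have hL : (∑' J, (w J : ℂ) * Complex.exp (-(s * x J))) = n⁻¹ * ∑ χ, sqfL (F χ) s := by
      simp only [hwsum, hexp, mul_assoc, Finset.sum_mul]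
      rw [tsum_mul_left]
      congr 1
      simp only [sqfL, lHom_apply]
      exact Summable.tsum_finsetSum fun χ _ =>
        (((hF χ).summable_lHom hs).of_norm.comp_injective Subtype.val_injective).congr
          fun J => lHom_apply _ _ _
    have hd : ∀ χ, dslope (H χ) 1 s = sqfL (F χ) s - H χ 1 / (s - 1) := fun χ => by
      rw [dslope_of_ne _ (fun h => hs1 (by rw [h, sub_self])), slope_def_field, ← hH' χ s hs,
        sub_div, mul_div_cancel_left₀ _ hs1]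
    simp only [Gt, hd, Finset.sum_sub_distrib, ← Finset.sum_div, hH1, Finset.sum_ite_eq',
      Finset.mem_univ, if_true, hL, A]
    rw [ratio_one h𝔪 hG₀ hG₀', Complex.ofReal_div, Complex.ofReal_natCast, ← hnS]
    field_simp
  have hlim := (FA.WienerIkehara.tendsto_weightSum (fun J => Real.log_nonneg (hN J)) hw hsum
    hGc heq).comp Real.tendsto_log_atTop
  refine hlim.congr' ?_
  filter_upwards [eventually_ge_atTop 1] with Y hY
  have hY0 : 0 < Y := by linarith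
  rw [Function.comp_apply, Real.exp_neg, Real.exp_log hY0, ← div_eq_mul_inv]
  congr 1
  set T := (sqfSet_finite h𝔪 S Y).toFinset
  have hmem : ∀ J, J ∈ T ↔ (if x J ≤ Real.log Y then w J else 0) ≠ 0 := fun J => by
    rw [Set.Finite.mem_toFinset]
    simp only [sqfSet, Set.mem_ofPred_eq, x, w,
      Real.log_le_log_iff (zero_lt_one.trans_le (hN J)) hY0]
    split_ifs <;> simp_all
  rw [FA.WienerIkehara.weightSum, tsum_eq_sum (s := T) (fun J hJ => by
    by_contra h; exact hJ ((hmem J).mpr h)), Set.ncard_eq_toFinset_card _ (sqfSet_finite h𝔪 S Y),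
    Finset.card_eq_sum_ones, Nat.cast_sum]
  refine Finset.sum_congr rfl fun J hJ => ?_
  have := (hmem J).mp hJ
  simp only [w] at this ⊢
  split_ifs at this ⊢ <;> simp_all

end FA.DihedralQuartic
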